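import Mathlib

set_option autoImplicit false

open NumberField Polynomial
open scoped Pointwise nonZeroDivisors

namespace Fermat.Agent.S14Lib

theorem exists_int_sub_mem {K : Type*} [Field K] [NumberField K] (I : Ideal (𝓞 K))
    (hI : (Ideal.absNorm I).Prime) (x : 𝓞 K) : ∃ n : ℤ, x - n ∈ I := by
  have : Fact (Ideal.absNorm I).Prime := ⟨hI⟩
  have hcard : Nat.card (𝓞 K ⧸ I) = Ideal.absNorm I := by
    rw [Ideal.absNorm_apply, Submodule.cardQuot_apply]
  have hcard' : (Nat.card (𝓞 K ⧸ I)).Prime := by rwa [hcard]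
  have hne : (1 : 𝓞 K ⧸ I) ≠ 0 := by
    intro h
    have h1 : I = ⊤ := by
      rw [Ideal.eq_top_iff_one]
      rwa [← map_one (Ideal.Quotient.mk I), Ideal.Quotient.eq_zero_iff_mem] at h
    rw [h1, Ideal.absNorm_top] at hI
    exact Nat.not_prime_one hI
  have : Fact (Nat.card (𝓞 K ⧸ I)).Prime := ⟨hcard'⟩
  rcases (AddSubgroup.zmultiples (1 : 𝓞 K ⧸ I)).eq_bot_or_eq_top_of_prime_card with h | h
  · exfalso
    apply hne
    have : (1 : 𝓞 K ⧸ I) ∈ AddSubgroup.zmultiples (1 : 𝓞 K ⧸ I) := AddSubgroup.mem_zmultiples 1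
    rw [h, AddSubgroup.mem_bot] at this
    exact this
  · have : Ideal.Quotient.mk I x ∈ AddSubgroup.zmultiples (1 : 𝓞 K ⧸ I) := by
      rw [h]; trivial
    rw [AddSubgroup.mem_zmultiples_iff] at this
    obtain ⟨n, hn⟩ := this
    refine ⟨n, ?_⟩
    rw [← Ideal.Quotient.eq, ← hn, zsmul_one, map_intCast]

theorem pow_prime_sub_mem {R : Type*} [CommRing R] {p : ℕ} (hp : p.Prime) (Q : Ideal R)
    (hpQ : (p : R) ∈ Q ^ (p - 1)) (y m : R) (h : y - m ∈ Q) : y ^ p - m ^ p ∈ Q ^ p := by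
  obtain ⟨r, hr⟩ := exists_add_pow_prime_eq hp m (y - m)
  rw [add_sub_cancel] at hr
  have : y ^ p - m ^ p = (y - m) ^ p + (p * (y - m)) * (m * r) := by rw [hr]; ring
  rw [this]
  refine Ideal.add_mem _ (Ideal.pow_mem_pow h p) (Ideal.mul_mem_right _ _ ?_)
  have h2 : Q ^ p = Q ^ (p - 1) * Q := by
    rw [← pow_succ, Nat.sub_add_cancel hp.one_le]
  rw [h2]
  exact Ideal.mul_mem_mul hpQ h

section cyc
variable (p : ℕ) [hp : Fact p.Prime] (K : Type*) [Field K] [NumberField K]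
  [IsCyclotomicExtension {p} ℚ K]

theorem absNorm_aux {ζ : K} (hζ : IsPrimitiveRoot ζ p) :
    (Ideal.absNorm (Ideal.span {hζ.toInteger - 1})) = p := by
  have hK : IsCyclotomicExtension {p ^ (0 + 1)} ℚ K := by rw [zero_add, pow_one]; infer_instance
  have hζ' : IsPrimitiveRoot ζ (p ^ (0 + 1)) := by rw [zero_add, pow_one]; exact hζ
  have := IsCyclotomicExtension.Rat.absNorm_span_zeta_sub_one p 0 hζ'
  exact this

theorem prime_absNorm_zeta_sub_one (z : 𝓞 K) (hz : IsPrimitiveRoot z p) :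
    (Ideal.absNorm (Ideal.span {z - 1})) = p := by
  have hz' : IsPrimitiveRoot (z : K) p := hz.map_of_injective RingOfIntegers.coe_injective
  have hzint : hz'.toInteger = z := RingOfIntegers.ext rfl
  have := absNorm_aux p K hz'
  rwa [hzint] at this

omit [NumberField K] [IsCyclotomicExtension {p} ℚ K] in

theorem zeta_sub_one_pow_dvd (z : 𝓞 K) (hz : IsPrimitiveRoot z p) :
    Associated ((z - 1) ^ (p - 1)) (p : 𝓞 K) := by
  have hz' : IsPrimitiveRoot (z : K) p := hz.map_of_injective RingOfIntegers.coe_injective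
  have hzint : hz'.toInteger = z := RingOfIntegers.ext rfl
  have := IsCyclotomicExtension.Rat.associated_zeta_sub_one_pow_prime p hz'
  rw [hzint] at this
  exact this

theorem pow_p_sub_int_mem (hp3 : 3 ≤ p) (z : 𝓞 K) (hz : IsPrimitiveRoot z p) (x : 𝓞 K) :
    ∃ m : ℤ, x ^ p - m ∈ Ideal.span {(z - 1) ^ 3} := by
  obtain ⟨n, hn⟩ := exists_int_sub_mem (Ideal.span {z - 1})
    (by rw [prime_absNorm_zeta_sub_one p K z hz]; exact hp.out) x
  refine ⟨n ^ p, ?_⟩
  have h1 := pow_prime_sub_mem hp.out (Ideal.span {z - 1}) (by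
    rw [Ideal.span_singleton_pow, Ideal.mem_span_singleton]
    exact (zeta_sub_one_pow_dvd p K z hz).dvd) x n hn
  rw [← Ideal.span_singleton_pow]
  push_cast
  exact Ideal.pow_le_pow_right hp3 h1

end cyc

end Fermat.Agent.S14Lib
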