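import Mathlib
import Fermat.Prelude.Def_ClassGroup_ModP

set_option autoImplicit false

namespace Fermat.Agent.S14Lib

open JacobiSumStickelberger

/-- Abstract eigenspace duality: a nonzero `χ`-eigenvector in `A[p]` gives a nonzero
`χ`-equivariant homomorphism `A → ZMod p`, when `|G| = -1` mod `p`. -/
theorem exists_equivariant_hom {p : ℕ} [hp : Fact p.Prime] {A : Type*} [AddCommGroup A] [Finite A]
    {G : Type*} [Group G] [Fintype G] [DistribMulAction G A] (χ : G →* (ZMod p)ˣ)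
    (hG : (Fintype.card G : ZMod p) = -1) (c : A) (hpc : p • c = 0) (hc : c ≠ 0)
    (hχ : ∀ g : G, g • c = ((χ g : ZMod p).val) • c) :
    ∃ ρ : A →+ ZMod p, ρ ≠ 0 ∧ ∀ (g : G) (a : A), ρ (g • a) = (χ g : ZMod p) * ρ a := by
  classical
  -- the maximal j
  have hex : ∃ j : ℕ, ¬ ∃ a : A, p ^ j • a = c := by
    by_contra hcon
    push Not at hcon
    obtain ⟨k, m, hm, hcard⟩ := Nat.exists_eq_pow_mul_and_not_dvd (Nat.card_pos (α := A)).ne' p
      hp.out.ne_one
    obtain ⟨a, ha⟩ := hcon k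
    have h1 : m • c = 0 := by
      rw [← ha, ← mul_nsmul, ← hcard]
      exact card_nsmul_eq_zero'
    have h2 : Nat.Coprime m p := ((Nat.Prime.coprime_iff_not_dvd hp.out).mpr hm).symm
    have h3 : addOrderOf c ∣ Nat.gcd m p := Nat.dvd_gcd (addOrderOf_dvd_of_nsmul_eq_zero h1)
      (addOrderOf_dvd_of_nsmul_eq_zero hpc)
    rw [h2.gcd_eq_one, Nat.dvd_one, AddMonoid.addOrderOf_eq_one_iff] at h3
    exact hc h3
  have hj0 : Nat.find hex ≠ 0 := by
    intro h
    have := Nat.find_spec hex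
    rw [h] at this
    exact this ⟨c, by simp⟩
  obtain ⟨j, hj⟩ := Nat.exists_eq_succ_of_ne_zero hj0
  have hjmem : ∃ a : A, p ^ j • a = c := by
    have := Nat.find_min hex (m := j) (by omega)
    push Not at this
    exact this
  have hjnot : ¬ ∃ a : A, p ^ (j + 1) • a = c := by
    have := Nat.find_spec hex
    rwa [hj] at this
  obtain ⟨a, ha⟩ := hjmem
  -- projector
  set e : A → A := fun x => ∑ g : G, (((χ g)⁻¹ : (ZMod p)ˣ) : ZMod p).val • (g • x) with he
  have hec : e c = -c := by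
    have h1 : ∀ g : G, (((χ g)⁻¹ : (ZMod p)ˣ) : ZMod p).val • (g • c) = c := by
      intro g
      rw [hχ g, ← mul_nsmul]
      have h2 : ((χ g : ZMod p).val * (((χ g)⁻¹ : (ZMod p)ˣ) : ZMod p).val : ℕ) ≡ 1 [MOD p] := by
        rw [← ZMod.natCast_eq_natCast_iff]
        rw [Nat.cast_mul, ZMod.natCast_zmod_val, ZMod.natCast_zmod_val, ← Units.val_mul,
          mul_inv_cancel, Units.val_one, Nat.cast_one]
      have h3 : addOrderOf c ∣ p := addOrderOf_dvd_of_nsmul_eq_zero hpc
      have h4 := (h2.of_dvd h3)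
      rw [← nsmul_eq_nsmul_iff_modEq] at h4
      rw [h4, one_nsmul]
    rw [he]
    simp only [h1, Finset.sum_const, Finset.card_univ]
    have h2 : (Fintype.card G + 1 : ℕ) ≡ 0 [MOD p] := by
      rw [← ZMod.natCast_eq_natCast_iff]
      push_cast
      rw [hG]; ring
    have h3 : addOrderOf c ∣ p := addOrderOf_dvd_of_nsmul_eq_zero hpc
    have h4 := (h2.of_dvd h3)
    rw [← nsmul_eq_nsmul_iff_modEq, zero_nsmul, add_nsmul, one_nsmul] at h4
    exact eq_neg_of_add_eq_zero_left h4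
  have hea : p ^ j • e a = e c := by
    rw [he]
    simp only
    rw [Finset.smul_sum]
    refine Finset.sum_congr rfl (fun g _ => ?_)
    rw [← ha, smul_comm (p ^ j) _ (g • a)]
    congr 1
    exact (map_nsmul (DistribSMul.toAddMonoidHom A g) (p ^ j) a).symm
  have hnot : ModP.proj p A (e a) ≠ 0 := by
    rw [Ne, ModP.proj_eq_zero_iff]
    rintro ⟨b, hb⟩
    apply hjnot
    refine ⟨-b, ?_⟩
    rw [pow_succ, mul_nsmul', smul_neg, smul_neg, hb, hea, hec, neg_neg]
  obtain ⟨φ, hφ⟩ : ∃ φ : Module.Dual (ZMod p) (ModP p A), φ (ModP.proj p A (e a)) ≠ 0 := by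
    by_contra hcon
    push Not at hcon
    exact hnot ((Module.forall_dual_apply_eq_zero_iff (ZMod p) _).mp hcon)
  let r : A →+ ZMod p := (φ : ModP p A →+ ZMod p).comp (ModP.proj p A)
  let ρ : A →+ ZMod p :=
    { toFun := fun x => ∑ g : G, (((χ g)⁻¹ : (ZMod p)ˣ) : ZMod p) * r (g • x)
      map_zero' := Finset.sum_eq_zero (fun g _ => by rw [smul_zero, map_zero, mul_zero])
      map_add' := fun x y => by
        rw [← Finset.sum_add_distrib]
        exact Finset.sum_congr rfl (fun g _ => by rw [smul_add, map_add, mul_add]) }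
  refine ⟨ρ, ?_, ?_⟩
  · intro h0
    apply hφ
    have h1 : ρ a = 0 := by rw [h0]; rfl
    have h2 : ρ a = r (e a) := by
      rw [he]
      simp only [map_sum, map_nsmul, nsmul_eq_mul]
      change ∑ g : G, (((χ g)⁻¹ : (ZMod p)ˣ) : ZMod p) * r (g • a) = _
      refine Finset.sum_congr rfl (fun g _ => ?_)
      rw [ZMod.natCast_zmod_val]
    rw [h1] at h2
    exact h2.symm
  · intro g x
    change ∑ h : G, (((χ h)⁻¹ : (ZMod p)ˣ) : ZMod p) * r (h • g • x) =
      (χ g : ZMod p) * ∑ h : G, (((χ h)⁻¹ : (ZMod p)ˣ) : ZMod p) * r (h • x)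
    rw [Finset.mul_sum]
    refine Fintype.sum_equiv (Equiv.mulRight g) _ _ (fun h => ?_)
    simp only [Equiv.coe_mulRight, mul_smul, map_mul, mul_inv_rev, Units.val_mul]
    rw [← mul_assoc, ← mul_assoc, Units.mul_inv, one_mul]

end Fermat.Agent.S14Lib
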