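import Mathlib

set_option autoImplicit false

open NumberField Polynomial

namespace Fermat.Agent.S14Lib

section tower

variable (p ℓ : ℕ) [hp : Fact p.Prime] [hl : Fact ℓ.Prime]
  (K F : Type*) [Field K] [NumberField K] [Field F] [NumberField F] [Algebra K F]
  [IsCyclotomicExtension {p} ℚ K] [IsCyclotomicExtension {ℓ} K F]

include p ℓ K F

theorem isCyc_mul (hne : p ≠ ℓ) : IsCyclotomicExtension {p * ℓ} ℚ F := by
  have h1 : IsCyclotomicExtension ({p} ∪ {ℓ}) ℚ F := IsCyclotomicExtension.trans {p} {ℓ} ℚ K F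
    (FaithfulSMul.algebraMap_injective K F)
  have hzp : IsPrimitiveRoot (algebraMap K F (IsCyclotomicExtension.zeta p ℚ K)) p :=
    (IsCyclotomicExtension.zeta_spec p ℚ K).map_of_injective
      (FaithfulSMul.algebraMap_injective K F)
  have hzl : IsPrimitiveRoot (IsCyclotomicExtension.zeta ℓ K F) ℓ :=
    IsCyclotomicExtension.zeta_spec ℓ K F
  have hcop : Nat.Coprime p ℓ := (Nat.coprime_primes hp.out hl.out).mpr hne
  have hpr : IsPrimitiveRoot (algebraMap K F (IsCyclotomicExtension.zeta p ℚ K) *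
      IsCyclotomicExtension.zeta ℓ K F) (p * ℓ) := by
    have hord : orderOf (algebraMap K F (IsCyclotomicExtension.zeta p ℚ K) *
      IsCyclotomicExtension.zeta ℓ K F) = p * ℓ := by
      rw [(Commute.all _ _).orderOf_mul_eq_mul_orderOf_of_coprime, ← hzp.eq_orderOf,
        ← hzl.eq_orderOf]
      rw [← hzp.eq_orderOf, ← hzl.eq_orderOf]; exact hcop
    rw [← hord]; exact IsPrimitiveRoot.orderOf _
  have h2 : IsCyclotomicExtension (({p} ∪ {ℓ}) ∪ {p * ℓ}) ℚ F :=
    IsCyclotomicExtension.union_of_isPrimitiveRoot ({p} ∪ {ℓ}) ℚ F hpr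
  have e : (({p} ∪ {ℓ}) ∪ {p * ℓ} : Set ℕ) = (({p * ℓ} ∪ {p}) ∪ {ℓ} : Set ℕ) := by
    ext x; simp only [Set.mem_union, Set.mem_singleton_iff]; tauto
  rw [e] at h2
  have h3 : IsCyclotomicExtension ({p * ℓ} ∪ {p}) ℚ F := by
    refine (IsCyclotomicExtension.iff_union_of_dvd (n := ℓ) ℚ F ⟨p * ℓ, by simp, ?_, Dvd.intro_left p rfl⟩).mpr h2
    exact mul_ne_zero hp.out.ne_zero hl.out.ne_zero
  refine (IsCyclotomicExtension.iff_union_of_dvd (n := p) ℚ F ⟨p * ℓ, by simp, ?_, Dvd.intro ℓ rfl⟩).mpr h3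
  exact mul_ne_zero hp.out.ne_zero hl.out.ne_zero

theorem finrank_KF (hne : p ≠ ℓ) : Module.finrank K F = ℓ - 1 := by
  have := isCyc_mul p ℓ K F hne
  have : NeZero (p * ℓ) := ⟨mul_ne_zero hp.out.ne_zero hl.out.ne_zero⟩
  have h1 : Module.finrank ℚ F = (p * ℓ).totient :=
    IsCyclotomicExtension.finrank (n := p * ℓ) F
      (Polynomial.cyclotomic.irreducible_rat (NeZero.pos _))
  have h2 : Module.finrank ℚ K = p.totient :=
    IsCyclotomicExtension.finrank (n := p) K
      (Polynomial.cyclotomic.irreducible_rat hp.out.pos)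
  have h3 := Module.finrank_mul_finrank ℚ K F
  have hcop : Nat.Coprime p ℓ := (Nat.coprime_primes hp.out hl.out).mpr hne
  rw [h1, h2, Nat.totient_mul hcop, Nat.totient_prime hl.out] at h3
  exact Nat.eq_of_mul_eq_mul_left (Nat.totient_pos.mpr hp.out.pos) h3

theorem irreducible_cyclotomic_K (hne : p ≠ ℓ) : Irreducible (cyclotomic ℓ K) := by
  have hzl : IsPrimitiveRoot (IsCyclotomicExtension.zeta ℓ K F) ℓ :=
    IsCyclotomicExtension.zeta_spec ℓ K F
  have hfin := finrank_KF p ℓ K F hne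
  have hint : IsIntegral K (IsCyclotomicExtension.zeta ℓ K F) := Algebra.IsIntegral.isIntegral _
  have hdeg : (minpoly K (IsCyclotomicExtension.zeta ℓ K F)).natDegree = ℓ - 1 := by
    rw [← hfin, (hzl.powerBasis K).finrank, ← PowerBasis.natDegree_minpoly,
      IsPrimitiveRoot.powerBasis_gen]
  have hdvd : minpoly K (IsCyclotomicExtension.zeta ℓ K F) ∣ cyclotomic ℓ K := by
    apply minpoly.dvd
    rw [aeval_def, eval₂_eq_eval_map, map_cyclotomic, ← IsRoot.def]
    exact (isRoot_cyclotomic_iff).mpr hzl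
  have heq : minpoly K (IsCyclotomicExtension.zeta ℓ K F) = cyclotomic ℓ K := by
    refine (eq_of_monic_of_dvd_of_natDegree_le (minpoly.monic hint) (cyclotomic.monic ℓ K)
      hdvd ?_).symm
    rw [hdeg, natDegree_cyclotomic, Nat.totient_prime hl.out]
  rw [← heq]
  exact minpoly.irreducible hint

theorem norm_one_add (hne : p ≠ ℓ) (hodd : Odd ℓ) {x : K} (hx : x ^ ℓ = x) (hx1 : 1 + x ≠ 0) :
    Algebra.norm K (1 + algebraMap K F x * IsCyclotomicExtension.zeta ℓ K F) = 1 := by
  have hirr := irreducible_cyclotomic_K p ℓ K F hne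
  have hζ : IsPrimitiveRoot (IsCyclotomicExtension.zeta ℓ K F) ℓ :=
    IsCyclotomicExtension.zeta_spec ℓ K F
  have hgal : IsGalois K F := IsCyclotomicExtension.isGalois {ℓ} K F
  have hinj := FaithfulSMul.algebraMap_injective K F
  apply hinj
  rw [Algebra.norm_eq_prod_automorphisms, map_one]
  set X := algebraMap K F x with hX
  set ζ := IsCyclotomicExtension.zeta ℓ K F with hζdef
  have hX1 : 1 + X ≠ 0 := by
    rw [hX, ← map_one (algebraMap K F), ← map_add]
    exact fun h => hx1 (hinj (by rw [h, map_zero]))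
  have hXl : X ^ ℓ = X := by rw [hX, ← map_pow, hx]
  have h1 : ∏ σ : F ≃ₐ[K] F, σ (1 + X * ζ) = ∏ μ ∈ primitiveRoots ℓ F, (1 + X * μ) := by
    refine Finset.prod_bij (fun σ _ => σ ζ) ?_ ?_ ?_ ?_
    · intro σ _
      rw [mem_primitiveRoots hl.out.pos]
      exact hζ.map_of_injective σ.injective
    · intro σ _ τ _ h
      refine IsCyclotomicExtension.algEquiv_eq_of_apply_eq {ℓ} K F (fun n hn _ => ?_)
      rw [Set.mem_singleton_iff] at hn
      subst hn
      exact ⟨ζ, hζ, h⟩
    · intro μ hμ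
      rw [mem_primitiveRoots hl.out.pos] at hμ
      exact ⟨IsCyclotomicExtension.fromZetaAut hμ hirr, Finset.mem_univ _,
        IsCyclotomicExtension.fromZetaAut_spec hμ hirr⟩
    · intro σ _
      rw [map_add, map_one, map_mul, hX, AlgEquiv.commutes]
  have h2 : (∏ μ ∈ primitiveRoots ℓ F, (1 + X * μ)) * (1 + X) = 1 + X := by
    have h3 := hζ.pow_add_pow_eq_prod_add_mul 1 X hodd
    classical
    have h4 : nthRootsFinset ℓ (1 : F) = insert 1 (primitiveRoots ℓ F) := by
      ext y
      rw [mem_nthRootsFinset hl.out.pos, Finset.mem_insert, mem_primitiveRoots hl.out.pos]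
      constructor
      · intro hy
        by_cases h1 : y = 1
        · left; exact h1
        · right
          have : orderOf y = ℓ := orderOf_eq_prime hy h1
          rw [← this]; exact IsPrimitiveRoot.orderOf y
      · rintro (rfl | hy)
        · exact one_pow _
        · exact hy.pow_eq_one
    rw [h4, Finset.prod_insert, one_pow, hXl] at h3
    · simp only [one_mul] at h3
      conv_rhs => rw [h3]
      rw [mul_comm]
      congr 1
      exact Finset.prod_congr rfl (fun μ _ => by rw [mul_comm X μ])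
    · rw [mem_primitiveRoots hl.out.pos]
      intro h
      exact hl.out.one_lt.ne' (h.unique IsPrimitiveRoot.one)
  rw [h1]
  exact mul_right_cancel₀ hX1 (by rw [h2, one_mul])

end tower

end Fermat.Agent.S14Lib
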