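import Mathlib

set_option autoImplicit false

namespace Fermat.Agent.S14Lib

/-- If `x ≡ y` mod `Q^2` with `x, y ∈ Q`, then `x^r ≡ y^r` mod `Q^(r+1)`. -/
theorem pow_sub_pow_mem {R : Type*} [CommRing R] (Q : Ideal R) {x y : R} (hx : x ∈ Q)
    (hy : y ∈ Q) (hxy : x - y ∈ Q ^ 2) (r : ℕ) : x ^ r - y ^ r ∈ Q ^ (r + 1) := by
  induction r with
  | zero => simp
  | succ n ih =>
    have h : x ^ (n + 1) - y ^ (n + 1) = x * (x ^ n - y ^ n) + (x - y) * y ^ n := by ring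
    rw [h]
    refine Ideal.add_mem _ ?_ ?_
    · rw [pow_succ' Q (n + 1)]
      exact Ideal.mul_mem_mul hx ih
    · have : Q ^ (n + 1 + 1) = Q ^ 2 * Q ^ n := by rw [← pow_add]; congr 1; ring
      rw [this]
      exact Ideal.mul_mem_mul hxy (Ideal.pow_mem_pow hy n)

/-- Tame local computation: `τ` acts trivially mod `Q`, by `s` on `Q/Q^2`; if `τ γ = ε γ` with
`γ` of valuation exactly `r` then `ε ≡ s^r` mod `Q`. -/
theorem tame_local {R : Type*} [CommRing R] [IsDedekindDomain R] (Q : Ideal R) (hQ : Q.IsPrime)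
    (hQ0 : Q ≠ ⊥) (τ : R →+* R) (hτ : ∀ x, τ x - x ∈ Q) (w : R) (hw : w ∈ Q) (hw2 : w ∉ Q ^ 2)
    (s : R) (hs : τ w - s * w ∈ Q ^ 2) (γ ε : R) (r : ℕ) (hγ : γ ∈ Q ^ r)
    (hγ' : γ ∉ Q ^ (r + 1)) (h : τ γ = ε * γ) : ε - s ^ r ∈ Q := by
  have hτQ : ∀ x ∈ Q, τ x ∈ Q := fun x hx => by
    have := Ideal.add_mem _ (hτ x) hx
    simpa using this
  have hτQn : ∀ (n : ℕ), ∀ x ∈ Q ^ n, τ x ∈ Q ^ n := fun n x hx => by
    have h1 : τ x ∈ (Q ^ n).map τ := Ideal.mem_map_of_mem τ hx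
    rw [Ideal.map_pow] at h1
    exact (Ideal.pow_right_mono (Ideal.map_le_iff_le_comap.mpr hτQ) n) h1
  have hwr : w ^ r ∉ Q ^ (r + 1) := by
    intro hmem
    have hprime : Prime Q := Ideal.prime_of_isPrime hQ0 hQ
    have h1 : Q ^ (r + 1) ∣ Ideal.span {w} ^ r := by
      rw [Ideal.span_singleton_pow, Ideal.dvd_span_singleton]; exact hmem
    have hwQ : Q ∣ Ideal.span {w} := by rw [Ideal.dvd_span_singleton]; exact hw
    obtain ⟨J, hJ⟩ := hwQ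
    rw [hJ, mul_pow, pow_succ] at h1
    have h2 : Q ∣ J ^ r := (mul_dvd_mul_iff_left (pow_ne_zero r hprime.ne_zero)).mp h1
    have h3 : Q ∣ J := hprime.dvd_of_dvd_pow h2
    apply hw2
    rw [← Ideal.dvd_span_singleton, hJ, pow_two]
    exact mul_dvd_mul_left Q h3
  obtain ⟨d, e, he, hde⟩ := Ideal.exists_mul_add_mem_pow_succ (P := Q) hQ0 (i := r) (w ^ r) γ (Ideal.pow_mem_pow hw r)
    hwr hγ
  -- τ γ - s^r γ ∈ Q^(r+1)
  have key : τ γ - s ^ r * γ ∈ Q ^ (r + 1) := by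
    have e1 : τ γ - s ^ r * γ = (τ d - d) * (s * w) ^ r + τ d * ((τ w) ^ r - (s * w) ^ r)
        + (τ e - s ^ r * e) + (s^r * (w ^ r * d + e - γ)) + (τ γ - τ (w ^ r * d + e)) := by
      simp only [map_add, map_mul, map_pow]; ring
    rw [e1, hde]
    simp only [sub_self, mul_zero, add_zero]
    refine Ideal.add_mem _ (Ideal.add_mem _ ?_ ?_) ?_
    · rw [pow_succ' Q r]
      exact Ideal.mul_mem_mul (hτ d) (Ideal.pow_mem_pow (Q.mul_mem_left _ hw) r)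
    · exact Ideal.mul_mem_left _ _ (pow_sub_pow_mem Q (hτQ w hw) (Q.mul_mem_left _ hw) hs r)
    · exact Ideal.sub_mem _ (hτQn _ _ he) (Ideal.mul_mem_left _ _ he)
  rw [h, ← sub_mul] at key
  rcases Ideal.IsPrime.mul_mem_pow Q key with h1 | h1
  · exact h1
  · exact absurd h1 hγ'

end Fermat.Agent.S14Lib
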