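import Mathlib
import Fermat.Agent.S14Lib.LocalTame
import Fermat.Agent.S14Lib.CycTower

set_option autoImplicit false

open NumberField Polynomial

namespace Fermat.Agent.S14Lib

theorem associated_sub_one_pow {A : Type*} [CommRing A] [IsDomain A] {ℓ : ℕ} [hl : Fact ℓ.Prime]
    {ζ : A} (hζ : IsPrimitiveRoot ζ ℓ) : Associated ((ζ - 1) ^ (ℓ - 1)) (ℓ : A) := by
  have h1 : (ℓ : A) = ∏ μ ∈ primitiveRoots ℓ A, (1 - μ) := by
    rw [← eval_one_cyclotomic_prime (R := A) (p := ℓ), cyclotomic_eq_prod_X_sub_primitiveRoots hζ,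
      eval_prod]
    simp
  have h2 : (ζ - 1) ^ (ℓ - 1) = ∏ _μ ∈ primitiveRoots ℓ A, (ζ - 1) := by
    rw [Finset.prod_const, hζ.card_primitiveRoots, Nat.totient_prime hl.out]
  rw [h1, h2]
  refine Associated.prod _ _ _ (fun μ hμ => ?_)
  rw [mem_primitiveRoots hl.out.pos] at hμ
  have : NeZero ℓ := ⟨hl.out.ne_zero⟩
  obtain ⟨i, hi, rfl⟩ := hζ.eq_pow_of_pow_eq_one hμ.pow_eq_one
  have hcop : i.Coprime ℓ := (hζ.pow_iff_coprime hl.out.pos i).mp hμ
  have h3 := hζ.associated_sub_one_pow_sub_one_of_coprime hcop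
  have : (1 - ζ ^ i) = -(ζ ^ i - 1) := by ring
  rw [this]
  exact h3.neg_right

/-- If `Q` is a prime with ramification index `ℓ - 1` over `ℤ` above `ℓ` then `ζ_ℓ - 1` is a
uniformizer. -/
theorem zeta_sub_one_uniformizer {F : Type*} [Field F] [NumberField F] {ℓ : ℕ} [hl : Fact ℓ.Prime]
    {w : 𝓞 F} (hw : IsPrimitiveRoot w ℓ) (Q : Ideal (𝓞 F)) [hQ : Q.IsPrime]
    [hQl : Q.LiesOver (Ideal.span {(ℓ : ℤ)})] (he : Q.ramificationIdx ℤ = ℓ - 1) :
    w - 1 ∈ Q ∧ w - 1 ∉ Q ^ 2 := by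
  have has := associated_sub_one_pow hw
  have hlQ : (ℓ : 𝓞 F) ∈ Q := by
    have h1 : (ℓ : ℤ) ∈ Q.under ℤ := by
      rw [← Ideal.over_def Q (Ideal.span {(ℓ : ℤ)})]
      exact Ideal.mem_span_singleton_self _
    simpa using h1
  constructor
  · obtain ⟨u, hu⟩ := has.symm
    have : (w - 1) ^ (ℓ - 1) ∈ Q := by
      rw [← hu]; exact Ideal.mul_mem_right _ _ hlQ
    exact hQ.mem_of_pow_mem _ this
  · intro h2
    have hl2 : (ℓ : 𝓞 F) ∈ Q ^ (2 * (ℓ - 1)) := by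
      obtain ⟨u, hu⟩ := has
      rw [← hu, pow_mul]
      exact Ideal.mul_mem_right _ _ (Ideal.pow_mem_pow h2 _)
    have hne : (Ideal.span {(ℓ : ℤ)}) ≠ ⊥ := by
      rw [Ne, Ideal.span_singleton_eq_bot]; exact_mod_cast hl.out.ne_zero
    have hprime : (Ideal.span {(ℓ : ℤ)}).IsPrime := by
      rw [Ideal.span_singleton_prime (by exact_mod_cast hl.out.ne_zero)]
      exact Nat.prime_iff_prime_int.mp hl.out
    have hmap : Ideal.map (algebraMap ℤ (𝓞 F)) (Ideal.span {(ℓ : ℤ)}) ≠ ⊥ :=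
      Ideal.map_ne_bot_of_ne_bot hne
    have he' := Ideal.IsDedekindDomain.ramificationIdx_eq_multiplicity (Ideal.span {(ℓ : ℤ)}) Q hmap
    rw [he] at he'
    have hle : Q ^ (2 * (ℓ - 1)) ∣ Ideal.map (algebraMap ℤ (𝓞 F)) (Ideal.span {(ℓ : ℤ)}) := by
      rw [Ideal.dvd_iff_le, Ideal.map_span, Ideal.span_le]
      intro x hx
      simp only [Set.image_singleton, Set.mem_singleton_iff] at hx
      rw [hx]
      simpa using hl2
    have hQ0 : Q ≠ ⊥ := by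
      rintro rfl
      rw [Ideal.mem_bot] at hlQ
      exact hl.out.ne_zero (by exact_mod_cast hlQ)
    have hfin : FiniteMultiplicity Q (Ideal.map (algebraMap ℤ (𝓞 F)) (Ideal.span {(ℓ : ℤ)})) :=
      FiniteMultiplicity.of_prime_left (Ideal.prime_of_isPrime hQ0 hQ) hmap
    rw [hfin.pow_dvd_iff_le_multiplicity, ← he'] at hle
    have := hl.out.two_le
    omega

end Fermat.Agent.S14Lib
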