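import Mathlib
import Fermat.Agent.S14Lib.Thaine1

set_option autoImplicit false

open NumberField Polynomial

namespace Fermat.Agent.S14Lib

section galois

variable (K F : Type) [Field K] [NumberField K] [Field F] [NumberField F] [Algebra K F]
  [IsGalois K F] [IsCyclic (F ≃ₐ[K] F)]

/-- Hilbert 90 in integral form. If `ε` is a unit of norm one and `τ` generates the Galois group,
there is a nonzero integral `γ` with `τ γ = ε γ`. -/
theorem exists_integral_hilbert90 (τ : F ≃ₐ[K] F) (hτ : ∀ x : F ≃ₐ[K] F, x ∈ Subgroup.zpowers τ)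
    (ε : (𝓞 F)ˣ) (hε : Algebra.norm K ((ε : 𝓞 F) : F) = 1) :
    ∃ γ : 𝓞 F, γ ≠ 0 ∧ τ • γ = (ε : 𝓞 F) * γ := by
  have hne : ((ε : 𝓞 F) : F) ≠ 0 := by
    exact_mod_cast ε.ne_zero
  have hinv : Algebra.norm K (((ε : 𝓞 F) : F)⁻¹) = 1 := by
    have h1 : Algebra.norm K (((ε : 𝓞 F) : F) * ((ε : 𝓞 F) : F)⁻¹) = 1 := by
      rw [mul_inv_cancel₀ hne, map_one]
    rwa [map_mul, hε, one_mul] at h1
  obtain ⟨y, hy⟩ := groupCohomology.exists_div_of_norm_eq_one hτ hinv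
  have halg : IsAlgebraic ℤ (y : F) :=
    (IsFractionRing.isAlgebraic_iff ℤ ℚ F).mpr (Algebra.IsAlgebraic.isAlgebraic _)
  obtain ⟨n, hn, hint⟩ := halg.exists_integral_multiple
  have hnF : (n : F) ≠ 0 := by exact_mod_cast hn
  refine ⟨⟨n • (y : F), hint⟩, ?_, ?_⟩
  · intro h
    have h' := congrArg (fun z : 𝓞 F => (z : F)) h
    simp only [zsmul_eq_mul] at h'
    change (n : F) * (y : F) = 0 at h'
    exact (mul_ne_zero hnF y.ne_zero) h'
  · apply RingOfIntegers.ext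
    change τ (n • (y : F)) = ((ε : 𝓞 F) : F) * (n • (y : F))
    have hτy : τ (y : F) ≠ 0 := (map_ne_zero τ).mpr y.ne_zero
    rw [map_zsmul, mul_smul_comm]
    congr 1
    rw [div_eq_iff hτy] at hy
    conv_rhs => rw [hy]
    rw [mul_inv_cancel_left₀ hne]

omit [IsGalois K F] [IsCyclic (F ≃ₐ[K] F)] in
theorem associated_smul (τ : F ≃ₐ[K] F) (hτ : ∀ x : F ≃ₐ[K] F, x ∈ Subgroup.zpowers τ)
    (ε : (𝓞 F)ˣ) (γ : 𝓞 F) (h : τ • γ = (ε : 𝓞 F) * γ) (σ : F ≃ₐ[K] F) :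
    Associated (σ • γ) γ := by
  have key : ∀ n : ℕ, Associated ((τ ^ n) • γ) γ := by
    intro n
    induction n with
    | zero => rw [pow_zero, one_smul]
    | succ n ih =>
      rw [pow_succ, mul_smul, h, smul_mul']
      refine (associated_unit_mul_left _ _ ?_).trans ih
      exact (ε.isUnit).map (MulSemiringAction.toRingHom (F ≃ₐ[K] F) (𝓞 F) (τ ^ n))
  have hσ := hτ σ
  rw [← mem_powers_iff_mem_zpowers] at hσ
  obtain ⟨n, rfl⟩ := hσ
  exact key n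

omit [IsCyclic (F ≃ₐ[K] F)] in
theorem associated_norm (τ : F ≃ₐ[K] F) (hτ : ∀ x : F ≃ₐ[K] F, x ∈ Subgroup.zpowers τ)
    (ε : (𝓞 F)ˣ) (γ : 𝓞 F) (h : τ • γ = (ε : 𝓞 F) * γ) :
    Associated (algebraMap (𝓞 K) (𝓞 F) (RingOfIntegers.norm K γ)) (γ ^ (Module.finrank K F)) := by
  classical
  have h1 : algebraMap (𝓞 K) (𝓞 F) (RingOfIntegers.norm K γ) = ∏ σ : F ≃ₐ[K] F, σ • γ := by
    apply RingOfIntegers.ext
    change algebraMap K F ((RingOfIntegers.norm K γ : 𝓞 K) : K) = _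
    rw [RingOfIntegers.coe_norm, Algebra.norm_eq_prod_automorphisms]
    rw [RingOfIntegers.coe_eq_algebraMap (∏ σ : F ≃ₐ[K] F, σ • γ), map_prod]
    rfl
  have h2 : γ ^ (Module.finrank K F) = ∏ _σ : F ≃ₐ[K] F, γ := by
    rw [Finset.prod_const, Finset.card_univ, ← Nat.card_eq_fintype_card,
      IsGalois.card_aut_eq_finrank]
  rw [h1, h2]
  exact Associated.prod _ _ _ (fun σ _ => associated_smul K F τ hτ ε γ h σ)

end galois

end Fermat.Agent.S14Lib
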