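import Mathlib
import Fermat.Agent.S14Lib.Thaine2

set_option autoImplicit false

open NumberField Polynomial

namespace Fermat.Agent.S14Lib

section general

variable (K F : Type) [Field K] [NumberField K] [Field F] [NumberField F] [Algebra K F]

/-- multiplicities up and down -/
theorem mult_relation (β : 𝓞 K) (hβ : β ≠ 0) (γ : 𝓞 F) (hγ : γ ≠ 0) (n : ℕ)
    (h : Associated (algebraMap (𝓞 K) (𝓞 F) β) (γ ^ n)) (q : Ideal (𝓞 K)) (hq : q.IsPrime)
    (hq0 : q ≠ ⊥) (Q : Ideal (𝓞 F)) (hQ : Q.IsPrime) [Q.LiesOver q] (hQ0 : Q ≠ ⊥) :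
    Q.ramificationIdx (𝓞 K) * multiplicity q (Ideal.span {β}) =
      n * multiplicity Q (Ideal.span {γ}) := by
  have hβ' : Ideal.span {β} ≠ ⊥ := by rwa [Ne, Ideal.span_singleton_eq_bot]
  have hγ' : Ideal.span {γ} ≠ ⊥ := by rwa [Ne, Ideal.span_singleton_eq_bot]
  have hqp := Ideal.prime_of_isPrime hq0 hq
  have hQp := Ideal.prime_of_isPrime hQ0 hQ
  have h1 := Ideal.IsDedekindDomain.emultiplicity_map_eq_ramificationIdx'_mul hβ' hqp.irreducible
    hQp.irreducible hQ0
  have h2 : (Ideal.span {β}).map (algebraMap (𝓞 K) (𝓞 F)) = (Ideal.span {γ}) ^ n := by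
    rw [Ideal.map_span, Set.image_singleton, Ideal.span_singleton_pow,
      Ideal.span_singleton_eq_span_singleton]
    exact h
  have hf1 : FiniteMultiplicity q (Ideal.span {β}) := FiniteMultiplicity.of_prime_left hqp hβ'
  have hf2 : FiniteMultiplicity Q (Ideal.span {γ}) := FiniteMultiplicity.of_prime_left hQp hγ'
  rw [h2, Ideal.ramificationIdx'_eq_ramificationIdx q Q hq0, emultiplicity_pow hQp,
    hf1.emultiplicity_eq_multiplicity, hf2.emultiplicity_eq_multiplicity] at h1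
  exact_mod_cast h1.symm

end general

theorem liesOver_of_mem {K : Type*} [Field K] [NumberField K] {ℓ : ℕ} (hl : ℓ.Prime)
    (q : Ideal (𝓞 K)) [hq : q.IsPrime] (h : (ℓ : 𝓞 K) ∈ q) :
    q.LiesOver (Ideal.span {(ℓ : ℤ)}) := by
  constructor
  have hmax : (Ideal.span {(ℓ : ℤ)}).IsMaximal :=
    PrincipalIdealRing.isMaximal_of_irreducible (Nat.prime_iff_prime_int.mp hl).irreducible
  refine hmax.eq_of_le ?_ ?_
  · intro h1
    exact hq.ne_top ((Ideal.comap_eq_top_iff).mp h1)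
  · rw [Ideal.span_singleton_le_iff_mem, Ideal.under_def, Ideal.mem_comap]
    simpa using h

theorem isUnit_one_add {A : Type*} [CommRing A] [IsDomain A] {μ : A} {m : ℕ} (hm : Odd m)
    (h : μ ^ m = 1) (h1 : μ ≠ 1) : IsUnit (1 + μ) := by
  obtain ⟨k, hk⟩ := hm
  have h2 : (μ ^ 2) ^ (k + 1) = μ := by
    rw [← pow_mul, show 2 * (k + 1) = m + 1 by omega, pow_succ, h, one_mul]
  have h3 : (μ - 1) * ((1 + μ) * ∑ i ∈ Finset.range (k + 1), (μ ^ 2) ^ i) = (μ - 1) * 1 := by
    have h4 := mul_geom_sum (μ ^ 2) (k + 1)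
    rw [h2] at h4
    calc _ = (μ ^ 2 - 1) * ∑ i ∈ Finset.range (k + 1), (μ ^ 2) ^ i := by ring
      _ = _ := by rw [h4, mul_one]
  have h5 := mul_left_cancel₀ (sub_ne_zero.mpr h1) h3
  exact IsUnit.of_mul_eq_one _ h5

variable (p ℓ : ℕ) [hp : Fact p.Prime] [hl : Fact ℓ.Prime]
  (K : Type) [Field K] [NumberField K] [IsCyclotomicExtension {p} ℚ K]

/-- Thaine's auxiliary element. -/
theorem exists_beta (hpodd : Odd p) (hne : p ≠ ℓ) (hdvd : p ∣ ℓ - 1) (z : 𝓞 K)
    (hz : IsPrimitiveRoot z p) :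
    ∃ (β : 𝓞 K) (s : ℕ), β ≠ 0 ∧
      (∀ q : Ideal (𝓞 K), q.IsPrime → q ≠ ⊥ → (ℓ : 𝓞 K) ∉ q →
        p ∣ multiplicity q (Ideal.span {β})) ∧
      (∀ q : Ideal (𝓞 K), q.IsPrime → (ℓ : 𝓞 K) ∈ q →
        1 + z - (s : 𝓞 K) ^ (multiplicity q (Ideal.span {β})) ∈ q) := by
  have hl2 : ℓ ≠ 2 := by
    rintro rfl
    have := hp.out.one_lt
    have := Nat.le_of_dvd (by norm_num) hdvd
    omega
  have hlodd : Odd ℓ := hl.out.odd_of_ne_two hl2
  have hl1 : 0 < ℓ - 1 := by have := hl.out.two_le; omega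
  let F : Type := CyclotomicField ℓ K
  have hcyc : IsCyclotomicExtension {ℓ} K F := inferInstance
  have hnf : NumberField F := inferInstance
  have hgal : IsGalois K F := IsCyclotomicExtension.isGalois {ℓ} K F
  have hirr := irreducible_cyclotomic_K p ℓ K F hne
  have hcycl : IsCyclic (F ≃ₐ[K] F) :=
    isCyclic_of_surjective (IsCyclotomicExtension.autEquivPow F hirr).symm
      (IsCyclotomicExtension.autEquivPow F hirr).symm.surjective
  obtain ⟨τ, hτ⟩ := hcycl.exists_generator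
  have hζ : IsPrimitiveRoot (IsCyclotomicExtension.zeta ℓ K F) ℓ :=
    IsCyclotomicExtension.zeta_spec ℓ K F
  set w : 𝓞 F := hζ.toInteger with hw
  have hwp : IsPrimitiveRoot w ℓ := hζ.toInteger_isPrimitiveRoot
  -- the image of w under τ
  have : NeZero ℓ := ⟨hl.out.ne_zero⟩
  obtain ⟨s, hs, hτw⟩ : ∃ s < ℓ, w ^ s = τ • w := by
    have : (τ • w) ^ ℓ = 1 := by rw [← smul_pow', hwp.pow_eq_one, smul_one]
    exact hwp.eq_pow_of_pow_eq_one this
  -- the unit ε
  set Z : 𝓞 F := algebraMap (𝓞 K) (𝓞 F) z with hZ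
  have hZp : IsPrimitiveRoot Z p := hz.map_of_injective (FaithfulSMul.algebraMap_injective _ _)
  have hμ1 : Z * w ≠ 1 := by
    intro h
    have h1 : Z ^ ℓ = 1 := by
      have := congrArg (· ^ ℓ) h
      simpa [mul_pow, hwp.pow_eq_one] using this
    have := (hZp.dvd_of_pow_eq_one ℓ h1)
    rcases (Nat.dvd_prime hl.out).mp this with h2 | h2
    · exact hp.out.one_lt.ne' h2
    · exact hne h2
  have hunit : IsUnit (1 + Z * w) := by
    refine isUnit_one_add (m := p * ℓ) (hpodd.mul hlodd) ?_ hμ1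
    rw [mul_pow, pow_mul, hZp.pow_eq_one, one_pow, mul_comm p ℓ, pow_mul, hwp.pow_eq_one, one_pow,
      one_mul]
  obtain ⟨ε, hε⟩ := hunit
  have hznorm : (z : K) ^ ℓ = (z : K) := by
    have h1 : z ^ ℓ = z := by
      obtain ⟨c, hc⟩ := hdvd
      have : ℓ = p * c + 1 := by omega
      rw [this, pow_succ, pow_mul, hz.pow_eq_one, one_pow, one_mul]
    exact_mod_cast congrArg (fun t : 𝓞 K => (t : K)) h1
  have h1z : 1 + (z : K) ≠ 0 := by
    have : IsUnit (1 + z) := isUnit_one_add hpodd hz.pow_eq_one (hz.ne_one hp.out.one_lt)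
    exact_mod_cast this.ne_zero
  have hnorm : Algebra.norm K ((ε : 𝓞 F) : F) = 1 := by
    have := norm_one_add p ℓ K F hne hlodd hznorm h1z
    rw [hε]
    exact_mod_cast this
  obtain ⟨γ, hγ0, hγ⟩ := exists_integral_hilbert90 K F τ hτ ε hnorm
  have hfin := finrank_KF p ℓ K F hne
  have hassoc := associated_norm K F τ hτ ε γ hγ
  rw [hfin] at hassoc
  set β := RingOfIntegers.norm K γ with hβ
  have hβ0 : β ≠ 0 := by
    intro h
    rw [h, map_zero] at hassoc
    exact pow_ne_zero _ hγ0 ((associated_zero_iff_eq_zero _).mp hassoc.symm)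
  have hcyc2 := isCyc_mul p ℓ K F hne
  refine ⟨β, s, hβ0, ?_, ?_⟩
  · intro q hq hq0 hlq
    obtain ⟨⟨Q, hQ, hQq⟩⟩ := Ideal.nonempty_primesOver (S := 𝓞 F) q
    have hQ0 : Q ≠ ⊥ := Ideal.ne_bot_of_liesOver_of_ne_bot hq0 Q
    have hrel := mult_relation K F β hβ0 γ hγ0 (ℓ - 1) hassoc q hq hq0 Q hQ hQ0
    have hrdvd : p ∣ Q.ramificationIdx (𝓞 K) * multiplicity q (Ideal.span {β}) := by
      rw [hrel]; exact hdvd.mul_right _
    refine (hp.out.dvd_mul.mp hrdvd).resolve_left ?_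
    intro hpe
    have : NeZero Q := ⟨hQ0⟩
    have hr := Nat.absNorm_under_prime Q
    set r := Ideal.absNorm (Ideal.under ℤ Q) with hrdef
    have hrQ : Q.LiesOver (Ideal.span {(r : ℤ)}) := Int.liesOver_span_absNorm Q
    have : Fact r.Prime := ⟨hr⟩
    have hrl : r ≠ ℓ := by
      intro h
      rw [h] at hrQ
      apply hlq
      have h1 : (ℓ : ℤ) ∈ Q.under ℤ := by
        rw [← Ideal.over_def Q (Ideal.span {(ℓ : ℤ)})]
        exact Ideal.mem_span_singleton_self _
      rw [Ideal.over_def Q q, Ideal.under_def, Ideal.mem_comap]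
      simpa using h1
    have htow : Q.ramificationIdx (𝓞 K) ∣ Q.ramificationIdx ℤ :=
      Ideal.ramificationIdx_above_dvd q Q
    have hpe' := hpe.trans htow
    by_cases hrp : r = p
    · have h1 := IsCyclotomicExtension.Rat.ramificationIdx_eq (p * ℓ) (m := ℓ) (p := r) (k := 0) F Q
        (by rw [hrp]; ring) (by rw [hrp, Nat.dvd_prime hl.out]; rintro (h | h); exact hp.out.one_lt.ne' h; exact hne h)
      rw [h1, hrp, pow_zero, one_mul] at hpe'
      have := Nat.le_of_dvd (by have := hp.out.two_le; omega) hpe'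
      have := hp.out.two_le
      omega
    · have : NeZero (p * ℓ) := ⟨mul_ne_zero hp.out.ne_zero hl.out.ne_zero⟩
      have h1 := IsCyclotomicExtension.Rat.ramificationIdx_eq_of_not_dvd (m := p * ℓ) r F Q
        (by
          rw [hr.dvd_mul, Nat.dvd_prime hp.out, Nat.dvd_prime hl.out]
          rintro ((h | h) | (h | h))
          · exact hr.one_lt.ne' h
          · exact hrp h
          · exact hr.one_lt.ne' h
          · exact hrl h)
      rw [h1, Nat.dvd_one] at hpe'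
      exact hp.out.one_lt.ne' hpe'
  · intro q hq hlq
    have hqL : q.LiesOver (Ideal.span {(ℓ : ℤ)}) := liesOver_of_mem hl.out q hlq
    have hq0 : q ≠ ⊥ := by
      rintro rfl
      rw [Ideal.mem_bot] at hlq
      exact hl.out.ne_zero (by exact_mod_cast hlq)
    obtain ⟨⟨Q, hQ, hQq⟩⟩ := Ideal.nonempty_primesOver (S := 𝓞 F) q
    have hQ0 : Q ≠ ⊥ := Ideal.ne_bot_of_liesOver_of_ne_bot hq0 Q
    have hrel := mult_relation K F β hβ0 γ hγ0 (ℓ - 1) hassoc q hq hq0 Q hQ hQ0
    have hQL : Q.LiesOver (Ideal.span {(ℓ : ℤ)}) := Ideal.LiesOver.trans Q q _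
    have hpl : ¬ ℓ ∣ p := by
      rw [Nat.dvd_prime hp.out]; rintro (h | h)
      · exact hl.out.one_lt.ne' h
      · exact hne h.symm
    have h1 := IsCyclotomicExtension.Rat.ramificationIdx_eq (p * ℓ) (m := p) (p := ℓ) (k := 0) F Q
        (by ring) hpl
    rw [pow_zero, one_mul] at h1
    have h2 := IsCyclotomicExtension.Rat.ramificationIdx_eq_of_not_dvd (m := p) ℓ K q hpl
    have h3 := Ideal.ramificationIdx_tower (R := ℤ) q Q
    rw [h1, h2, one_mul] at h3
    rw [← h3] at hrel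
    have hmul : multiplicity q (Ideal.span {β}) = multiplicity Q (Ideal.span {γ}) :=
      Nat.eq_of_mul_eq_mul_left hl1 hrel
    -- inertia
    have hinert : ∀ x : 𝓞 F, τ • x - x ∈ Q := by
      have h4 : Nat.card (Q.inertia (F ≃ₐ[K] F)) = ℓ - 1 := by
        rw [Ideal.card_inertia_eq_ramificationIdxIn q Q,
          Ideal.ramificationIdxIn_eq_ramificationIdx q Q (F ≃ₐ[K] F), ← h3]
      have h5 : Nat.card (F ≃ₐ[K] F) = ℓ - 1 := by rw [IsGalois.card_aut_eq_finrank, hfin]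
      have h6 : Q.inertia (F ≃ₐ[K] F) = ⊤ := by
        apply Subgroup.eq_top_of_card_eq
        rw [h4, h5]
      intro x
      have h7 : τ ∈ Q.inertia (F ≃ₐ[K] F) := by rw [h6]; exact Subgroup.mem_top _
      exact h7 x
    obtain ⟨hw1, hw2⟩ := zeta_sub_one_uniformizer hwp Q h1
    have hfinm : FiniteMultiplicity Q (Ideal.span {γ}) :=
      FiniteMultiplicity.of_prime_left (Ideal.prime_of_isPrime hQ0 hQ)
        (by rwa [Ne, Ideal.zero_eq_bot, Ideal.span_singleton_eq_bot])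
    have hres := tame_local Q hQ hQ0 (MulSemiringAction.toRingHom (F ≃ₐ[K] F) (𝓞 F) τ) hinert
      (w - 1) hw1 hw2 (s : 𝓞 F) ?_ γ ε (multiplicity Q (Ideal.span {γ})) ?_ ?_ hγ
    · rw [hmul]
      have h8 : algebraMap (𝓞 K) (𝓞 F) (1 + z - (s : 𝓞 K) ^ (multiplicity Q (Ideal.span {γ}))) ∈ Q := by
        have h9 : algebraMap (𝓞 K) (𝓞 F) (1 + z - (s : 𝓞 K) ^ (multiplicity Q (Ideal.span {γ}))) =
          ((ε : 𝓞 F) - (s : 𝓞 F) ^ (multiplicity Q (Ideal.span {γ}))) - Z * (w - 1) := by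
          rw [hε]
          simp only [map_sub, map_add, map_one, map_pow, map_natCast, ← hZ]
          ring
        rw [h9]
        exact Ideal.sub_mem _ hres (Ideal.mul_mem_left _ _ hw1)
      rw [Ideal.over_def Q q, Ideal.under_def, Ideal.mem_comap]
      exact h8
    · -- τ (w - 1) - s (w - 1)
      change τ • (w - 1) - (s : 𝓞 F) * (w - 1) ∈ Q ^ 2
      rw [smul_sub, smul_one, ← hτw]
      have h10 : w ^ s - 1 - (s : 𝓞 F) * (w - 1) =
          (w - 1) * ∑ i ∈ Finset.range s, (w ^ i - 1) := by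
        rw [Finset.sum_sub_distrib, mul_sub (w - 1), mul_geom_sum]
        simp only [Finset.sum_const, Finset.card_range, nsmul_eq_mul]
        ring
      rw [h10, pow_two]
      refine Ideal.mul_mem_mul hw1 (Ideal.sum_mem _ (fun i _ => ?_))
      obtain ⟨c, hc⟩ := sub_one_dvd_pow_sub_one w i
      rw [hc]
      exact Ideal.mul_mem_right _ _ hw1
    · have := pow_multiplicity_dvd Q (Ideal.span {γ})
      rwa [Ideal.dvd_span_singleton] at this
    · intro hmem
      rw [← Ideal.dvd_span_singleton] at hmem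
      rw [hfinm.pow_dvd_iff_le_multiplicity] at hmem
      omega

end Fermat.Agent.S14Lib
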