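import Mathlib
import Fermat.Agent.S14Lib.Thaine3

set_option autoImplicit false

open NumberField Polynomial
open scoped Pointwise nonZeroDivisors

namespace Fermat.Agent.S14Lib

variable (p : ℕ) [hp : Fact p.Prime] (K : Type) [Field K] [NumberField K]
  [IsCyclotomicExtension {p} ℚ K]

/-- The mod `p` cyclotomic character of `Gal(K/ℚ)`, `K = ℚ(ζ_p)`. -/
noncomputable def om (σ : K ≃ₐ[ℚ] K) : ZMod p :=
  ((IsCyclotomicExtension.Rat.galEquivZMod p K σ : (ZMod p)ˣ) : ZMod p)

theorem om_mul (σ τ : K ≃ₐ[ℚ] K) : om p K (σ * τ) = om p K σ * om p K τ := by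
  simp [om, map_mul]

theorem om_one : om p K 1 = 1 := by
  simp [om]

theorem om_ne_zero (σ : K ≃ₐ[ℚ] K) : om p K σ ≠ 0 := Units.ne_zero _

theorem om_inv (σ : K ≃ₐ[ℚ] K) : om p K σ⁻¹ = (om p K σ)⁻¹ := by
  have h := om_mul p K σ σ⁻¹
  rw [mul_inv_cancel, om_one] at h
  exact eq_inv_of_mul_eq_one_right h.symm

theorem smul_zeta (σ : K ≃ₐ[ℚ] K) {z : 𝓞 K} (hz : z ^ p = 1) :
    σ • z = z ^ (om p K σ).val :=
  IsCyclotomicExtension.Rat.galEquivZMod_smul_of_pow_eq p K σ hz

/-- The `ω²`-component of the cyclotomic unit `1 + ζ`. -/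
noncomputable def eta (z : 𝓞 K) : 𝓞 K :=
  ∏ σ : K ≃ₐ[ℚ] K, (σ⁻¹ • (1 + z)) ^ ((om p K σ ^ 2).val)

/-- additive version of a character of the class group, extended by zero. -/
noncomputable def clChar {p : ℕ} {K : Type} [Field K] [NumberField K]
    (ρ : ClassGroup (𝓞 K) →* Multiplicative (ZMod p)) (I : Ideal (𝓞 K)) : ZMod p :=
  open Classical in
  if h : I ≠ ⊥ then Multiplicative.toAdd (ρ (ClassGroup.mk0 ⟨I, mem_nonZeroDivisors_iff_ne_zero.mpr h⟩))
  else 0

section clChar
variable {p : ℕ} {K : Type} [Field K] [NumberField K]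
  (ρ : ClassGroup (𝓞 K) →* Multiplicative (ZMod p))

theorem clChar_mul {I J : Ideal (𝓞 K)} (hI : I ≠ ⊥) (hJ : J ≠ ⊥) :
    clChar ρ (I * J) = clChar ρ I + clChar ρ J := by
  have hIJ : I * J ≠ ⊥ := mul_ne_zero hI hJ
  rw [clChar, clChar, clChar, dif_pos hI, dif_pos hJ, dif_pos hIJ, ← toAdd_mul, ← map_mul,
    ← map_mul]
  rfl

theorem clChar_one : clChar ρ 1 = 0 := by
  rw [clChar, dif_pos (by rw [Ideal.one_eq_top]; exact top_ne_bot)]
  have : (⟨1, mem_nonZeroDivisors_iff_ne_zero.mpr (by rw [Ideal.one_eq_top]; exact top_ne_bot)⟩ :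
    (Ideal (𝓞 K))⁰) = 1 := rfl
  rw [this, map_one, map_one, toAdd_one]

theorem clChar_pow {I : Ideal (𝓞 K)} (hI : I ≠ ⊥) (n : ℕ) :
    clChar ρ (I ^ n) = n * clChar ρ I := by
  induction n with
  | zero => rw [pow_zero, clChar_one]; simp
  | succ n ih =>
    rw [pow_succ, clChar_mul ρ (pow_ne_zero n hI) hI, ih]; push_cast; ring

theorem clChar_prod {ι : Type*} (s : Finset ι) (f : ι → Ideal (𝓞 K)) (h : ∀ i ∈ s, f i ≠ ⊥) :
    clChar ρ (∏ i ∈ s, f i) = ∑ i ∈ s, clChar ρ (f i) := by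
  classical
  induction s using Finset.induction_on with
  | empty => rw [Finset.prod_empty, clChar_one, Finset.sum_empty]
  | insert a s ha ih =>
    rw [Finset.prod_insert ha, Finset.sum_insert ha, clChar_mul ρ (h a (Finset.mem_insert_self a s)),
      ih (fun i hi => h i (Finset.mem_insert_of_mem hi))]
    exact Finset.prod_ne_zero_iff.mpr (fun i hi => h i (Finset.mem_insert_of_mem hi))

theorem clChar_span {x : 𝓞 K} (hx : x ≠ 0) : clChar ρ (Ideal.span {x}) = 0 := by
  have h : Ideal.span {x} ≠ ⊥ := by rwa [Ne, Ideal.span_singleton_eq_bot]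
  rw [clChar, dif_pos h]
  have : ClassGroup.mk0 ⟨Ideal.span {x}, mem_nonZeroDivisors_iff_ne_zero.mpr h⟩ = 1 := by
    rw [ClassGroup.mk0_eq_one_iff]
    exact ⟨⟨x, rfl⟩⟩
  rw [this, map_one, toAdd_one]

theorem clChar_factor {I : Ideal (𝓞 K)} (hI : I ≠ ⊥) : clChar ρ I =
    ∑ q ∈ (UniqueFactorizationMonoid.normalizedFactors I).toFinset,
      (multiplicity q I : ZMod p) * clChar ρ q := by
  classical
  have h1 : I = ∏ q ∈ (UniqueFactorizationMonoid.normalizedFactors I).toFinset,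
      q ^ (multiplicity q I) := by
    conv_lhs => rw [← Ideal.prod_normalizedFactors_eq_self hI, Finset.prod_multiset_count]
    refine Finset.prod_congr rfl (fun q hq => ?_)
    have hq' := UniqueFactorizationMonoid.prime_of_normalized_factor q (Multiset.mem_toFinset.mp hq)
    congr 1
    have h2 := UniqueFactorizationMonoid.emultiplicity_eq_count_normalizedFactors hq'.irreducible hI
    rw [normalize_eq] at h2
    exact (multiplicity_eq_of_emultiplicity_eq_some h2).symm
  conv_lhs => rw [h1]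
  rw [clChar_prod]
  · refine Finset.sum_congr rfl (fun q hq => ?_)
    have hq' := UniqueFactorizationMonoid.prime_of_normalized_factor q (Multiset.mem_toFinset.mp hq)
    rw [clChar_pow ρ hq'.ne_zero]
  · intro q hq
    have hq' := UniqueFactorizationMonoid.prime_of_normalized_factor q (Multiset.mem_toFinset.mp hq)
    exact pow_ne_zero _ hq'.ne_zero

end clChar

end Fermat.Agent.S14Lib
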