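import Mathlib
import Fermat.Agent.S14Lib.Thaine4

set_option autoImplicit false

open NumberField Polynomial
open scoped Pointwise nonZeroDivisors

namespace Fermat.Agent.S14Lib

section trunc

variable {p : ℕ} [hp : Fact p.Prime] {R : Type*} [CommRing R] (ι : ZMod p →+* R) (t : R)

/-- truncated exponential-type element -/
def EE (x l : ZMod p) : R := 1 + ι x * t + ι (l + x ^ 2 / 2) * t ^ 2

theorem EE_mul (hp2 : p ≠ 2) (ht : t ^ 3 = 0) (x l x' l' : ZMod p) :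
    EE ι t x l * EE ι t x' l' = EE ι t (x + x') (l + l') := by
  have h2 : (2 : ZMod p) ≠ 0 := by
    intro h
    have : ((2 : ℕ) : ZMod p) = 0 := by exact_mod_cast h
    rw [ZMod.natCast_eq_zero_iff] at this
    exact hp2 ((Nat.prime_dvd_prime_iff_eq hp.out Nat.prime_two).mp this)
  unfold EE
  have e1 : ι (l + l' + (x + x') ^ 2 / 2) = ι (l + x ^ 2 / 2) + ι (l' + x' ^ 2 / 2) + ι x * ι x' := by
    rw [← map_mul, ← map_add, ← map_add]
    congr 1
    field_simp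
    ring
  rw [e1, map_add ι x x']
  have ht4 : t ^ 4 = 0 := by rw [pow_succ, ht, zero_mul]
  linear_combination (ι x * ι (l' + x' ^ 2 / 2) + ι x' * ι (l + x ^ 2 / 2)) * ht +
    (ι (l + x ^ 2 / 2) * ι (l' + x' ^ 2 / 2)) * ht4

theorem EE_zero : EE ι t 0 0 = 1 := by
  simp [EE]

theorem EE_pow (hp2 : p ≠ 2) (ht : t ^ 3 = 0) (x l : ZMod p) (n : ℕ) :
    EE ι t x l ^ n = EE ι t (n * x) (n * l) := by
  induction n with
  | zero => simp [EE_zero]
  | succ n ih =>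
    rw [pow_succ, ih, EE_mul ι t hp2 ht]
    congr 1 <;> push_cast <;> ring

theorem EE_prod (hp2 : p ≠ 2) (ht : t ^ 3 = 0) {α : Type*} (s : Finset α) (x l : α → ZMod p) :
    ∏ i ∈ s, EE ι t (x i) (l i) = EE ι t (∑ i ∈ s, x i) (∑ i ∈ s, l i) := by
  classical
  induction s using Finset.induction_on with
  | empty => simp [EE_zero]
  | insert a s ha ih => rw [Finset.prod_insert ha, Finset.sum_insert ha, Finset.sum_insert ha, ih,
      EE_mul ι t hp2 ht]

theorem one_add_pow_trunc (hp2 : p ≠ 2) (ht : t ^ 3 = 0) (b : ℕ) :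
    1 + (1 + t) ^ b = ι 2 * EE ι t ((b : ZMod p) / 2) ((b : ZMod p) ^ 2 / 8 - (b : ZMod p) / 4) := by
  have h2 : (2 : ZMod p) ≠ 0 := by
    intro h
    have : ((2 : ℕ) : ZMod p) = 0 := by exact_mod_cast h
    rw [ZMod.natCast_eq_zero_iff] at this
    exact hp2 ((Nat.prime_dvd_prime_iff_eq hp.out Nat.prime_two).mp this)
  have h4 : (4 : ZMod p) ≠ 0 := by
    have : (4 : ZMod p) = 2 * 2 := by norm_num
    rw [this]; exact mul_ne_zero h2 h2
  have h8 : (8 : ZMod p) ≠ 0 := by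
    have : (8 : ZMod p) = 2 * 4 := by norm_num
    rw [this]; exact mul_ne_zero h2 h4
  have key : (1 + t) ^ b = 1 + ι b * t + ι ((b : ZMod p) * (b - 1) / 2) * t ^ 2 := by
    induction b with
    | zero => simp
    | succ b ih =>
      rw [pow_succ, ih]
      have e1 : ι (((b + 1 : ℕ) : ZMod p) * (((b + 1 : ℕ) : ZMod p) - 1) / 2) =
          ι ((b : ZMod p) * (b - 1) / 2) + ι b := by
        rw [← map_add]; congr 1; push_cast; field_simp; ring
      have e2 : ι ((b + 1 : ℕ) : ZMod p) = ι b + 1 := by push_cast; rw [map_add, map_one]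
      rw [e1, e2]
      linear_combination (ι ((b : ZMod p) * (b - 1) / 2)) * ht
  rw [key]
  unfold EE
  have e3 : ι (b : ZMod p) = ι 2 * ι ((b : ZMod p) / 2) := by
    rw [← map_mul]; congr 1; field_simp
  have e4 : ι ((b : ZMod p) * (b - 1) / 2) = ι 2 * ι ((b : ZMod p) ^ 2 / 8 - (b : ZMod p) / 4 + ((b : ZMod p) / 2) ^ 2 / 2) := by
    rw [← map_mul]; congr 1; field_simp; ring
  have e5 : (1 : R) + 1 = ι 2 := by
    rw [← map_one ι, ← map_add]; norm_num
  rw [e4, e3]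
  linear_combination e5

end trunc

variable (p : ℕ) [hp : Fact p.Prime] (K : Type) [Field K] [NumberField K]
  [IsCyclotomicExtension {p} ℚ K]

theorem sum_om (hp3 : 3 ≤ p) : ∑ σ : K ≃ₐ[ℚ] K, om p K σ = 0 := by
  have h1 : ∑ σ : K ≃ₐ[ℚ] K, om p K σ = ∑ u : (ZMod p)ˣ, ((u : ZMod p)) :=
    Fintype.sum_equiv (IsCyclotomicExtension.Rat.galEquivZMod p K).toEquiv _ _ (fun σ => rfl)
  rw [h1]
  have h2 := FiniteField.sum_pow_units (ZMod p) 1
  simp only [pow_one] at h2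
  rw [h2, if_neg]
  rw [ZMod.card]
  intro h
  have := Nat.le_of_dvd one_pos h
  omega

theorem card_gal : (Fintype.card (K ≃ₐ[ℚ] K) : ZMod p) = -1 := by
  have h1 : Fintype.card (K ≃ₐ[ℚ] K) = p - 1 := by
    rw [Fintype.card_congr (IsCyclotomicExtension.Rat.galEquivZMod p K).toEquiv,
      ZMod.card_units_eq_totient, Nat.totient_prime hp.out]
  rw [h1, Nat.cast_sub hp.out.one_le]
  simp

theorem eta_trunc {R : Type*} [CommRing R] (hp3 : 3 ≤ p) (f : 𝓞 K →+* R) (ι : ZMod p →+* R) (t : R)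
    (ht : t ^ 3 = 0) (z : 𝓞 K) (hz : z ^ p = 1) (hfz : f z = 1 + t) :
    ∃ c : ZMod p, c ≠ 0 ∧ f (eta p K z) = ι c * (1 - ι (1 / 8) * t ^ 2) := by
  have hp2 : p ≠ 2 := by omega
  have h2 : (2 : ZMod p) ≠ 0 := by
    intro h
    have : ((2 : ℕ) : ZMod p) = 0 := by exact_mod_cast h
    rw [ZMod.natCast_eq_zero_iff] at this
    exact hp2 ((Nat.prime_dvd_prime_iff_eq hp.out Nat.prime_two).mp this)
  have h4 : (4 : ZMod p) ≠ 0 := by
    have : (4 : ZMod p) = 2 * 2 := by norm_num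
    rw [this]; exact mul_ne_zero h2 h2
  have h8 : (8 : ZMod p) ≠ 0 := by
    have : (8 : ZMod p) = 2 * 4 := by norm_num
    rw [this]; exact mul_ne_zero h2 h4
  refine ⟨2 ^ (∑ σ : K ≃ₐ[ℚ] K, (om p K σ ^ 2).val), pow_ne_zero _ h2, ?_⟩
  unfold eta
  rw [map_prod]
  have h5 : ∀ σ : K ≃ₐ[ℚ] K, f ((σ⁻¹ • (1 + z)) ^ (om p K σ ^ 2).val) =
      (ι 2) ^ (om p K σ ^ 2).val * EE ι t (om p K σ / 2) (1 / 8 - om p K σ / 4) := by
    intro σ
    have hσ := om_ne_zero p K σ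
    rw [map_pow, smul_add, smul_one, smul_zeta p K σ⁻¹ hz, map_add, map_one, map_pow, hfz,
      one_add_pow_trunc ι t hp2 ht, mul_pow, EE_pow ι t hp2 ht]
    congr 2
    · rw [ZMod.natCast_zmod_val, ZMod.natCast_zmod_val, om_inv]
      field_simp
    · rw [ZMod.natCast_zmod_val, ZMod.natCast_zmod_val, om_inv]
      field_simp
  rw [Finset.prod_congr rfl (fun σ _ => h5 σ), Finset.prod_mul_distrib, Finset.prod_pow_eq_pow_sum,
    EE_prod ι t hp2 ht, ← Finset.sum_div, sum_om p K hp3, Finset.sum_sub_distrib, ← Finset.sum_div,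
    ← Finset.sum_div, sum_om p K hp3, map_pow]
  congr 1
  simp only [Finset.sum_const, Finset.card_univ, nsmul_eq_mul, card_gal]
  unfold EE
  have e6 : ((-1 : ZMod p) * 1 / 8 - 0 / 4 + (0 / 2) ^ 2 / 2) = -(1 / 8) := by ring
  rw [e6, zero_div, map_zero, map_neg]
  ring

/-- The key local fact: no power `η^a`, `p ∤ a`, is congruent to a rational integer modulo
`(ζ-1)^3`. -/
theorem eta_local (hp5 : 5 ≤ p) (z : 𝓞 K) (hz : IsPrimitiveRoot z p) (a : ℕ) (ha : ¬ p ∣ a) (m : ℤ) :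
    eta p K z ^ a - (m : 𝓞 K) ∉ Ideal.span {(z - 1) ^ 3} := by
  intro hmem
  have hz' : IsPrimitiveRoot (z : K) p := hz.map_of_injective RingOfIntegers.coe_injective
  have hzint : hz'.toInteger = z := RingOfIntegers.ext rfl
  have hdvd : ∀ n : ℕ, (z - 1) ∣ (n : 𝓞 K) → p ∣ n := by
    intro n hn
    have := (IsCyclotomicExtension.Rat.zeta_sub_one_dvd_intCast_iff' p hz' (n := n)).mp
      (by rw [hzint]; exact_mod_cast hn)
    exact_mod_cast this
  have hz1 : z - 1 ≠ 0 := sub_ne_zero.mpr (hz.ne_one hp.out.one_lt)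
  set I : Ideal (𝓞 K) := Ideal.span {(z - 1) ^ 3} with hI
  have hItop : I ≠ ⊤ := by
    intro h
    rw [hI, Ideal.span_singleton_eq_top] at h
    have h1 : IsUnit (z - 1) := (isUnit_pow_iff (by norm_num)).mp h
    have := hdvd 1 (h1.dvd)
    rw [Nat.dvd_one] at this
    exact hp.out.one_lt.ne' this
  have hnt : Nontrivial (𝓞 K ⧸ I) := Ideal.Quotient.nontrivial_iff.mpr hItop
  have hp0 : ((p : ℕ) : 𝓞 K ⧸ I) = 0 := by
    have h1 := associated_sub_one_pow hz
    obtain ⟨u, hu⟩ := h1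
    have h2 : (p : 𝓞 K) ∈ I := by
      rw [hI, Ideal.mem_span_singleton, ← hu]
      exact (pow_dvd_pow _ (by omega)).mul_right _
    have h3 := Ideal.Quotient.eq_zero_iff_mem.mpr h2
    rwa [map_natCast] at h3
  have hchar : CharP (𝓞 K ⧸ I) p := (CharP.charP_iff_prime_eq_zero hp.out).mpr hp0
  let ι : ZMod p →+* 𝓞 K ⧸ I := ZMod.castHom (dvd_refl p) _
  set f := Ideal.Quotient.mk I with hf
  set t := f (z - 1) with ht
  have ht3 : t ^ 3 = 0 := by
    rw [ht, ← map_pow]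
    exact Ideal.Quotient.eq_zero_iff_mem.mpr (Ideal.mem_span_singleton_self _)
  obtain ⟨c, hc, hη⟩ := eta_trunc p K (by omega) f ι t ht3 z hz.pow_eq_one
    (by rw [ht, map_sub, map_one]; ring)
  have hp2 : p ≠ 2 := by omega
  have h2 : (2 : ZMod p) ≠ 0 := by
    intro h
    have : ((2 : ℕ) : ZMod p) = 0 := by exact_mod_cast h
    rw [ZMod.natCast_eq_zero_iff] at this
    exact hp2 ((Nat.prime_dvd_prime_iff_eq hp.out Nat.prime_two).mp this)
  have h8 : (8 : ZMod p) ≠ 0 := by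
    have : (8 : ZMod p) = 2 ^ 3 := by norm_num
    rw [this]; exact pow_ne_zero _ h2
  have hEE : 1 - ι (1 / 8) * t ^ 2 = EE ι t 0 (-(1 / 8)) := by
    unfold EE
    have e7 : (-(1 / 8) + 0 ^ 2 / 2 : ZMod p) = -(1 / 8) := by ring
    rw [e7, map_zero, map_neg]
    ring
  have hpow : f (eta p K z ^ a) = ι (c ^ a) * (1 + ι (-(a / 8)) * t ^ 2) := by
    rw [map_pow, hη, hEE, mul_pow, EE_pow ι t hp2 ht3, map_pow]
    congr 1
    unfold EE
    have e8 : ((a : ZMod p) * -(1 / 8) + (a * 0) ^ 2 / 2 : ZMod p) = -(a / 8) := by ring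
    rw [e8, mul_zero, map_zero]
    ring
  have hm : f (eta p K z ^ a) = ι (m : ZMod p) := by
    have h3 := Ideal.Quotient.eq_zero_iff_mem.mpr hmem
    rw [map_sub, sub_eq_zero] at h3
    rw [← hf] at h3
    rw [h3]
    simp
  rw [hpow] at hm
  have hlin : ι (c ^ a - m) + ι (c ^ a * -(a / 8)) * t ^ 2 = 0 := by
    rw [map_sub, map_mul, ← hm]; ring
  have hιval : ∀ x : ZMod p, ι x = f (x.val : 𝓞 K) := by
    intro x
    rw [map_natCast]
    have : ι x = ι ((x.val : ℕ) : ZMod p) := by rw [ZMod.natCast_zmod_val]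
    rw [this, map_natCast]
  rw [hιval, hιval, ht, ← map_pow, ← map_mul, ← map_add] at hlin
  have hlin2 := Ideal.Quotient.eq_zero_iff_mem.mp hlin
  rw [hI, Ideal.mem_span_singleton] at hlin2
  have h5 : (z - 1) ∣ ((c ^ a - (m : ZMod p)).val : 𝓞 K) := by
    have h6 : (z - 1) ∣ (z - 1) ^ 3 := dvd_pow_self _ (by norm_num)
    have h7 := h6.trans hlin2
    have h8 : (z - 1) ∣ ((c ^ a * -(a / 8) : ZMod p).val : 𝓞 K) * (z - 1) ^ 2 :=
      (dvd_pow_self _ (by norm_num)).mul_left _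
    exact (dvd_add_left h8).mp h7
  have h6 := hdvd _ h5
  have h7 : (c ^ a - (m : ZMod p)).val = 0 := Nat.eq_zero_of_dvd_of_lt h6 (ZMod.val_lt _)
  rw [h7, Nat.cast_zero, zero_add] at hlin2
  have h9 : (z - 1) ∣ ((c ^ a * -(a / 8) : ZMod p).val : 𝓞 K) := by
    have : (z - 1) ^ 3 = (z - 1) * (z - 1) ^ 2 := by ring
    rw [this] at hlin2
    exact (mul_dvd_mul_iff_right (pow_ne_zero 2 hz1)).mp hlin2
  have h10 := hdvd _ h9
  have h11 : (c ^ a * -(a / 8) : ZMod p).val = 0 := Nat.eq_zero_of_dvd_of_lt h10 (ZMod.val_lt _)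
  rw [ZMod.val_eq_zero] at h11
  have ha' : (a : ZMod p) ≠ 0 := by rwa [Ne, ZMod.natCast_eq_zero_iff]
  exact (mul_ne_zero (pow_ne_zero _ hc) (neg_ne_zero.mpr (div_ne_zero ha' h8))) h11

end Fermat.Agent.S14Lib
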