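import Mathlib
import Fermat.Agent.S14Lib.Thaine4

set_option autoImplicit false

open NumberField Polynomial
open scoped Pointwise nonZeroDivisors

namespace Fermat.Agent.S14Lib

variable (p : ℕ) [hp : Fact p.Prime] (K : Type) [Field K] [NumberField K]
  [IsCyclotomicExtension {p} ℚ K]

omit hp [IsCyclotomicExtension {p} ℚ K] in
theorem smul_nat (σ : K ≃ₐ[ℚ] K) (n : ℕ) : σ • (n : 𝓞 K) = n :=
  map_natCast (MulSemiringAction.toRingHom (K ≃ₐ[ℚ] K) (𝓞 K) σ) n

/-- Thaine's argument: if `η` is not a `p`-th power mod the degree one prime `lam`, then any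
`ω²`-equivariant character of the class group kills `lam`. -/
theorem thaine (hpodd : Odd p) (z : 𝓞 K) (hz : IsPrimitiveRoot z p)
    (ρ : ClassGroup (𝓞 K) →* Multiplicative (ZMod p))
    (hρ : ∀ (σ : K ≃ₐ[ℚ] K) (I : Ideal (𝓞 K)), clChar ρ (σ • I) = om p K σ ^ 2 * clChar ρ I)
    (ℓ : ℕ) (hl : ℓ.Prime) (hne : p ≠ ℓ) (hdvd : p ∣ ℓ - 1)
    (lam : Ideal (𝓞 K)) [hlam : lam.IsPrime] (hllam : (ℓ : 𝓞 K) ∈ lam)
    (hρlam : clChar ρ lam ≠ 0) :
    ∃ x : ℕ, eta p K z - (x : 𝓞 K) ^ p ∈ lam := by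
  classical
  have : Fact ℓ.Prime := ⟨hl⟩
  have hgal : IsGalois ℚ K := IsCyclotomicExtension.isGalois {p} ℚ K
  obtain ⟨β, s, hβ0, hβ1, hβ2⟩ := exists_beta p ℓ K hpodd hne hdvd z hz
  have hβI : Ideal.span {β} ≠ ⊥ := by rwa [Ne, Ideal.span_singleton_eq_bot]
  have hlne : (ℓ : 𝓞 K) ≠ 0 := by exact_mod_cast hl.ne_zero
  have hlamL : lam.LiesOver (Ideal.span {(ℓ : ℤ)}) := liesOver_of_mem hl lam hllam
  have hlam0 : lam ≠ ⊥ := by
    rintro rfl
    exact hlne (Ideal.mem_bot.mp hllam)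
  -- the key relation
  have h0 := clChar_span ρ hβ0
  rw [clChar_factor ρ hβI] at h0
  set m := UniqueFactorizationMonoid.normalizedFactors (Ideal.span {β}) with hm
  have hprime : ∀ q ∈ m.toFinset, Prime q := fun q hq =>
    UniqueFactorizationMonoid.prime_of_normalized_factor q (Multiset.mem_toFinset.mp hq)
  have h1 : ∑ q ∈ m.toFinset, (multiplicity q (Ideal.span {β}) : ZMod p) * clChar ρ q
      = ∑ q ∈ m.toFinset with (ℓ : 𝓞 K) ∈ q,
        (multiplicity q (Ideal.span {β}) : ZMod p) * clChar ρ q := by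
    rw [Finset.sum_filter]
    refine Finset.sum_congr rfl (fun q hq => ?_)
    split_ifs with h
    · rfl
    · have h2 := hβ1 q (Ideal.isPrime_of_prime (hprime q hq)) (hprime q hq).ne_zero h
      rw [(ZMod.natCast_eq_zero_iff _ _).mpr h2, zero_mul]
  -- stabilizer is trivial
  have hinj : Function.Injective (fun σ : K ≃ₐ[ℚ] K => σ • lam) := by
    have hstab : Nat.card (MulAction.stabilizer (K ≃ₐ[ℚ] K) lam) = 1 := by
      rw [Ideal.card_stabilizer_eq (Ideal.span {(ℓ : ℤ)}) lam]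
      have hpl : ¬ ℓ ∣ p := by
        rw [Nat.dvd_prime hp.out]; rintro (h | h)
        · exact hl.one_lt.ne' h
        · exact hne h.symm
      rw [IsCyclotomicExtension.Rat.ramificationIdxIn_eq_of_not_dvd (m := p) ℓ K hpl,
        IsCyclotomicExtension.Rat.inertiaDegIn_eq_of_not_dvd (m := p) ℓ K hpl, one_mul,
        orderOf_eq_one_iff]
      obtain ⟨c, hc⟩ := hdvd
      have hl1 : ℓ = p * c + 1 := by have := hl.one_lt; omega
      rw [hl1]; simp
    rw [Subgroup.card_eq_one] at hstab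
    intro σ τ h
    have : τ⁻¹ * σ ∈ MulAction.stabilizer (K ≃ₐ[ℚ] K) lam := by
      rw [MulAction.mem_stabilizer_iff, mul_smul]
      have h' : σ • lam = τ • lam := h
      rw [h', inv_smul_smul]
    rw [hstab, Subgroup.mem_bot] at this
    exact (inv_mul_eq_one.mp this).symm
  have h2 : ∑ q ∈ m.toFinset with (ℓ : 𝓞 K) ∈ q,
        (multiplicity q (Ideal.span {β}) : ZMod p) * clChar ρ q =
      ∑ q ∈ Finset.univ.image (fun σ : K ≃ₐ[ℚ] K => σ • lam),
        (multiplicity q (Ideal.span {β}) : ZMod p) * clChar ρ q := by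
    apply Finset.sum_subset
    · intro q hq
      rw [Finset.mem_filter] at hq
      have hqp := Ideal.isPrime_of_prime (hprime q hq.1)
      have hqL : q.LiesOver (Ideal.span {(ℓ : ℤ)}) := liesOver_of_mem hl q hq.2
      obtain ⟨σ, hσ⟩ := Ideal.exists_smul_eq_of_isGaloisGroup (Ideal.span {(ℓ : ℤ)}) lam q
        (K ≃ₐ[ℚ] K)
      rw [Finset.mem_image]
      exact ⟨σ, Finset.mem_univ _, hσ⟩
    · intro q hq hq'
      rw [Finset.mem_image] at hq
      obtain ⟨σ, -, rfl⟩ := hq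
      have hmem : (ℓ : 𝓞 K) ∈ σ • lam := by
        rw [Ideal.mem_pointwise_smul_iff_inv_smul_mem, smul_nat]
        exact hllam
      have hnm : σ • lam ∉ m.toFinset := by
        intro h
        exact hq' (Finset.mem_filter.mpr ⟨h, hmem⟩)
      have hpr : (σ • lam).IsPrime := inferInstance
      have hnz : σ • lam ≠ ⊥ := by
        intro h
        rw [h, Ideal.mem_bot] at hmem
        exact hlne hmem
      have hmult : multiplicity (σ • lam) (Ideal.span {β}) = 0 := by
        rw [UniqueFactorizationMonoid.multiplicity_eq_count_normalizedFactors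
          (Ideal.prime_of_isPrime hnz hpr).irreducible hβI, normalize_eq, Multiset.count_eq_zero]
        rwa [Multiset.mem_toFinset] at hnm
      rw [hmult, Nat.cast_zero, zero_mul]
  rw [h1, h2, Finset.sum_image (fun σ _ τ _ h => hinj h)] at h0
  have h3 : ∑ σ : K ≃ₐ[ℚ] K, (multiplicity (σ • lam) (Ideal.span {β}) : ZMod p) *
      om p K σ ^ 2 = 0 := by
    have : (∑ σ : K ≃ₐ[ℚ] K, (multiplicity (σ • lam) (Ideal.span {β}) : ZMod p) *
      om p K σ ^ 2) * clChar ρ lam = 0 := by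
      rw [Finset.sum_mul, ← h0]
      refine Finset.sum_congr rfl (fun σ _ => ?_)
      rw [hρ]; ring
    exact (mul_eq_zero.mp this).resolve_right hρlam
  set N : ℕ := ∑ σ : K ≃ₐ[ℚ] K, multiplicity (σ • lam) (Ideal.span {β}) *
    ((om p K σ ^ 2).val) with hN
  have hNdvd : p ∣ N := by
    rw [← ZMod.natCast_eq_zero_iff, hN, ← h3]
    push_cast
    refine Finset.sum_congr rfl (fun σ _ => ?_)
    rw [ZMod.natCast_zmod_val]
  obtain ⟨c, hc⟩ := hNdvd
  refine ⟨s ^ c, ?_⟩
  have h4 : ((s ^ c : ℕ) : 𝓞 K) ^ p = ∏ σ : K ≃ₐ[ℚ] K,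
      ((s : 𝓞 K) ^ (multiplicity (σ • lam) (Ideal.span {β}))) ^ ((om p K σ ^ 2).val) := by
    simp_rw [← pow_mul]
    rw [Finset.prod_pow_eq_pow_sum, ← hN, hc]
    push_cast
    rw [← pow_mul, mul_comm]
  rw [h4, eta]
  rw [← Ideal.Quotient.eq, map_prod, map_prod]
  refine Finset.prod_congr rfl (fun σ _ => ?_)
  rw [map_pow, map_pow]
  congr 1
  rw [Ideal.Quotient.eq]
  have h5 := hβ2 (σ • lam) inferInstance (by
        rw [Ideal.mem_pointwise_smul_iff_inv_smul_mem, smul_nat]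
        exact hllam)
  rw [Ideal.mem_pointwise_smul_iff_inv_smul_mem, smul_sub, smul_pow', smul_nat] at h5
  exact h5

end Fermat.Agent.S14Lib
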