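import Mathlib
import Fermat.Agent.S14Lib.Local
import Fermat.Agent.S14Lib.Thaine5

set_option autoImplicit false

open NumberField Polynomial
open scoped Pointwise nonZeroDivisors

namespace Fermat.Agent.S14Lib

variable (p : ℕ) [hp : Fact p.Prime] (K : Type) [Field K] [NumberField K]
  [IsCyclotomicExtension {p} ℚ K]

omit hp [IsCyclotomicExtension {p} ℚ K] in
theorem isUnit_smul (σ : K ≃ₐ[ℚ] K) {x : 𝓞 K} (hx : IsUnit x) : IsUnit (σ • x) :=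
  hx.map (MulSemiringAction.toRingHom (K ≃ₐ[ℚ] K) (𝓞 K) σ)

theorem isUnit_eta (hpodd : Odd p) (z : 𝓞 K) (hz : IsPrimitiveRoot z p) : IsUnit (eta p K z) := by
  unfold eta
  have h1 : IsUnit (1 + z) := isUnit_one_add hpodd hz.pow_eq_one (hz.ne_one hp.out.one_lt)
  rw [IsUnit.prod_univ_iff]
  intro σ
  exact (isUnit_smul K σ⁻¹ h1).pow _

theorem smul_eta (hpodd : Odd p) (z : 𝓞 K) (hz : IsPrimitiveRoot z p) (σ : K ≃ₐ[ℚ] K) :
    ∃ w : (𝓞 K)ˣ, σ • eta p K z = eta p K z ^ ((om p K σ ^ 2).val) * (w : 𝓞 K) ^ p := by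
  have h1 : IsUnit (1 + z) := isUnit_one_add hpodd hz.pow_eq_one (hz.ne_one hp.out.one_lt)
  have hcomm : ∀ a b : K ≃ₐ[ℚ] K, a * b = b * a := by
    have := IsCyclotomicExtension.isMulCommutative (S := {p}) ℚ K
    intro a b
    exact mul_comm' a b
  let u : (K ≃ₐ[ℚ] K) → (𝓞 K)ˣ := fun ρ => (isUnit_smul K ρ⁻¹ h1).unit
  have hu : ∀ ρ, ((u ρ : (𝓞 K)ˣ) : 𝓞 K) = ρ⁻¹ • (1 + z) := fun ρ => IsUnit.unit_spec _
  have h2 : σ • eta p K z = ∏ ρ : K ≃ₐ[ℚ] K, (ρ⁻¹ • (1 + z)) ^ (((om p K ρ * om p K σ) ^ 2).val) := by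
    unfold eta
    change (MulSemiringAction.toRingHom (K ≃ₐ[ℚ] K) (𝓞 K) σ) _ = _
    rw [map_prod]
    refine Fintype.prod_equiv (Equiv.mulRight σ⁻¹) _ _ (fun τ => ?_)
    rw [map_pow]
    change (σ • (τ⁻¹ • (1 + z))) ^ _ = _
    rw [← mul_smul]
    simp only [Equiv.coe_mulRight]
    rw [← om_mul, inv_mul_cancel_right, mul_inv_rev, inv_inv]
  have h3 : eta p K z ^ ((om p K σ ^ 2).val) =
      ∏ ρ : K ≃ₐ[ℚ] K, (ρ⁻¹ • (1 + z)) ^ ((om p K ρ ^ 2).val * (om p K σ ^ 2).val) := by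
    unfold eta
    rw [← Finset.prod_pow]
    simp_rw [← pow_mul]
  have h4 : ∀ ρ : K ≃ₐ[ℚ] K, ∃ c : ℤ, (((om p K ρ * om p K σ) ^ 2).val : ℤ) =
      ((om p K ρ ^ 2).val * (om p K σ ^ 2).val : ℕ) + c * p := by
    intro ρ
    have : ((((om p K ρ * om p K σ) ^ 2).val : ℤ) : ZMod p) =
      (((om p K ρ ^ 2).val * (om p K σ ^ 2).val : ℕ) : ℤ) := by
      push_cast
      rw [ZMod.natCast_zmod_val, ZMod.natCast_zmod_val, ZMod.natCast_zmod_val]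
      ring
    rw [ZMod.intCast_eq_intCast_iff_dvd_sub] at this
    obtain ⟨c, hc⟩ := this
    exact ⟨-c, by linarith⟩
  choose c hc using h4
  refine ⟨∏ ρ, u ρ ^ (c ρ), ?_⟩
  have h5 : (∏ ρ, u ρ ^ (((om p K ρ * om p K σ) ^ 2).val) : (𝓞 K)ˣ) =
      (∏ ρ, u ρ ^ ((om p K ρ ^ 2).val * (om p K σ ^ 2).val)) * (∏ ρ, u ρ ^ (c ρ)) ^ p := by
    rw [← Finset.prod_pow, ← Finset.prod_mul_distrib]
    refine Finset.prod_congr rfl (fun ρ _ => ?_)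
    rw [← zpow_natCast (u ρ) (((om p K ρ * om p K σ) ^ 2).val), hc ρ, zpow_add, zpow_natCast,
      zpow_mul, zpow_natCast]
  have h6 := congrArg (fun t : (𝓞 K)ˣ => (t : 𝓞 K)) h5
  simp only [Units.val_mul, Units.coe_prod, Units.val_pow_eq_pow_val, hu] at h6
  rw [h2, h3, h6]
  rw [Units.coe_prod]

end Fermat.Agent.S14Lib
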