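import Mathlib

set_option autoImplicit false

open NumberField Polynomial
open scoped Pointwise nonZeroDivisors

namespace Fermat.Agent.S14Lib

/-- If the unit `u` is a `p`-th power mod `P`, `P ∤ p`, then `P` splits completely in
`K(u^{1/p})`. -/
theorem ncard_primesOver_eq (K L : Type) [Field K] [NumberField K] [Field L] [NumberField L]
    [Algebra K L] (p : ℕ) [hp : Fact p.Prime] (z : 𝓞 K) (hz : IsPrimitiveRoot z p)
    (u : 𝓞 K) (hu : IsUnit u) [hsp : IsSplittingField K L (X ^ p - C (u : K))]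
    (hirr : Irreducible (X ^ p - C (u : K))) (P : Ideal (𝓞 K)) [hP : P.IsPrime] (hP0 : P ≠ ⊥)
    (hpP : (p : 𝓞 K) ∉ P) (x : 𝓞 K) (hx : u - x ^ p ∈ P) :
    (P.primesOver (𝓞 L)).ncard = p := by
  have hzK : IsPrimitiveRoot (z : K) p := hz.map_of_injective RingOfIntegers.coe_injective
  have hprK : (primitiveRoots p K).Nonempty := ⟨(z : K), by rwa [mem_primitiveRoots hp.out.pos]⟩
  have hgal : IsGalois K L := isGalois_of_isSplittingField_X_pow_sub_C hprK hirr L
  have hfin : Module.finrank K L = p := finrank_of_isSplittingField_X_pow_sub_C hprK hirr L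
  have : NeZero p := ⟨hp.out.ne_zero⟩
  set α : L := rootOfSplitsXPowSubC (NeZero.pos p) (u : K) L with hα
  have hαp : α ^ p = algebraMap K L (u : K) := rootOfSplitsXPowSubC_pow (u : K) L
  have htop : IntermediateField.adjoin K {α} = ⊤ :=
    IntermediateField.adjoin_root_eq_top_of_isSplittingField hprK hirr hαp
  -- α is an integral unit
  have hαint : IsIntegral ℤ α := by
    apply IsIntegral.of_pow hp.out.pos
    rw [hαp]
    have : IsIntegral ℤ (u : K) := u.2
    exact this.algebraMap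
  let y : 𝓞 L := ⟨α, hαint⟩
  have hyp : y ^ p = algebraMap (𝓞 K) (𝓞 L) u := by
    apply RingOfIntegers.ext
    change α ^ p = algebraMap K L (u : K)
    exact hαp
  have hyu : IsUnit y := by
    rw [← isUnit_pow_iff hp.out.ne_zero, hyp]
    exact hu.map _
  obtain ⟨⟨Q, hQ, hQP⟩⟩ := Ideal.nonempty_primesOver (S := 𝓞 L) P
  have hpQ : (p : 𝓞 L) ∉ Q := by
    intro h
    apply hpP
    rw [Ideal.over_def Q P, Ideal.under_def, Ideal.mem_comap]
    simpa using h
  set Z : 𝓞 L := algebraMap (𝓞 K) (𝓞 L) z with hZ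
  have hZp : IsPrimitiveRoot Z p := hz.map_of_injective (FaithfulSMul.algebraMap_injective _ _)
  -- y ≡ Z^i x mod Q
  have hex : ∃ i : ℕ, y - Z ^ i * algebraMap (𝓞 K) (𝓞 L) x ∈ Q := by
    have h1 : y ^ p - (algebraMap (𝓞 K) (𝓞 L) x) ^ p ∈ Q := by
      rw [hyp, ← map_pow, ← map_sub]
      have h2 : u - x ^ p ∈ Q.under (𝓞 K) := by rw [← Ideal.over_def Q P]; exact hx
      exact h2
    rw [hZp.pow_sub_pow_eq_prod_sub_mul _ _ hp.out.pos, hQ.prod_mem_iff] at h1
    obtain ⟨μ, hμ, h3⟩ := h1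
    rw [mem_nthRootsFinset hp.out.pos] at hμ
    obtain ⟨i, -, rfl⟩ := hZp.eq_pow_of_pow_eq_one hμ
    exact ⟨i, h3⟩
  obtain ⟨i, hi⟩ := hex
  -- stabilizer is trivial
  have hstab : MulAction.stabilizer (L ≃ₐ[K] L) Q = ⊥ := by
    rw [Subgroup.eq_bot_iff_forall]
    intro g hg
    rw [MulAction.mem_stabilizer_iff] at hg
    have h1 : g • (y - Z ^ i * algebraMap (𝓞 K) (𝓞 L) x) ∈ Q := by
      rw [← hg]
      exact Ideal.smul_mem_pointwise_smul _ _ _ hi
    have hgZ : ∀ w : 𝓞 K, g • (algebraMap (𝓞 K) (𝓞 L) w) = algebraMap (𝓞 K) (𝓞 L) w := by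
      intro w
      apply RingOfIntegers.ext
      change g (algebraMap K L (w : K)) = algebraMap K L (w : K)
      exact g.commutes _
    rw [smul_sub, smul_mul', smul_pow', hZ, hgZ, hgZ, ← hZ] at h1
    have h2 : g • y - y ∈ Q := by
      have := Ideal.sub_mem _ h1 hi
      simpa using this
    -- g y = μ y
    have h3 : (g • y) ^ p = y ^ p := by rw [← smul_pow', hyp, hgZ]
    obtain ⟨v, hv⟩ := hyu
    have h4 : (g • y * ((v⁻¹ : (𝓞 L)ˣ) : 𝓞 L)) ^ p = 1 := by
      rw [mul_pow, h3, ← hv, ← mul_pow, Units.mul_inv, one_pow]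
    obtain ⟨j, -, hj⟩ := hZp.eq_pow_of_pow_eq_one h4
    have h5 : g • y = Z ^ j * y := by
      rw [hj, mul_assoc, ← hv, Units.inv_mul, mul_one]
    by_cases hj1 : Z ^ j = 1
    · rw [hj1, one_mul] at h5
      have h6 : g α = α := congrArg (fun t : 𝓞 L => (t : L)) h5
      have h7 : g ∈ (IntermediateField.adjoin K {α}).fixingSubgroup := by
        rw [IntermediateField.mem_fixingSubgroup_iff]
        intro t ht
        induction ht using IntermediateField.adjoin_induction with
        | mem x hx => rw [Set.mem_singleton_iff] at hx; rw [hx]; exact h6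
        | algebraMap x => exact g.commutes x
        | add x y _ _ hx hy => rw [map_add, hx, hy]
        | inv x _ hx => rw [map_inv₀, hx]
        | mul x y _ _ hx hy => rw [map_mul, hx, hy]
      rw [htop, IntermediateField.fixingSubgroup_top, Subgroup.mem_bot] at h7
      exact h7
    · exfalso
      have h6 : (Z ^ j - 1) * y ∈ Q := by
        rw [sub_mul, one_mul, ← h5]; exact h2
      have h7 : Z ^ j - 1 ∈ Q := by
        refine (hQ.mem_or_mem h6).resolve_right (fun h => ?_)
        exact hQ.ne_top (Ideal.eq_top_of_isUnit_mem _ h (hv ▸ v.isUnit))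
      have h8 : Z ^ j - 1 ∣ (p : 𝓞 L) :=
        sub_one_dvd_natCast_of_pow_eq_one (by rw [← pow_mul, mul_comm, pow_mul, hZp.pow_eq_one,
          one_pow]) hj1
      exact hpQ (Ideal.mem_of_dvd _ h8 h7)
  have hcount := Ideal.ncard_primesOver_mul_card_inertia_mul_finrank (G := L ≃ₐ[K] L) P Q
  have hst := Ideal.card_stabilizer_eq_card_inertia_mul_finrank (G := L ≃ₐ[K] L) P Q
  rw [mul_assoc, ← hst, hstab, Subgroup.card_bot, mul_one, IsGalois.card_aut_eq_finrank, hfin]
    at hcount
  exact hcount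

end Fermat.Agent.S14Lib
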