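import Mathlib
import Fermat.Prelude.Def_ClassGroup_GaloisAction
import Fermat.Agent.S14Lib.EtaUnit
import Fermat.Agent.S14Lib.Splitting
import Fermat.Agent.S14Lib.EigenDual
import Fermat.Agent.S14Lib.Basics

set_option autoImplicit false

open NumberField Polynomial
open scoped Pointwise nonZeroDivisors

namespace Fermat.Agent.S14Lib

/-- The analytic input: primes of degree one which are not in the kernel of a class group
character and do not split completely in a cyclic extension of odd prime degree. -/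
def AnalyticInput : Prop :=
  ∀ (K L : Type) [Field K] [NumberField K] [Field L] [NumberField L] [Algebra K L]
    (p : ℕ) (_ : p.Prime) (_ : p ≠ 2) (_ : Module.finrank K L = p)
    (ρ : ClassGroup (𝓞 K) →* Multiplicative (ZMod p)) (_ : ρ ≠ 1) (B : ℕ),
    ∃ (P : Ideal (𝓞 K)) (hP : P ∈ (Ideal (𝓞 K))⁰), P.IsPrime ∧ (Ideal.absNorm P).Prime ∧
      B < Ideal.absNorm P ∧ ρ (ClassGroup.mk0 ⟨P, hP⟩) ≠ 1 ∧
      (Ideal.primesOver P (𝓞 L)).ncard ≠ p

section action
variable (K : Type) [Field K] [NumberField K]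

/-- the ring automorphism of `𝓞 K` given by `σ` -/
noncomputable def ringAut (σ : K ≃ₐ[ℚ] K) : 𝓞 K ≃+* 𝓞 K :=
  MulSemiringAction.toRingEquiv (K ≃ₐ[ℚ] K) (𝓞 K) σ

theorem ringAut_apply (σ : K ≃ₐ[ℚ] K) (x : 𝓞 K) : ringAut K σ x = σ • x := rfl

theorem ringAut_one : ringAut K 1 = RingEquiv.refl _ := by
  ext x
  rw [ringAut_apply, one_smul]; rfl

theorem ringAut_mul (σ τ : K ≃ₐ[ℚ] K) : ringAut K (σ * τ) = (ringAut K τ).trans (ringAut K σ) := by
  ext x
  rw [ringAut_apply, mul_smul]; rfl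

/-- Galois action on the class group, written additively. -/
@[reducible] noncomputable def clAction : DistribMulAction (K ≃ₐ[ℚ] K) (Additive (ClassGroup (𝓞 K))) where
  smul σ c := Additive.ofMul (ClassGroup.mulEquiv (ringAut K σ) c.toMul)
  one_smul c := by
    change Additive.ofMul (ClassGroup.mulEquiv (ringAut K 1) c.toMul) = c
    rw [ringAut_one, ClassGroup.mulEquiv_refl_apply]
    rfl
  mul_smul σ τ c := by
    change Additive.ofMul (ClassGroup.mulEquiv (ringAut K (σ * τ)) c.toMul) =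
      Additive.ofMul (ClassGroup.mulEquiv (ringAut K σ) (ClassGroup.mulEquiv (ringAut K τ) c.toMul))
    rw [ringAut_mul, ClassGroup.mulEquiv_trans_apply]
  smul_zero σ := by
    change Additive.ofMul (ClassGroup.mulEquiv (ringAut K σ) 1) = 0
    rw [map_one]; rfl
  smul_add σ a b := by
    change Additive.ofMul (ClassGroup.mulEquiv (ringAut K σ) (a.toMul * b.toMul)) = _
    rw [map_mul]; rfl

theorem smul_ne_bot (σ : K ≃ₐ[ℚ] K) {I : Ideal (𝓞 K)} (hI : I ≠ ⊥) : σ • I ≠ ⊥ := by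
  intro h
  apply hI
  have h2 : σ⁻¹ • (σ • I) = σ⁻¹ • (⊥ : Ideal (𝓞 K)) := by rw [h]
  rw [inv_smul_smul] at h2
  rw [h2]
  exact Ideal.map_bot

theorem clAction_mk0 (σ : K ≃ₐ[ℚ] K) {I : Ideal (𝓞 K)} (hI : I ≠ ⊥) :
    (clAction K).smul σ (Additive.ofMul (ClassGroup.mk0 ⟨I, mem_nonZeroDivisors_iff_ne_zero.mpr hI⟩)) =
      Additive.ofMul (ClassGroup.mk0 ⟨σ • I, mem_nonZeroDivisors_iff_ne_zero.mpr
        (smul_ne_bot K σ hI)⟩) := by
  change Additive.ofMul (ClassGroup.mulEquiv (ringAut K σ) (ClassGroup.mk0 _)) = _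
  rw [ClassGroup.mulEquiv_mk0]
  congr 1

end action

section main
variable (p : ℕ) [hp : Fact p.Prime] (K : Type) [Field K] [NumberField K]
  [IsCyclotomicExtension {p} ℚ K]

theorem eta_not_pow (hp5 : 5 ≤ p) (z : 𝓞 K) (hz : IsPrimitiveRoot z p) (b : K)
    (hb : b ^ p = (eta p K z : K)) : False := by
  have hbint : IsIntegral ℤ b := by
    apply IsIntegral.of_pow hp.out.pos
    rw [hb]
    exact (eta p K z).2
  let b' : 𝓞 K := ⟨b, hbint⟩
  have hb' : b' ^ p = eta p K z := RingOfIntegers.ext hb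
  obtain ⟨m, hm⟩ := pow_p_sub_int_mem p K (by omega) z hz b'
  have := eta_local p K hp5 z hz 1 (by rw [Nat.dvd_one]; exact hp.out.one_lt.ne') m
  rw [pow_one, ← hb'] at this
  exact this hm

theorem dvd_sub_one_of_absNorm (z : 𝓞 K) (hz : IsPrimitiveRoot z p) (P : Ideal (𝓞 K))
    [hPp : P.IsPrime] (hP : (Ideal.absNorm P).Prime) (hB : p < Ideal.absNorm P) :
    (p : 𝓞 K) ∉ P ∧ p ∣ Ideal.absNorm P - 1 := by
  have hmem : ((Ideal.absNorm P : ℕ) : 𝓞 K) ∈ P := Ideal.absNorm_mem P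
  have hpP : (p : 𝓞 K) ∉ P := by
    intro h
    have hcop : Nat.Coprime p (Ideal.absNorm P) := (Nat.coprime_primes hp.out hP).mpr hB.ne
    have h1 : IsCoprime (p : 𝓞 K) ((Ideal.absNorm P : ℕ) : 𝓞 K) := by
      have := (Nat.isCoprime_iff_coprime.mpr hcop)
      have h2 := this.map (Int.castRingHom (𝓞 K))
      simpa using h2
    obtain ⟨a, b, hab⟩ := h1
    apply hPp.ne_top
    rw [Ideal.eq_top_iff_one, ← hab]
    exact Ideal.add_mem _ (Ideal.mul_mem_left _ _ h) (Ideal.mul_mem_left _ _ hmem)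
  refine ⟨hpP, ?_⟩
  have hcard : Nat.card (𝓞 K ⧸ P) = Ideal.absNorm P := by
    rw [Ideal.absNorm_apply, Submodule.cardQuot_apply]
  have hfin : Finite (𝓞 K ⧸ P) := Nat.finite_of_card_ne_zero (by rw [hcard]; exact hP.ne_zero)
  have hP0 : P ≠ ⊥ := by
    rintro rfl
    rw [Ideal.absNorm_bot] at hP
    exact Nat.not_prime_zero hP
  have hmax : P.IsMaximal := hPp.isMaximal hP0
  let _ : Field (𝓞 K ⧸ P) := Ideal.Quotient.field P
  have hz1 : Ideal.Quotient.mk P z ≠ 1 := by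
    intro h
    rw [← map_one (Ideal.Quotient.mk P), Ideal.Quotient.eq] at h
    apply hpP
    have h1 : (z - 1) ∣ (p : 𝓞 K) := by
      refine dvd_trans (dvd_pow_self _ ?_) (zeta_sub_one_pow_dvd p K z hz).dvd
      have := hp.out.one_lt; omega
    exact P.mem_of_dvd h1 h
  have hzp : Ideal.Quotient.mk P z ^ p = 1 := by
    rw [← map_pow, hz.pow_eq_one, map_one]
  have hord : orderOf (Ideal.Quotient.mk P z) = p := orderOf_eq_prime hzp hz1
  have hu : IsUnit (Ideal.Quotient.mk P z) := IsUnit.of_pow_eq_one hzp hp.out.ne_zero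
  have h1 : orderOf hu.unit = p := by
    rw [← hord, ← orderOf_units, IsUnit.unit_spec]
  rw [← h1, ← hcard, ← Nat.card_units]
  exact orderOf_dvd_natCard _

/-- The `ω²`-part of the `p`-torsion of the class group is trivial (Thaine). -/
theorem isPrincipal_of_eigen (hC : AnalyticInput) (hp5 : 5 ≤ p) (z : 𝓞 K) (hz : IsPrimitiveRoot z p)
    (I : Ideal (𝓞 K)) (hI : I ≠ ⊥) (hIp : (I ^ p).IsPrincipal)
    (heig : ∀ σ : K ≃ₐ[ℚ] K, ∃ x y : 𝓞 K, x ≠ 0 ∧ y ≠ 0 ∧
      Ideal.span {x} * (σ • I) = Ideal.span {y} * I ^ ((om p K σ ^ 2).val)) : I.IsPrincipal := by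
  have hpodd : Odd p := hp.out.odd_of_ne_two (by omega)
  by_contra hnp
  let _ : DistribMulAction (K ≃ₐ[ℚ] K) (Additive (ClassGroup (𝓞 K))) := clAction K
  have hmem : I ∈ (Ideal (𝓞 K))⁰ := mem_nonZeroDivisors_iff_ne_zero.mpr hI
  let c : Additive (ClassGroup (𝓞 K)) := Additive.ofMul (ClassGroup.mk0 ⟨I, hmem⟩)
  have hc : c ≠ 0 := by
    intro h
    apply hnp
    rw [← ClassGroup.mk0_eq_one_iff hmem]
    exact h
  have hpc : p • c = 0 := by
    change Additive.ofMul ((ClassGroup.mk0 ⟨I, hmem⟩) ^ p) = 0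
    rw [← map_pow]
    have hmem2 : I ^ p ∈ (Ideal (𝓞 K))⁰ := mem_nonZeroDivisors_iff_ne_zero.mpr (pow_ne_zero _ hI)
    have := (ClassGroup.mk0_eq_one_iff hmem2).mpr hIp
    exact this
  let χ : (K ≃ₐ[ℚ] K) →* (ZMod p)ˣ :=
    (powMonoidHom 2).comp (IsCyclotomicExtension.Rat.galEquivZMod p K).toMonoidHom
  have hχ : ∀ σ, (χ σ : ZMod p) = om p K σ ^ 2 := by
    intro σ
    change (((IsCyclotomicExtension.Rat.galEquivZMod p K σ) ^ 2 : (ZMod p)ˣ) : ZMod p) = _
    rw [Units.val_pow_eq_pow_val]; rfl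
  have hχc : ∀ σ : K ≃ₐ[ℚ] K, σ • c = ((χ σ : ZMod p).val) • c := by
    intro σ
    rw [hχ]
    obtain ⟨x, y, hx, hy, hxy⟩ := heig σ
    have h1 : σ • c = Additive.ofMul (ClassGroup.mk0 ⟨σ • I, mem_nonZeroDivisors_iff_ne_zero.mpr
        (smul_ne_bot K σ hI)⟩) := clAction_mk0 K σ hI
    rw [h1]
    change Additive.ofMul _ = Additive.ofMul ((ClassGroup.mk0 ⟨I, hmem⟩) ^ ((om p K σ ^ 2).val))
    congr 1
    rw [← map_pow, ClassGroup.mk0_eq_mk0_iff]
    exact ⟨x, y, hx, hy, hxy⟩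
  obtain ⟨ρ, hρ0, hρ⟩ := exists_equivariant_hom χ (card_gal p K) c hpc hc hχc
  let ρ' : ClassGroup (𝓞 K) →* Multiplicative (ZMod p) := AddMonoidHom.toMultiplicativeRight ρ
  have hρ' : ρ' ≠ 1 := by
    intro h
    apply hρ0
    refine AddMonoidHom.ext (fun a => ?_)
    have := DFunLike.congr_fun h (Additive.toMul a)
    exact this
  have hcl : ∀ (σ : K ≃ₐ[ℚ] K) (J : Ideal (𝓞 K)),
      clChar ρ' (σ • J) = om p K σ ^ 2 * clChar ρ' J := by
    intro σ J
    by_cases hJ : J = ⊥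
    · subst hJ
      have : σ • (⊥ : Ideal (𝓞 K)) = ⊥ := Ideal.map_bot
      rw [this, clChar, dif_neg (by simp), mul_zero]
    · rw [clChar, clChar, dif_pos hJ, dif_pos (smul_ne_bot K σ hJ), ← hχ]
      have h1 := hρ σ (Additive.ofMul (ClassGroup.mk0 ⟨J, mem_nonZeroDivisors_iff_ne_zero.mpr hJ⟩))
      have h2 := clAction_mk0 K σ hJ
      change ρ (Additive.ofMul _) = (χ σ : ZMod p) * ρ (Additive.ofMul _)
      rw [← h1, ← h2]
      rfl
  -- the extension
  have hirr : Irreducible (X ^ p - C ((eta p K z : 𝓞 K) : K)) :=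
    X_pow_sub_C_irreducible_of_prime hp.out (fun b hb => eta_not_pow p K hp5 z hz b hb)
  let L := SplittingField (X ^ p - C ((eta p K z : 𝓞 K) : K))
  have : CharZero L := charZero_of_injective_algebraMap (algebraMap K L).injective
  have : FiniteDimensional ℚ L := FiniteDimensional.trans ℚ K L
  have : NumberField L := ⟨⟩
  have hzK : IsPrimitiveRoot (z : K) p := hz.map_of_injective RingOfIntegers.coe_injective
  have hprK : (primitiveRoots p K).Nonempty := ⟨(z : K), by rwa [mem_primitiveRoots hp.out.pos]⟩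
  have hfin : Module.finrank K L = p := finrank_of_isSplittingField_X_pow_sub_C hprK hirr L
  obtain ⟨P, hP, hPp, hPn, hPB, hρP, hcount⟩ := hC K L p hp.out (by omega) hfin ρ' hρ' p
  obtain ⟨hpP, hdvd⟩ := dvd_sub_one_of_absNorm p K z hz P hPn hPB
  have hP0 : P ≠ ⊥ := mem_nonZeroDivisors_iff_ne_zero.mp hP
  have hclP : clChar ρ' P ≠ 0 := by
    rw [clChar, dif_pos hP0]
    intro h
    exact hρP h
  obtain ⟨x, hx⟩ := thaine p K hpodd z hz ρ' hcl (Ideal.absNorm P) hPn hPB.ne hdvd P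
    (Ideal.absNorm_mem P) hclP
  exact hcount (ncard_primesOver_eq K L p z hz (eta p K z) (isUnit_eta p K hpodd z hz) hirr P hP0
    hpP x hx)

end main

end Fermat.Agent.S14Lib
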