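import Mathlib
import Fermat.Agent.H05_Frob
import Fermat.Agent.H09.Minkowski

set_option autoImplicit false
set_option linter.style.haveILetI false

open Fermat.Agent.H05 Fermat.Agent.H09
open scoped NumberField Pointwise

namespace Fermat.Agent.S14Lib

/-- Lifting decomposition modulo a closed normal subgroup. -/
theorem exists_decomp_lift {L : Type*} [Field L] [CharZero L] [IsGalois ℚ L]
    {A : ValuationSubring L} {p : ℕ} (hp : p.Prime) (hA : A.LiesOverPrime p)
    (H : Subgroup (L ≃ₐ[ℚ] L)) [H.Normal] (hH : IsClosed (H : Set (L ≃ₐ[ℚ] L)))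
    (σ : L ≃ₐ[ℚ] L)
    (hσ : ∀ x : integralClosure ℤ L, (∀ h ∈ H, h • x = x) → (x ∈ center A ↔ σ • x ∈ center A)) :
    ∃ h ∈ H, h * σ ∈ A.decompositionSubgroup ℚ := by
  classical
  haveI : Fact p.Prime := ⟨hp⟩
  let B := integralClosure ℤ L
  letI : TopologicalSpace B := ⊥
  haveI : DiscreteTopology B := ⟨rfl⟩
  haveI : ContinuousSMul (L ≃ₐ[ℚ] L) B := by
    rw [continuousSMul_iff_stabilizer_isOpen]
    intro x
    have h1 := stabilizer_isOpen_of_isIntegral (K := ℚ) (L := L) (x : L)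
    convert h1 using 1
    ext σ
    simp only [SetLike.mem_coe, MulAction.mem_stabilizer_iff, Subtype.ext_iff]
    rfl
  let B' : Subalgebra ℤ B := FixedPoints.subalgebra ℤ B H
  haveI : CompactSpace H := isCompact_iff_compactSpace.mp hH.isCompact
  haveI : ContinuousSMul H B := by
    constructor
    exact (continuous_smul (M := L ≃ₐ[ℚ] L) (X := B)).comp
      ((continuous_subtype_val.comp continuous_fst).prodMk continuous_snd)
  haveI : SMulCommClass H B' B := by
    constructor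
    intro h b x
    rw [Subalgebra.smul_def, Subalgebra.smul_def, smul_eq_mul, smul_eq_mul, smul_mul',
      b.2 h]
  haveI : Algebra.IsInvariant B' B H := by
    constructor
    intro b hb
    exact ⟨⟨b, hb⟩, rfl⟩
  have hB' : ∀ x : B, x ∈ B' ↔ ∀ h ∈ H, h • x = x := by
    intro x
    constructor
    · intro hx h hh
      exact hx ⟨h, hh⟩
    · intro hx h
      exact hx h h.2
  -- normality
  have hnorm : ∀ (g : L ≃ₐ[ℚ] L) (x : B), x ∈ B' → g • x ∈ B' := by
    intro g x hx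
    rw [hB'] at hx ⊢
    intro h hh
    have h1 : g⁻¹ * h * g ∈ H := by
      have := (inferInstance : H.Normal).conj_mem h hh g⁻¹
      simpa using this
    have h2 := hx _ h1
    calc h • g • x = g • ((g⁻¹ * h * g) • x) := by
          rw [← mul_smul, ← mul_smul]; congr 1; group
      _ = g • x := by rw [h2]
  let Q : Ideal B := center A
  have step1 : (σ • Q).under B' = Q.under B' := by
    ext ⟨x, hx⟩
    have hx' : σ⁻¹ • x ∈ B' := hnorm σ⁻¹ x hx
    have h1 := hσ (σ⁻¹ • x) ((hB' _).mp hx')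
    rw [smul_inv_smul] at h1
    change x ∈ σ • Q ↔ x ∈ Q
    rw [Ideal.mem_pointwise_smul_iff_inv_smul_mem]
    exact h1
  obtain ⟨h₁, hh₁⟩ := Algebra.IsInvariant.exists_smul_of_under_eq_of_profinite
    (A := B') (B := B) (G := H) (σ • Q) Q step1
  have hQ1 : ((h₁ : L ≃ₐ[ℚ] L) * σ) • Q = Q := by
    rw [mul_smul]; exact hh₁.symm
  refine ⟨h₁, h₁.2, ?_⟩
  apply eq_of_center_eq hp ((liesOverPrime_smul_iff _ A p).mpr hA)
  rw [center_smul]
  exact hQ1

section field
variable {E : Type*} [Field E] [CharZero E]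

/-- The inclusion of integers. -/
noncomputable def iotaO (F : IntermediateField ℚ E) : 𝓞 F →+* integralClosure ℤ E where
  toFun := fun x => ⟨((x : F) : E), by
    have := x.2
    rw [mem_integralClosure_iff] at this ⊢
    exact this.map (F.val.restrictScalars ℤ)⟩
  map_one' := rfl
  map_mul' := fun _ _ => rfl
  map_zero' := rfl
  map_add' := fun _ _ => rfl

theorem iotaO_val (F : IntermediateField ℚ E) (x : 𝓞 F) : ((iotaO F x : integralClosure ℤ E) : E)
    = ((x : F) : E) := rfl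

theorem exists_iotaO_eq (F : IntermediateField ℚ E) (x : integralClosure ℤ E) (hx : (x : E) ∈ F) :
    ∃ y : 𝓞 F, iotaO F y = x := by
  have hxint : IsIntegral ℤ (⟨(x : E), hx⟩ : F) := by
    have h2 : IsIntegral ℤ (x : E) := x.2
    exact (isIntegral_algHom_iff (F.val.restrictScalars ℤ) F.val.injective).mp h2
  exact ⟨⟨⟨(x : E), hx⟩, hxint⟩, rfl⟩

variable [IsGalois ℚ E]

theorem lift_decomp (N : Subgroup (E ≃ₐ[ℚ] E)) [N.Normal] (hN : IsOpen (N : Set (E ≃ₐ[ℚ] E)))
    {A : ValuationSubring E} {p : ℕ} (hp : p.Prime) (hA : A.LiesOverPrime p)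
    (σ : E ≃ₐ[ℚ] E)
    (hσ : ∀ x y : 𝓞 (IntermediateField.fixedField N),
      ((y : IntermediateField.fixedField N) : E) = σ ((x : IntermediateField.fixedField N) : E) →
      (iotaO _ x ∈ center A ↔ iotaO _ y ∈ center A)) :
    ∃ h ∈ N, h * σ ∈ A.decompositionSubgroup ℚ := by
  apply exists_decomp_lift hp hA N (N.isClosed_of_isOpen hN) σ
  have hfix : ∀ x : integralClosure ℤ E, (∀ h ∈ N, h • x = x) →
      (x : E) ∈ IntermediateField.fixedField N := by
    intro x hx
    rw [IntermediateField.mem_fixedField_iff]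
    intro g hg
    exact congrArg Subtype.val (hx g hg)
  intro x hx
  obtain ⟨x', hx'⟩ := exists_iotaO_eq _ x (hfix x hx)
  have hσx : ∀ h ∈ N, h • (σ • x) = σ • x := by
    intro h hh
    have h1 : σ⁻¹ * h * σ ∈ N := by
      have := (inferInstance : N.Normal).conj_mem h hh σ⁻¹
      simpa using this
    have h2 := hx _ h1
    calc h • σ • x = σ • ((σ⁻¹ * h * σ) • x) := by
          rw [← mul_smul, ← mul_smul]; congr 1; group
      _ = σ • x := by rw [h2]
  obtain ⟨y', hy'⟩ := exists_iotaO_eq _ (σ • x) (hfix _ hσx)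
  have h1 := hσ x' y' (by
    rw [← iotaO_val, ← iotaO_val, hx', hy']; rfl)
  rw [hx', hy'] at h1
  exact h1

theorem lift_inertia (N : Subgroup (E ≃ₐ[ℚ] E)) [N.Normal] (hN : IsOpen (N : Set (E ≃ₐ[ℚ] E)))
    {A : ValuationSubring E} {p : ℕ} (hp : p.Prime) (hA : A.LiesOverPrime p)
    (σ : E ≃ₐ[ℚ] E)
    (hσ : ∀ x y : 𝓞 (IntermediateField.fixedField N),
      ((y : IntermediateField.fixedField N) : E) = σ ((x : IntermediateField.fixedField N) : E) →
      iotaO _ (y - x) ∈ center A) :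
    ∃ h ∈ N, h * σ ∈ A.inertiaSubgroupIn ℚ := by
  apply exists_inertia_lift hp hA N (N.isClosed_of_isOpen hN) σ
  have hfix : ∀ x : integralClosure ℤ E, (∀ h ∈ N, h • x = x) →
      (x : E) ∈ IntermediateField.fixedField N := by
    intro x hx
    rw [IntermediateField.mem_fixedField_iff]
    intro g hg
    exact congrArg Subtype.val (hx g hg)
  intro x hx
  obtain ⟨x', hx'⟩ := exists_iotaO_eq _ x (hfix x hx)
  have hσx : ∀ h ∈ N, h • (σ • x) = σ • x := by
    intro h hh
    have h1 : σ⁻¹ * h * σ ∈ N := by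
      have := (inferInstance : N.Normal).conj_mem h hh σ⁻¹
      simpa using this
    have h2 := hx _ h1
    calc h • σ • x = σ • ((σ⁻¹ * h * σ) • x) := by
          rw [← mul_smul, ← mul_smul]; congr 1; group
      _ = σ • x := by rw [h2]
  obtain ⟨y', hy'⟩ := exists_iotaO_eq _ (σ • x) (hfix _ hσx)
  have h1 := hσ x' y' (by
    rw [← iotaO_val, ← iotaO_val, hx', hy']; rfl)
  rw [map_sub, hx', hy'] at h1
  exact h1

/-- Every prime of `𝓞 F` containing `ℓ` is the center of a place over `ℓ`. -/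
theorem exists_place (F : IntermediateField ℚ E) [NumberField F] [IsGalois ℚ F]
    (Q : Ideal (𝓞 F)) [hQ : Q.IsPrime] {ℓ : ℕ} (hℓ : ℓ.Prime) (hℓQ : (ℓ : 𝓞 F) ∈ Q) :
    ∃ A : ValuationSubring E, A.LiesOverPrime ℓ ∧ (center A).comap (iotaO F) = Q := by
  obtain ⟨A₀, hA₀⟩ := exists_liesOverPrime E hℓ
  set Q₀ : Ideal (𝓞 F) := (center A₀).comap (iotaO F) with hQ₀
  have hlo : ∀ P : Ideal (𝓞 F), P.IsPrime → (ℓ : 𝓞 F) ∈ P → P.LiesOver (Ideal.span {(ℓ : ℤ)}) := by
    intro P hP hlP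
    have hmax : (Ideal.span {(ℓ : ℤ)}).IsMaximal :=
      PrincipalIdealRing.isMaximal_of_irreducible (Nat.prime_iff_prime_int.mp hℓ).irreducible
    refine ⟨hmax.eq_of_le (Ideal.IsPrime.ne_top inferInstance) ?_⟩
    rw [Ideal.span_singleton_le_iff_mem]
    change algebraMap ℤ (𝓞 F) (ℓ : ℤ) ∈ P
    simpa using hlP
  have hℓQ₀ : (ℓ : 𝓞 F) ∈ Q₀ := by
    rw [hQ₀, Ideal.mem_comap, map_natCast]
    exact natCast_mem_center hA₀
  have h1 := hlo Q hQ hℓQ
  have h2 := hlo Q₀ inferInstance hℓQ₀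
  obtain ⟨τ, hτ⟩ := Ideal.exists_smul_eq_of_isGaloisGroup (Ideal.span {(ℓ : ℤ)}) Q₀ Q
        (F ≃ₐ[ℚ] F)
  let σ : E ≃ₐ[ℚ] E := τ.liftNormal E
  have hσF : ∀ x : F, σ (x : E) = ((τ x : F) : E) := fun x => AlgEquiv.liftNormal_commutes τ E x
  have hσF' : ∀ x : F, σ⁻¹ (x : E) = ((τ⁻¹ x : F) : E) := by
    intro x
    apply σ.injective
    rw [hσF]
    have e1 : σ (σ⁻¹ (x : E)) = x := by
      change (σ * σ⁻¹) (x : E) = x
      rw [mul_inv_cancel]; rfl
    have e2 : τ (τ⁻¹ x) = x := by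
      change (τ * τ⁻¹) x = x
      rw [mul_inv_cancel]; rfl
    rw [e1, e2]
  refine ⟨σ • A₀, (liesOverPrime_smul_iff σ A₀ ℓ).mpr hA₀, ?_⟩
  rw [← hτ]
  ext x
  rw [Ideal.mem_comap, mem_center_smul_iff, Ideal.mem_pointwise_smul_iff_inv_smul_mem, hQ₀,
    Ideal.mem_comap]
  have : σ⁻¹ • (iotaO F x) = iotaO F (τ⁻¹ • x) := by
    apply Subtype.ext
    exact hσF' (x : F)
  rw [this]

end field

end Fermat.Agent.S14Lib
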