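import Mathlib
import Fermat.Agent.S14Lib.Basics

set_option autoImplicit false

open NumberField Polynomial
open scoped Pointwise nonZeroDivisors

namespace Fermat.Agent.S14Lib

theorem exists_pow_of_dvd_count {R : Type*} [CommRing R] [IsDedekindDomain R] (p : ℕ)
    (J : Ideal R) (hJ : J ≠ ⊥)
    (h : ∀ P : Ideal R, P.IsPrime → P ≠ ⊥ → ∃ n : ℕ, emultiplicity P J = (p * n : ℕ)) :
    ∃ I : Ideal R, J = I ^ p := by
  classical
  set m := UniqueFactorizationMonoid.normalizedFactors J with hm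
  refine ⟨∏ P ∈ m.toFinset, P ^ (m.count P / p), ?_⟩
  conv_lhs => rw [← Ideal.prod_normalizedFactors_eq_self hJ, Finset.prod_multiset_count]
  rw [← Finset.prod_pow]
  refine Finset.prod_congr rfl (fun P hP => ?_)
  have hPp := UniqueFactorizationMonoid.prime_of_normalized_factor P (Multiset.mem_toFinset.mp hP)
  obtain ⟨n, hn⟩ := h P (Ideal.isPrime_of_prime hPp) hPp.ne_zero
  rw [UniqueFactorizationMonoid.emultiplicity_eq_count_normalizedFactors hPp.irreducible hJ,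
    normalize_eq] at hn
  have hn' : m.count P = p * n := by exact_mod_cast hn
  rw [← pow_mul]
  congr 1
  rw [← hm, hn', Nat.div_mul_cancel]
  exact ⟨n, rfl⟩

theorem exists_ideal_pow {K L : Type*} [Field K] [NumberField K] [Field L] [NumberField L]
    [Algebra K L] (p : ℕ) (hp : p.Prime) (y : 𝓞 L) (α : 𝓞 K) (hα0 : α ≠ 0)
    (hy : y ^ p = algebraMap (𝓞 K) (𝓞 L) α)
    (h : ∀ P : Ideal (𝓞 K), P.IsPrime → P ≠ ⊥ →
      ∃ Q : Ideal (𝓞 L), Q.IsPrime ∧ Q.LiesOver P ∧ Q.ramificationIdx (𝓞 K) = 1) :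
    ∃ I : Ideal (𝓞 K), I ≠ ⊥ ∧ Ideal.span {α} = I ^ p := by
  have hJ : Ideal.span {α} ≠ ⊥ := by rwa [Ne, Ideal.span_singleton_eq_bot]
  have hinj : Function.Injective (algebraMap (𝓞 K) (𝓞 L)) := FaithfulSMul.algebraMap_injective _ _
  have hy0 : y ≠ 0 := by
    rintro rfl
    rw [zero_pow hp.ne_zero, eq_comm, map_eq_zero_iff _ hinj] at hy
    exact hα0 hy
  obtain ⟨I, hI⟩ := exists_pow_of_dvd_count p (Ideal.span {α}) hJ (by
    intro P hP hP0
    obtain ⟨Q, hQ, hQP, he⟩ := h P hP hP0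
    have hQ0 : Q ≠ ⊥ := Ideal.ne_bot_of_liesOver_of_ne_bot hP0 Q
    have hPprime : Prime P := Ideal.prime_of_isPrime hP0 hP
    have hQprime : Prime Q := Ideal.prime_of_isPrime hQ0 hQ
    have h1 := Ideal.IsDedekindDomain.emultiplicity_map_eq_ramificationIdx'_mul (S := 𝓞 L) hJ
      hPprime.irreducible hQprime.irreducible hQ0
    rw [Ideal.ramificationIdx'_eq_ramificationIdx P Q hP0, he, Ideal.map_span, Set.image_singleton,
      ← hy, ← Ideal.span_singleton_pow, emultiplicity_pow hQprime] at h1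
    have hfin : FiniteMultiplicity Q (Ideal.span {y}) :=
      FiniteMultiplicity.of_prime_left hQprime (by rwa [Ne, Ideal.zero_eq_bot, Ideal.span_singleton_eq_bot])
    rw [hfin.emultiplicity_eq_multiplicity] at h1
    refine ⟨multiplicity Q (Ideal.span {y}), ?_⟩
    rw [Nat.cast_one, one_mul] at h1
    rw [← h1]
    push_cast
    rfl)
  refine ⟨I, ?_, hI⟩
  rintro rfl
  apply hJ
  rw [hI, ← Ideal.zero_eq_bot, zero_pow hp.ne_zero]

section galois
variable {K L : Type*} [Field K] [NumberField K] [Field L] [NumberField L]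
  [Algebra K L] [IsGalois K L]

/-- trivial inertia implies unramified -/
theorem ramificationIdx_eq_one_of_inertia (P : Ideal (𝓞 K)) (hP : P.IsPrime) (hP0 : P ≠ ⊥)
    (Q : Ideal (𝓞 L)) (hQ : Q.IsPrime) (hQP : Q.LiesOver P)
    (h : ∀ σ : L ≃ₐ[K] L, (∀ x : 𝓞 L, σ • x - x ∈ Q) → σ = 1) :
    Q.ramificationIdx (𝓞 K) = 1 := by
  have : P.IsMaximal := hP.isMaximal hP0
  have : Finite (𝓞 K ⧸ P) := Ideal.finiteQuotientOfFreeOfNeBot P hP0
  have h1 := Ideal.card_inertia_eq_ramificationIdxIn (G := L ≃ₐ[K] L) P Q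
  rw [Ideal.ramificationIdxIn_eq_ramificationIdx P Q (L ≃ₐ[K] L)] at h1
  rw [← h1, Subgroup.card_eq_one, Subgroup.eq_bot_iff_forall]
  intro σ hσ
  exact h σ hσ

theorem decomp_trivial (P : Ideal (𝓞 K)) (hP : P.IsPrime) (hP0 : P ≠ ⊥)
    (Q : Ideal (𝓞 L)) (hQ : Q.IsPrime) (hQP : Q.LiesOver P)
    (h : ∀ σ : L ≃ₐ[K] L, σ • Q = Q → σ = 1) :
    Q.ramificationIdx (𝓞 K) = 1 ∧ Ideal.absNorm Q = Ideal.absNorm P := by
  have : P.IsMaximal := hP.isMaximal hP0
  have : Finite (𝓞 K ⧸ P) := Ideal.finiteQuotientOfFreeOfNeBot P hP0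
  have h1 := Ideal.card_stabilizer_eq (G := L ≃ₐ[K] L) P Q
  rw [Ideal.ramificationIdxIn_eq_ramificationIdx P Q (L ≃ₐ[K] L),
    Ideal.inertiaDegIn_eq_inertiaDeg P Q (L ≃ₐ[K] L)] at h1
  have h2 : Nat.card (MulAction.stabilizer (L ≃ₐ[K] L) Q) = 1 := by
    rw [Subgroup.card_eq_one, Subgroup.eq_bot_iff_forall]
    intro σ hσ
    exact h σ (MulAction.mem_stabilizer_iff.mp hσ)
  rw [h2] at h1
  have h3 := Nat.eq_one_of_mul_eq_one_right h1.symm
  have h4 := Nat.eq_one_of_mul_eq_one_left h1.symm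
  refine ⟨h3, ?_⟩
  rw [← Ideal.absNorm_pow_inertiaDeg P Q, h4, pow_one]

end galois

end Fermat.Agent.S14Lib
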