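import Mathlib
import Fermat.Agent.S14Lib.ClassPart
import Fermat.Agent.H10.UnitEigen

set_option autoImplicit false

open NumberField Polynomial
open scoped Pointwise nonZeroDivisors

namespace Fermat.Agent.S14Lib

variable (p : ℕ) [hp : Fact p.Prime] (K : Type) [Field K] [NumberField K]
  [IsCyclotomicExtension {p} ℚ K]

theorem comm_aux {G : Type*} [CommGroup G] (A T W X Y S : G) :
    (A * T * W * X) * (A * Y)⁻¹ * S⁻¹ = T * (W * X * Y⁻¹ * S⁻¹) := by
  rw [mul_inv]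
  have : A * T * W * X * (A⁻¹ * Y⁻¹) * S⁻¹ = (A * A⁻¹) * (T * (W * X * Y⁻¹ * S⁻¹)) := by ac_rfl
  rw [this, mul_inv_cancel, one_mul]

/-- Roots of unity in `K = ℚ(ζ_p)`. -/
theorem torsion_form (hpodd : Odd p) (z : 𝓞 K) (hz : IsPrimitiveRoot z p) (t : (𝓞 K)ˣ)
    (ht : t ∈ NumberField.Units.torsion K) : ∃ r : ℕ, (t : 𝓞 K) = z ^ r ∨ (t : 𝓞 K) = - z ^ r := by
  have hzK : IsPrimitiveRoot (z : K) p := hz.map_of_injective RingOfIntegers.coe_injective
  have h1 : IsOfFinOrder t := by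
    exact (CommGroup.mem_torsion _).mp ht
  have h2 : IsOfFinOrder ((t : 𝓞 K) : K) := by
    rw [isOfFinOrder_iff_pow_eq_one] at h1 ⊢
    obtain ⟨n, hn, h⟩ := h1
    refine ⟨n, hn, ?_⟩
    have := congrArg (fun u : (𝓞 K)ˣ => ((u : 𝓞 K) : K)) h
    simpa using this
  obtain ⟨r, -, h | h⟩ := hzK.exists_pow_or_neg_mul_pow_of_isOfFinOrder hpodd h2
  · exact ⟨r, Or.inl (RingOfIntegers.ext (by simpa using h))⟩
  · exact ⟨r, Or.inr (RingOfIntegers.ext (by simpa using h))⟩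

theorem zeta_ne_pow (hpodd : Odd p) (z : 𝓞 K) (hz : IsPrimitiveRoot z p) (W : 𝓞 K) : z ≠ W ^ p := by
  intro h
  have hp1 := hp.out.one_lt
  have hzK : IsPrimitiveRoot (z : K) p := hz.map_of_injective RingOfIntegers.coe_injective
  have h2 : IsOfFinOrder (W : K) := by
    rw [isOfFinOrder_iff_pow_eq_one]
    refine ⟨p * p, Nat.mul_pos hp.out.pos hp.out.pos, ?_⟩
    have : (W : 𝓞 K) ^ (p * p) = 1 := by rw [pow_mul, ← h, hz.pow_eq_one]
    have := congrArg (fun x : 𝓞 K => (x : K)) this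
    simpa using this
  have hpc : ((p : K)) ≠ 0 := by exact_mod_cast hp.out.ne_zero
  have hzW : (z : K) = (W : K) ^ p := by
    have := congrArg (fun x : 𝓞 K => (x : K)) h
    simpa using this
  obtain ⟨r, -, h3 | h3⟩ := hzK.exists_pow_or_neg_mul_pow_of_isOfFinOrder hpodd h2
  · rw [h3, ← pow_mul, mul_comm, pow_mul, hzK.pow_eq_one, one_pow] at hzW
    exact hzK.ne_one hp1 hzW
  · rw [h3, hpodd.neg_pow, ← pow_mul, mul_comm, pow_mul, hzK.pow_eq_one, one_pow] at hzW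
    have h4 := hzK.pow_eq_one
    rw [hzW, hpodd.neg_one_pow] at h4
    norm_num at h4

/-- `σ` on units. -/
noncomputable def suu (σ : K ≃ₐ[ℚ] K) : (𝓞 K)ˣ →* (𝓞 K)ˣ :=
  Units.map (MulSemiringAction.toRingHom (K ≃ₐ[ℚ] K) (𝓞 K) σ : 𝓞 K →* 𝓞 K)

omit hp [IsCyclotomicExtension {p} ℚ K] in
theorem suu_val (σ : K ≃ₐ[ℚ] K) (u : (𝓞 K)ˣ) : (suu K σ u : 𝓞 K) = σ • (u : 𝓞 K) := rfl

/-- A root of unity in the `ω²`-part modulo `p`-th powers is a `p`-th power. -/
theorem torsion_part (hp5 : 5 ≤ p) (z : 𝓞 K) (hz : IsPrimitiveRoot z p) (σ : K ≃ₐ[ℚ] K)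
    (hσ : om p K σ ≠ 1) (t w : (𝓞 K)ˣ)
    (ht : t ∈ NumberField.Units.torsion K)
    (hst : suu K σ t = t ^ ((om p K σ ^ 2).val) * w ^ p) : ∃ w' : (𝓞 K)ˣ, t = w' ^ p := by
  have hpodd : Odd p := hp.out.odd_of_ne_two (by omega)
  obtain ⟨r, hr⟩ := torsion_form p K hpodd z hz t ht
  have hzu : IsUnit z := hz.isUnit hp.out.ne_zero
  -- write t = ε * z^r
  obtain ⟨ε, hε, hεt⟩ : ∃ ε : 𝓞 K, (ε = 1 ∨ ε = -1) ∧ (t : 𝓞 K) = ε * z ^ r := by
    rcases hr with hr | hr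
    · exact ⟨1, Or.inl rfl, by rw [hr, one_mul]⟩
    · exact ⟨-1, Or.inr rfl, by rw [hr]; ring⟩
  have hεp : ε ^ p = ε := by
    rcases hε with rfl | rfl
    · exact one_pow _
    · exact hpodd.neg_one_pow
  have hεε : ε * ε = 1 := by
    rcases hε with rfl | rfl <;> ring
  have hσε : σ • ε = ε := by
    rcases hε with rfl | rfl
    · exact smul_one σ
    · rw [smul_neg, smul_one]
  set c := (om p K σ ^ 2).val with hc
  set g := (om p K σ).val with hg
  have h1 : σ • (t : 𝓞 K) = (t : 𝓞 K) ^ c * (w : 𝓞 K) ^ p := by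
    rw [← suu_val, hst]; push_cast; rfl
  rw [hεt, smul_mul', hσε, smul_pow', smul_zeta p K σ hz.pow_eq_one, ← hg] at h1
  by_cases hpr : p ∣ r
  · -- t = ε
    obtain ⟨k, rfl⟩ := hpr
    have ht2 : (t : 𝓞 K) = ε := by
      rw [hεt, pow_mul, hz.pow_eq_one, one_pow, mul_one]
    have hεu : IsUnit ε := ⟨t, ht2⟩
    refine ⟨t, ?_⟩
    ext1
    push_cast
    rw [ht2, hεp]
  · exfalso
    -- z^(g r) * ε = (ε z^r)^c w^p
    have hz3 : ∀ m n : ℕ, (m : ZMod p) = n → z ^ m = z ^ n := by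
      intro m n hmn
      rw [ZMod.natCast_eq_natCast_iff] at hmn
      exact pow_eq_pow_of_modEq hmn hz.pow_eq_one
    -- exponent e with e * (r * (g - g^2)) = 1
    have hne : (r : ZMod p) * (om p K σ - om p K σ ^ 2) ≠ 0 := by
      apply mul_ne_zero
      · rwa [Ne, ZMod.natCast_eq_zero_iff]
      · have : om p K σ - om p K σ ^ 2 = om p K σ * (1 - om p K σ) := by ring
        rw [this]
        exact mul_ne_zero (om_ne_zero p K σ) (sub_ne_zero.mpr hσ.symm)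
    -- multiply both sides by z^(r * d), d = -g^2
    set d : ℕ := ((-(om p K σ ^ 2) : ZMod p)).val with hd
    have h2 : z ^ (g * r + r * d) = ε ^ (c + 1) * (w : 𝓞 K) ^ p := by
      have h3 : z ^ (c * r + r * d) = 1 := by
        rw [hz3 (c * r + r * d) 0 (by
          push_cast
          rw [hc, hd, ZMod.natCast_zmod_val, ZMod.natCast_zmod_val]; ring), pow_zero]
      calc z ^ (g * r + r * d) = ε * ε * (z ^ g) ^ r * z ^ (r * d) := by
            rw [hεε, one_mul, ← pow_mul, ← pow_add]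
        _ = ε * (ε * (z ^ g) ^ r) * z ^ (r * d) := by ring
        _ = ε * ((ε * z ^ r) ^ c * (w : 𝓞 K) ^ p) * z ^ (r * d) := by rw [h1]
        _ = ε ^ (c + 1) * (w : 𝓞 K) ^ p * (z ^ (c * r + r * d)) := by ring
        _ = _ := by rw [h3, mul_one]
    -- so z^(..) is a p-th power
    set e : ℕ := ((r : ZMod p) * (om p K σ - om p K σ ^ 2))⁻¹.val with he
    have h4 : z = (z ^ (g * r + r * d)) ^ e := by
      rw [← pow_mul]
      conv_lhs => rw [← pow_one z]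
      apply hz3
      push_cast
      rw [hg, hd, he, ZMod.natCast_zmod_val, ZMod.natCast_zmod_val, ZMod.natCast_zmod_val]
      rw [eq_comm]
      rw [show om p K σ * (r : ZMod p) + r * -(om p K σ ^ 2) = (r : ZMod p) * (om p K σ - om p K σ ^ 2) by ring]
      exact mul_inv_cancel₀ hne
    rw [h2] at h4
    apply zeta_ne_pow p K hpodd z hz ((ε ^ (c + 1) * w) ^ e)
    rw [← pow_mul, mul_comm e p, pow_mul, mul_pow, ← pow_mul, mul_comm (c + 1) p, pow_mul, hεp]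
    exact h4

/-- The `ω²`-part of the units modulo `p`-th powers is generated by `η`. -/
theorem unit_part (hp5 : 5 ≤ p) (z : 𝓞 K) (hz : IsPrimitiveRoot z p) (u : (𝓞 K)ˣ)
    (hu : ∀ σ : K ≃ₐ[ℚ] K, ∃ w : (𝓞 K)ˣ, σ • (u : 𝓞 K) =
      (u : 𝓞 K) ^ ((om p K σ ^ 2).val) * (w : 𝓞 K) ^ p) :
    ∃ (a : ℕ) (w : (𝓞 K)ˣ), (u : 𝓞 K) = eta p K z ^ a * (w : 𝓞 K) ^ p := by
  have hpodd : Odd p := hp.out.odd_of_ne_two (by omega)
  have hzK : IsPrimitiveRoot (z : K) p := hz.map_of_injective RingOfIntegers.coe_injective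
  obtain ⟨G, hG⟩ := IsCyclic.exists_generator (α := (ZMod p)ˣ)
  set g : ℕ := (G : ZMod p).val with hg
  have hgG : (g : ZMod p) = G := by rw [hg, ZMod.natCast_zmod_val]
  have hord : orderOf (g : ZMod p) = p - 1 := by
    rw [hgG, orderOf_units, orderOf_eq_card_of_forall_mem_zpowers hG, Nat.card_eq_fintype_card,
      ZMod.card_units]
  let σ : K ≃ₐ[ℚ] K := (IsCyclotomicExtension.Rat.galEquivZMod p K).symm G
  have hom : om p K σ = G := by
    change ((IsCyclotomicExtension.Rat.galEquivZMod p K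
      ((IsCyclotomicExtension.Rat.galEquivZMod p K).symm G) : (ZMod p)ˣ) : ZMod p) = _
    rw [MulEquiv.apply_symm_apply]
  have hσ1 : om p K σ ≠ 1 := by
    intro h
    rw [hgG, ← hom, h, orderOf_one] at hord
    omega
  have hσz : σ (z : K) = (z : K) ^ g := by
    have := smul_zeta p K σ hz.pow_eq_one
    have := congrArg (fun x : 𝓞 K => (x : K)) this
    rw [hom, ← hg] at this
    exact this
  set c := (om p K σ ^ 2).val with hc
  let v : (𝓞 K)ˣ := (isUnit_eta p K hpodd z hz).unit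
  have hv : (v : 𝓞 K) = eta p K z := IsUnit.unit_spec _
  obtain ⟨w₁, hw₁⟩ := hu σ
  obtain ⟨w₂, hw₂⟩ := smul_eta p K hpodd z hz σ
  rw [← hv] at hw₂
  have hw₁' : suu K σ u = u ^ c * w₁ ^ p := by
    ext1
    rw [suu_val, hw₁]; push_cast; rfl
  have hw₂' : suu K σ v = v ^ c * w₂ ^ p := by
    ext1
    rw [suu_val, hw₂]; push_cast; rfl
  obtain ⟨a, t, ht, w, huw⟩ := Fermat.Agent.H10.UnitEigen.unit_eigenspace hzK hp5 hord hσz c u v w₁ w₂
    hw₁ hw₂ (by
      intro t ht w hvt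
      have h1 : suu K σ t = t ^ c * (w ^ c * w₂ * (suu K σ w)⁻¹) ^ p := by
        have h2 := hw₂'
        rw [hvt, map_mul, map_pow] at h2
        have h3 : suu K σ t = (t * w ^ p) ^ c * w₂ ^ p * ((suu K σ w) ^ p)⁻¹ := by
          rw [← h2, mul_inv_cancel_right]
        rw [h3, mul_pow, mul_pow, mul_pow, inv_pow, ← pow_mul, ← pow_mul, mul_comm p c]
        simp only [mul_assoc]
      obtain ⟨w', hw'⟩ := torsion_part p K hp5 z hz σ hσ1 t _ ht h1
      refine eta_not_pow p K hp5 z hz (((w' * w : (𝓞 K)ˣ) : 𝓞 K) : K) ?_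
      rw [← hv, hvt, hw', ← mul_pow]
      push_cast
      rfl)
  have h1 : suu K σ t = t ^ c * (w ^ c * w₁ * (w₂ ^ a)⁻¹ * (suu K σ w)⁻¹) ^ p := by
    have h2 := hw₁'
    rw [huw, map_mul, map_mul, map_pow, map_pow, hw₂'] at h2
    have h3 : suu K σ t = ((v ^ a * t * w ^ p) ^ c * w₁ ^ p) * (((v ^ c * w₂ ^ p) ^ a))⁻¹ *
        ((suu K σ w) ^ p)⁻¹ := by
      rw [← h2, eq_mul_inv_iff_mul_eq, eq_mul_inv_iff_mul_eq]
      ac_rfl
    rw [h3]
    have h4 := comm_aux (v ^ (a * c)) (t ^ c) (w ^ (c * p)) (w₁ ^ p) (w₂ ^ (a * p)) ((suu K σ w) ^ p)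
    simp only [mul_pow, inv_pow, ← pow_mul] at h4 ⊢
    rw [mul_comm c a, mul_comm p c, mul_comm p a]
    exact h4
  obtain ⟨w', hw'⟩ := torsion_part p K hp5 z hz σ hσ1 t _ ht h1
  refine ⟨a, w' * w, ?_⟩
  rw [← hv, huw, hw']
  push_cast
  ring

end Fermat.Agent.S14Lib
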