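import Mathlib
import Fermat.Agent.S14Lib.Core1
import Fermat.Agent.S14Lib.UnitPart

set_option autoImplicit false

open NumberField Polynomial
open scoped Pointwise nonZeroDivisors

namespace Fermat.Agent.S14Lib

section general
variable (p : ℕ) [hp : Fact p.Prime] {K : Type} [Field K] [NumberField K]
  [IsCyclotomicExtension {p} ℚ K]

theorem eq_span_of_mem (z : 𝓞 K) (hz : IsPrimitiveRoot z p) (P : Ideal (𝓞 K)) [hP : P.IsPrime]
    (h : (p : 𝓞 K) ∈ P) : P = Ideal.span {z - 1} := by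
  have h1 : z - 1 ∈ P := by
    have h2 := zeta_sub_one_pow_dvd p K z hz
    have h3 : (z - 1) ^ (p - 1) ∈ P := P.mem_of_dvd h2.symm.dvd h
    exact hP.mem_of_pow_mem _ h3
  have hmax : (Ideal.span {z - 1}).IsMaximal := by
    have hpr : (Ideal.span {z - 1}).IsPrime :=
      Ideal.isPrime_of_irreducible_absNorm (by
        rw [prime_absNorm_zeta_sub_one p K z hz]; exact hp.out)
    refine hpr.isMaximal ?_
    rw [Ne, Ideal.span_singleton_eq_bot, sub_eq_zero]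
    exact hz.ne_one hp.out.one_lt
  exact (hmax.eq_of_le hP.ne_top ((Ideal.span_singleton_le_iff_mem _).mpr h1)).symm

theorem ideal_pow_inj {R : Type*} [CommRing R] [IsDedekindDomain R] {n : ℕ} (hn : n ≠ 0)
    {I J : Ideal R} (h : I ^ n = J ^ n) : I = J := by
  apply dvd_antisymm
  · exact (UniqueFactorizationMonoid.pow_dvd_pow_iff_dvd hn).mp h.dvd
  · exact (UniqueFactorizationMonoid.pow_dvd_pow_iff_dvd hn).mp h.symm.dvd

end general

section core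
variable (p : ℕ) [hp : Fact p.Prime] {K : Type} [Field K] [NumberField K]
  [IsCyclotomicExtension {p} ℚ K] {L : Type} [Field L] [NumberField L] [Algebra K L] [IsGalois K L]

/-- Local conditions imply that `(α)` is a `p`-th power of an ideal. -/
theorem ideal_pow_of_local (z : 𝓞 K) (hz : IsPrimitiveRoot z p) (y : 𝓞 L) (α : 𝓞 K) (hα0 : α ≠ 0)
    (hy : y ^ p = algebraMap (𝓞 K) (𝓞 L) α)
    (Λ : Ideal (𝓞 L)) [hΛ : Λ.IsPrime] (hpΛ : (p : 𝓞 L) ∈ Λ)
    (hdec : ∀ σ : L ≃ₐ[K] L, σ • Λ = Λ → σ = 1)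
    (hin : ∀ Q : Ideal (𝓞 L), Q.IsPrime → Q ≠ ⊥ → (p : 𝓞 L) ∉ Q →
      ∀ σ : L ≃ₐ[K] L, (∀ x : 𝓞 L, σ • x - x ∈ Q) → σ = 1) :
    Λ.LiesOver (Ideal.span {z - 1}) ∧ Λ.ramificationIdx (𝓞 K) = 1 ∧ Ideal.absNorm Λ = p ∧
    ∃ I : Ideal (𝓞 K), I ≠ ⊥ ∧ Ideal.span {α} = I ^ p := by
  have hΛu : Λ.under (𝓞 K) = Ideal.span {z - 1} := by
    apply eq_span_of_mem p z hz
    rw [Ideal.under_def, Ideal.mem_comap]
    simpa using hpΛ
  have hΛo : Λ.LiesOver (Ideal.span {z - 1}) := ⟨hΛu.symm⟩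
  have hz0 : Ideal.span {z - 1} ≠ ⊥ := by
    rw [Ne, Ideal.span_singleton_eq_bot, sub_eq_zero]
    exact hz.ne_one hp.out.one_lt
  have hzp : (Ideal.span {z - 1}).IsPrime := by rw [← hΛu]; infer_instance
  obtain ⟨he, hN⟩ := decomp_trivial (Ideal.span {z - 1}) hzp hz0 Λ hΛ hΛo hdec
  rw [prime_absNorm_zeta_sub_one p K z hz] at hN
  refine ⟨hΛo, he, hN, ?_⟩
  apply exists_ideal_pow p hp.out y α hα0 hy
  intro P hP hP0
  by_cases hpP : (p : 𝓞 K) ∈ P
  · refine ⟨Λ, hΛ, ?_, he⟩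
    rw [eq_span_of_mem p z hz P hpP]
    exact hΛo
  · obtain ⟨⟨Q, hQ, hQP⟩⟩ := Ideal.nonempty_primesOver (S := 𝓞 L) P
    have hpQ : (p : 𝓞 L) ∉ Q := by
      intro h
      apply hpP
      rw [Ideal.over_def Q P, Ideal.under_def, Ideal.mem_comap]
      simpa using h
    have hQ0 : Q ≠ ⊥ := Ideal.ne_bot_of_liesOver_of_ne_bot hP0 Q
    exact ⟨Q, hQ, hQP, ramificationIdx_eq_one_of_inertia P hP hP0 Q hQ hQP (hin Q hQ hQ0 hpQ)⟩

omit hp [IsCyclotomicExtension {p} ℚ K] in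
theorem smul_span (σ : K ≃ₐ[ℚ] K) (x : 𝓞 K) : σ • Ideal.span {x} = Ideal.span {σ • x} := by
  change Ideal.map _ _ = _
  rw [Ideal.map_span, Set.image_singleton]
  rfl

omit [IsCyclotomicExtension {p} ℚ K] in
theorem eigen_ideal (σ : K ≃ₐ[ℚ] K) (c : ℕ) (α : 𝓞 K) (hα0 : α ≠ 0)
    (I : Ideal (𝓞 K)) (hαI : Ideal.span {α} = I ^ p) (β : K)
    (hβ : ((σ • α : 𝓞 K) : K) = (α : K) ^ c * β ^ p) :
    ∃ x y : 𝓞 K, x ≠ 0 ∧ y ≠ 0 ∧ Ideal.span {x} * (σ • I) = Ideal.span {y} * I ^ c := by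
  obtain ⟨b, e, he, rfl⟩ := IsFractionRing.div_surjective (A := 𝓞 K) β
  have he0 : e ≠ 0 := nonZeroDivisors.ne_zero he
  have heK : (algebraMap (𝓞 K) K e) ≠ 0 := by
    rwa [Ne, map_eq_zero_iff _ RingOfIntegers.coe_injective]
  have h1 : e ^ p * (σ • α) = α ^ c * b ^ p := by
    apply RingOfIntegers.coe_injective
    rw [map_mul, map_mul, map_pow, map_pow, map_pow]
    change _ * ((σ • α : 𝓞 K) : K) = _
    rw [hβ, div_pow]
    field_simp
  have hσα : σ • α ≠ 0 := by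
    intro h
    apply hα0
    have := congrArg (fun t => σ⁻¹ • t) h
    simpa using this
  have hb0 : b ≠ 0 := by
    rintro rfl
    rw [zero_pow hp.out.ne_zero, mul_zero, mul_eq_zero] at h1
    rcases h1 with h1 | h1
    · exact he0 (pow_eq_zero_iff hp.out.ne_zero |>.mp h1)
    · exact hσα h1
  refine ⟨e, b, he0, hb0, ?_⟩
  apply ideal_pow_inj hp.out.ne_zero
  rw [mul_pow, mul_pow, ← smul_pow', ← hαI, smul_span, Ideal.span_singleton_pow,
    Ideal.span_singleton_pow, Ideal.span_singleton_mul_span_singleton, h1, ← pow_mul, mul_comm c p,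
    pow_mul, ← hαI, Ideal.span_singleton_pow, Ideal.span_singleton_mul_span_singleton, mul_comm]

end core

end Fermat.Agent.S14Lib
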