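import Mathlib
import Fermat.Agent.S14Lib.Core2

set_option autoImplicit false

open NumberField Polynomial
open scoped Pointwise nonZeroDivisors

namespace Fermat.Agent.S14Lib

variable (p : ℕ) [hp : Fact p.Prime] {K : Type} [Field K] [NumberField K]
  [IsCyclotomicExtension {p} ℚ K] {L : Type} [Field L] [NumberField L] [Algebra K L] [IsGalois K L]

omit hp [IsCyclotomicExtension {p} ℚ K] in
theorem ocoe_mul {F : Type} [Field F] (a b : 𝓞 F) : ((a * b : 𝓞 F) : F) = (a : F) * (b : F) :=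
  map_mul (algebraMap (𝓞 F) F) a b

theorem ocoe_pow {F : Type} [Field F] (a : 𝓞 F) (n : ℕ) : ((a ^ n : 𝓞 F) : F) = (a : F) ^ n :=
  map_pow (algebraMap (𝓞 F) F) a n

theorem ocoe_zero {F : Type} [Field F] : ((0 : 𝓞 F) : F) = 0 :=
  map_zero (algebraMap (𝓞 F) F)

/-- final local contradiction -/
theorem final_local (hp5 : 5 ≤ p) (z : 𝓞 K) (hz : IsPrimitiveRoot z p) (y : 𝓞 L) (a : ℕ)
    (ha : ¬ p ∣ a) (hy : y ^ p = algebraMap (𝓞 K) (𝓞 L) (eta p K z ^ a))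
    (Λ : Ideal (𝓞 L)) [hΛ : Λ.IsPrime] [hΛo : Λ.LiesOver (Ideal.span {z - 1})]
    (he : Λ.ramificationIdx (𝓞 K) = 1) (hN : Ideal.absNorm Λ = p) : False := by
  obtain ⟨m, hm⟩ := exists_int_sub_mem Λ (by rw [hN]; exact hp.out) y
  have hz0 : Ideal.span {z - 1} ≠ ⊥ := by
    rw [Ne, Ideal.span_singleton_eq_bot, sub_eq_zero]
    exact hz.ne_one hp.out.one_lt
  have hzp : (Ideal.span {z - 1}).IsPrime := by
    rw [Ideal.over_def Λ (Ideal.span {z - 1})]; infer_instance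
  have hzΛ : algebraMap (𝓞 K) (𝓞 L) (z - 1) ∈ Λ := by
    have h1 : z - 1 ∈ Λ.under (𝓞 K) := by
      rw [← Ideal.over_def Λ (Ideal.span {z - 1})]
      exact Ideal.mem_span_singleton_self _
    exact h1
  have hpΛ : (p : 𝓞 L) ∈ Λ ^ (p - 1) := by
    have h1 := (zeta_sub_one_pow_dvd p K z hz).dvd
    have h2 := map_dvd (algebraMap (𝓞 K) (𝓞 L)) h1
    rw [map_natCast, map_pow] at h2
    exact (Λ ^ (p - 1)).mem_of_dvd h2 (Ideal.pow_mem_pow hzΛ _)
  have h1 := pow_prime_sub_mem hp.out Λ hpΛ y m hm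
  have h2 : algebraMap (𝓞 K) (𝓞 L) (eta p K z ^ a - ((m ^ p : ℤ) : 𝓞 K)) ∈ Λ ^ 3 := by
    rw [map_sub, ← hy]
    have : algebraMap (𝓞 K) (𝓞 L) ((m ^ p : ℤ) : 𝓞 K) = (m : 𝓞 L) ^ p := by
      simp
    rw [this]
    exact Ideal.pow_le_pow_right (by omega) h1
  apply eta_local p K hp5 z hz a ha (m ^ p)
  set β := eta p K z ^ a - ((m ^ p : ℤ) : 𝓞 K) with hβ
  by_cases hβ0 : β = 0
  · rw [hβ0]; exact zero_mem _
  have hJ : Ideal.span {β} ≠ ⊥ := by rwa [Ne, Ideal.span_singleton_eq_bot]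
  have hΛ0 : Λ ≠ ⊥ := Ideal.ne_bot_of_liesOver_of_ne_bot hz0 Λ
  have hPprime : Prime (Ideal.span {z - 1}) := Ideal.prime_of_isPrime hz0 hzp
  have hQprime : Prime Λ := Ideal.prime_of_isPrime hΛ0 hΛ
  have h3 := Ideal.IsDedekindDomain.emultiplicity_map_eq_ramificationIdx'_mul (S := 𝓞 L) hJ
      hPprime.irreducible hQprime.irreducible hΛ0
  rw [Ideal.ramificationIdx'_eq_ramificationIdx (Ideal.span {z - 1}) Λ hz0, he, Ideal.map_span,
    Set.image_singleton, Nat.cast_one, one_mul] at h3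
  have h4 : ((3 : ℕ) : ℕ∞) ≤ emultiplicity Λ (Ideal.span {algebraMap (𝓞 K) (𝓞 L) β}) := by
    apply le_emultiplicity_of_pow_dvd
    rw [Ideal.dvd_span_singleton]
    exact h2
  rw [h3] at h4
  have h5 := pow_dvd_of_le_emultiplicity h4
  rw [Ideal.dvd_span_singleton, Ideal.span_singleton_pow] at h5
  exact h5

/-- The number-theoretic core for `p ≥ 5`, integral version. -/
theorem core5_int (hC : AnalyticInput) (hp5 : 5 ≤ p) (z : 𝓞 K) (hz : IsPrimitiveRoot z p)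
    (y : 𝓞 L) (α : 𝓞 K) (hα0 : α ≠ 0) (hy : y ^ p = algebraMap (𝓞 K) (𝓞 L) α)
    (hyK : (y : L) ∉ (algebraMap K L).range)
    (Λ : Ideal (𝓞 L)) [hΛ : Λ.IsPrime] (hpΛ : (p : 𝓞 L) ∈ Λ)
    (hdec : ∀ σ : L ≃ₐ[K] L, σ • Λ = Λ → σ = 1)
    (hin : ∀ Q : Ideal (𝓞 L), Q.IsPrime → Q ≠ ⊥ → (p : 𝓞 L) ∉ Q →
      ∀ σ : L ≃ₐ[K] L, (∀ x : 𝓞 L, σ • x - x ∈ Q) → σ = 1)
    (heig : ∀ σ : K ≃ₐ[ℚ] K, ∃ β : K,
      ((σ • α : 𝓞 K) : K) = (α : K) ^ ((om p K σ ^ 2).val) * β ^ p) : False := by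
  obtain ⟨hΛo, he, hN, I, hI0, hαI⟩ := ideal_pow_of_local p z hz y α hα0 hy Λ hpΛ hdec hin
  have hIprin : I.IsPrincipal := by
    apply isPrincipal_of_eigen p K hC hp5 z hz I hI0
    · rw [← hαI]; exact ⟨⟨α, rfl⟩⟩
    · intro σ
      obtain ⟨β, hβ⟩ := heig σ
      exact eigen_ideal p σ _ α hα0 I hαI β hβ
  obtain ⟨x, rfl⟩ := hIprin.principal
  have hx0 : x ≠ 0 := by
    rintro rfl
    apply hI0
    simp
  change Ideal.span {α} = (Ideal.span {x}) ^ p at hαI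
  rw [Ideal.span_singleton_pow, Ideal.span_singleton_eq_span_singleton] at hαI
  obtain ⟨u, hu⟩ := hαI.symm
  -- α = x^p * u
  have hxK : (x : K) ≠ 0 := by
    rwa [Ne, map_eq_zero_iff _ RingOfIntegers.coe_injective]
  have hueig : ∀ σ : K ≃ₐ[ℚ] K, ∃ w : (𝓞 K)ˣ, σ • (u : 𝓞 K) =
      (u : 𝓞 K) ^ ((om p K σ ^ 2).val) * (w : 𝓞 K) ^ p := by
    intro σ
    obtain ⟨β, hβ⟩ := heig σ
    set c := (om p K σ ^ 2).val with hc
    have hσx : ((σ • x : 𝓞 K) : K) ≠ 0 := by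
      rw [Ne, map_eq_zero_iff _ RingOfIntegers.coe_injective]
      intro h
      apply hx0
      have := congrArg (fun t => σ⁻¹ • t) h
      simpa using this
    set γ : K := (x : K) ^ c * β / ((σ • x : 𝓞 K) : K) with hγ
    have huK : (((u : 𝓞 K)) : K) ≠ 0 := by
      rw [Ne, map_eq_zero_iff _ RingOfIntegers.coe_injective]
      exact u.ne_zero
    -- σ u = u^c γ^p
    have h1 : ((σ • (u : 𝓞 K) : 𝓞 K) : K) = ((u : 𝓞 K) : K) ^ c * γ ^ p := by
      rw [← hu, smul_mul', smul_pow'] at hβ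
      rw [ocoe_mul, ocoe_mul, ocoe_pow, ocoe_pow] at hβ
      rw [hγ, div_pow, mul_pow, mul_div_assoc', eq_div_iff (pow_ne_zero _ hσx)]
      rw [mul_comm, hβ]
      ring
    have h2 : γ ^ p = (((suu K σ u * (u ^ c)⁻¹ : (𝓞 K)ˣ) : 𝓞 K) : K) := by
      have h3 : ((u ^ c : (𝓞 K)ˣ) : 𝓞 K) * ((suu K σ u * (u ^ c)⁻¹ : (𝓞 K)ˣ) : 𝓞 K)
        = σ • (u : 𝓞 K) := by
        rw [← Units.val_mul, mul_comm, inv_mul_cancel_right, suu_val]
      have h4 := congrArg (fun t : 𝓞 K => (t : K)) h3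
      rw [ocoe_mul, h1, Units.val_pow_eq_pow_val, ocoe_pow] at h4
      exact (mul_left_cancel₀ (pow_ne_zero c huK) h4).symm
    have hγint : IsIntegral ℤ γ := by
      apply IsIntegral.of_pow hp.out.pos
      rw [h2]
      exact RingOfIntegers.isIntegral_coe _
    let γ' : 𝓞 K := ⟨γ, hγint⟩
    have h3 : γ' ^ p = ((suu K σ u * (u ^ c)⁻¹ : (𝓞 K)ˣ) : 𝓞 K) := RingOfIntegers.ext h2
    have hγu : IsUnit γ' := by
      rw [← isUnit_pow_iff hp.out.ne_zero, h3]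
      exact Units.isUnit _
    refine ⟨hγu.unit, ?_⟩
    apply RingOfIntegers.ext
    change ((σ • (u : 𝓞 K) : 𝓞 K) : K) = (((u : 𝓞 K) ^ c * (hγu.unit : 𝓞 K) ^ p : 𝓞 K) : K)
    rw [h1, ocoe_mul, ocoe_pow, ocoe_pow, IsUnit.unit_spec]
    rfl
  obtain ⟨a, w, haw⟩ := unit_part p K hp5 z hz u hueig
  -- α = η^a (w x)^p
  have hα : α = eta p K z ^ a * ((w : 𝓞 K) * x) ^ p := by
    rw [← hu, haw, mul_pow]; ring
  have hinj : Function.Injective (algebraMap (𝓞 K) (𝓞 L)) := FaithfulSMul.algebraMap_injective _ _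
  set δ : 𝓞 K := (w : 𝓞 K) * x with hδ
  have hδ0 : δ ≠ 0 := mul_ne_zero w.ne_zero hx0
  have hδL : algebraMap K L (δ : K) ≠ 0 := by
    rw [Ne, map_eq_zero_iff _ (algebraMap K L).injective, map_eq_zero_iff _ RingOfIntegers.coe_injective]
    exact hδ0
  have hyL : (y : L) ^ p = algebraMap K L ((eta p K z : 𝓞 K) : K) ^ a * (algebraMap K L (δ : K)) ^ p := by
    have h1 := congrArg (fun t : 𝓞 L => (t : L)) hy
    change ((y ^ p : 𝓞 L) : L) = algebraMap K L (α : K) at h1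
    rw [ocoe_pow] at h1
    rw [h1, hα, ocoe_mul, ocoe_pow, ocoe_pow, map_mul, map_pow, map_pow]
  have hzK : IsPrimitiveRoot (z : K) p := hz.map_of_injective RingOfIntegers.coe_injective
  have hZ : IsPrimitiveRoot (algebraMap K L (z : K)) p :=
    hzK.map_of_injective (algebraMap K L).injective
  have ha : ¬ p ∣ a := by
    rintro ⟨b, rfl⟩
    apply hyK
    set ε : L := algebraMap K L ((eta p K z : 𝓞 K) : K) ^ b * algebraMap K L (δ : K) with hε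
    have hηL : algebraMap K L ((eta p K z : 𝓞 K) : K) ≠ 0 := by
      rw [Ne, map_eq_zero_iff _ (algebraMap K L).injective,
        map_eq_zero_iff _ RingOfIntegers.coe_injective]
      exact (isUnit_eta p K (hp.out.odd_of_ne_two (by omega)) z hz).ne_zero
    have hε0 : ε ≠ 0 := mul_ne_zero (pow_ne_zero _ hηL) hδL
    have h1 : ((y : L) / ε) ^ p = 1 := by
      rw [div_pow, hyL, hε, mul_pow, ← pow_mul, mul_comm b p, div_self]
      exact mul_ne_zero (pow_ne_zero _ hηL) (pow_ne_zero _ hδL)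
    obtain ⟨i, -, hi⟩ := hZ.eq_pow_of_pow_eq_one h1
    have h2 : (y : L) = algebraMap K L (z : K) ^ i * ε := by
      rw [hi, div_mul_cancel₀ _ hε0]
    rw [h2, hε]
    exact ⟨(z : K) ^ i * (((eta p K z : 𝓞 K) : K) ^ b * (δ : K)), by
      simp only [map_mul, map_pow]⟩
  -- y' = y / δ
  have hy'p : ((y : L) / algebraMap K L (δ : K)) ^ p = algebraMap K L ((eta p K z : 𝓞 K) : K) ^ a := by
    rw [div_pow, hyL, mul_div_cancel_right₀ _ (pow_ne_zero _ hδL)]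
  have hint : IsIntegral ℤ ((y : L) / algebraMap K L (δ : K)) := by
    apply IsIntegral.of_pow hp.out.pos
    rw [hy'p]
    have : IsIntegral ℤ (((eta p K z : 𝓞 K) : K)) := RingOfIntegers.isIntegral_coe _
    exact this.algebraMap.pow a
  let y' : 𝓞 L := ⟨_, hint⟩
  have hy' : y' ^ p = algebraMap (𝓞 K) (𝓞 L) (eta p K z ^ a) := by
    apply RingOfIntegers.ext
    change ((y : L) / algebraMap K L (δ : K)) ^ p = algebraMap K L ((eta p K z ^ a : 𝓞 K) : K)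
    rw [hy'p, ocoe_pow, map_pow]
  exact final_local p hp5 z hz y' a ha hy' Λ he hN

/-- The number-theoretic core for `p ≥ 5`. -/
theorem core5 (hC : AnalyticInput) (hp5 : 5 ≤ p) (y : L) (α : K) (hy : y ^ p = algebraMap K L α)
    (hyK : y ∉ (algebraMap K L).range)
    (Λ : Ideal (𝓞 L)) [hΛ : Λ.IsPrime] (hpΛ : (p : 𝓞 L) ∈ Λ)
    (hdec : ∀ σ : L ≃ₐ[K] L, σ • Λ = Λ → σ = 1)
    (hin : ∀ Q : Ideal (𝓞 L), Q.IsPrime → Q ≠ ⊥ → (p : 𝓞 L) ∉ Q →
      ∀ σ : L ≃ₐ[K] L, (∀ x : 𝓞 L, σ • x - x ∈ Q) → σ = 1)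
    (heig : ∀ σ : K ≃ₐ[ℚ] K, ∃ β : K, σ α = α ^ ((om p K σ ^ 2).val) * β ^ p) : False := by
  have hzK := IsCyclotomicExtension.zeta_spec p ℚ K
  set z : 𝓞 K := hzK.toInteger with hzdef
  have hz : IsPrimitiveRoot z p := hzK.toInteger_isPrimitiveRoot
  obtain ⟨b, d, hd, hbd⟩ := IsFractionRing.div_surjective (A := 𝓞 K) α
  have hd0 : d ≠ 0 := nonZeroDivisors.ne_zero hd
  have hdK : (d : K) ≠ 0 := by
    rwa [Ne, map_eq_zero_iff _ RingOfIntegers.coe_injective]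
  have hy0 : y ≠ 0 := by
    rintro rfl
    exact hyK ⟨0, map_zero _⟩
  have hα0 : α ≠ 0 := by
    rintro rfl
    rw [map_zero] at hy
    exact hy0 (pow_eq_zero_iff hp.out.ne_zero |>.mp hy)
  set α' : 𝓞 K := b * d ^ (p - 1) with hα'
  have hα'K : (α' : K) = α * (d : K) ^ p := by
    rw [hα', ocoe_mul, ocoe_pow, ← hbd]
    have : (d : K) ^ p = (d : K) ^ (p - 1) * d := by
      rw [← pow_succ, Nat.sub_add_cancel hp.out.one_le]
    rw [this]
    field_simp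
  have hy'p : (y * algebraMap K L (d : K)) ^ p = algebraMap K L (α' : K) := by
    rw [mul_pow, hy, hα'K, map_mul, map_pow]
  have hint : IsIntegral ℤ (y * algebraMap K L (d : K)) := by
    apply IsIntegral.of_pow hp.out.pos
    rw [hy'p]
    exact (RingOfIntegers.isIntegral_coe α').algebraMap
  refine core5_int p hC hp5 z hz ⟨_, hint⟩ α' ?_ (RingOfIntegers.ext hy'p) ?_ Λ hpΛ hdec hin ?_
  · intro h
    rw [h, ocoe_zero] at hα'K
    exact (mul_ne_zero hα0 (pow_ne_zero _ hdK)) hα'K.symm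
  · rintro ⟨t, ht⟩
    apply hyK
    change algebraMap K L t = y * algebraMap K L (d : K) at ht
    refine ⟨t / (d : K), ?_⟩
    rw [map_div₀, ht, mul_div_cancel_right₀]
    rwa [Ne, map_eq_zero_iff _ (algebraMap K L).injective]
  · intro σ
    obtain ⟨β, hβ⟩ := heig σ
    set c := (om p K σ ^ 2).val with hc
    refine ⟨β * σ (d : K) / (d : K) ^ c, ?_⟩
    change σ (α' : K) = _
    rw [hα'K, map_mul, map_pow, hβ, div_pow, mul_pow, mul_pow, ← pow_mul, ← pow_mul, mul_comm p c]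
    field_simp

end Fermat.Agent.S14Lib
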