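import Mathlib
import Fermat.Agent.S14Lib.Core5

set_option autoImplicit false

open NumberField Polynomial
open scoped Pointwise nonZeroDivisors

namespace Fermat.Agent.S14Lib

theorem aux_zmod3 : ∀ x : ZMod 3, x ≠ 0 → (x ^ 2).val = 1 := by decide

variable {K : Type} [Field K] [NumberField K] {L : Type} [Field L] [NumberField L] [Algebra K L]

/-- if `y^p = γ^p` with `γ ∈ K ∋ ζ_p` then `y ∈ K`. -/
theorem mem_range_of_pow (p : ℕ) [hp : Fact p.Prime] (z : K) (hz : IsPrimitiveRoot z p) (y : L)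
    (γ : K) (hγ : γ ≠ 0) (h : y ^ p = algebraMap K L (γ ^ p)) : y ∈ (algebraMap K L).range := by
  have hZ : IsPrimitiveRoot (algebraMap K L z) p := hz.map_of_injective (algebraMap K L).injective
  have hγL : algebraMap K L γ ≠ 0 := by
    rwa [Ne, map_eq_zero_iff _ (algebraMap K L).injective]
  have h1 : (y / algebraMap K L γ) ^ p = 1 := by
    rw [div_pow, h, map_pow, div_self (pow_ne_zero _ hγL)]
  obtain ⟨i, -, hi⟩ := hZ.eq_pow_of_pow_eq_one h1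
  refine ⟨z ^ i * γ, ?_⟩
  rw [map_mul, map_pow, hi, div_mul_cancel₀ _ hγL]

theorem core3_int [hp : Fact (Nat.Prime 3)] [IsCyclotomicExtension {3} ℚ K] [IsGalois K L]
    (z : 𝓞 K) (hz : IsPrimitiveRoot z 3)
    (y : 𝓞 L) (α : 𝓞 K) (hα0 : α ≠ 0) (hy : y ^ 3 = algebraMap (𝓞 K) (𝓞 L) α)
    (hyK : (y : L) ∉ (algebraMap K L).range)
    (Λ : Ideal (𝓞 L)) [hΛ : Λ.IsPrime] (hpΛ : ((3 : ℕ) : 𝓞 L) ∈ Λ)
    (hdec : ∀ σ : L ≃ₐ[K] L, σ • Λ = Λ → σ = 1)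
    (hin : ∀ Q : Ideal (𝓞 L), Q.IsPrime → Q ≠ ⊥ → ((3 : ℕ) : 𝓞 L) ∉ Q →
      ∀ σ : L ≃ₐ[K] L, (∀ x : 𝓞 L, σ • x - x ∈ Q) → σ = 1)
    (heig : ∀ σ : K ≃ₐ[ℚ] K, ∃ β : K,
      ((σ • α : 𝓞 K) : K) = (α : K) ^ ((om 3 K σ ^ 2).val) * β ^ 3) : False := by
  obtain ⟨hΛo, he, hN, I, hI0, hαI⟩ := ideal_pow_of_local 3 z hz y α hα0 hy Λ hpΛ hdec hin
  have hc : ∀ σ : K ≃ₐ[ℚ] K, (om 3 K σ ^ 2).val = 1 := by
    intro σ
    exact aux_zmod3 _ (om_ne_zero 3 K σ)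
  have hgal : IsGalois ℚ K := IsCyclotomicExtension.isGalois {3} ℚ K
  have hαK : (α : K) ≠ 0 := by
    rwa [Ne, map_eq_zero_iff _ RingOfIntegers.coe_injective]
  choose β hβ using heig
  -- the norm
  have hnorm : ((Algebra.norm ℤ α : ℤ) : K) = ∏ σ : K ≃ₐ[ℚ] K, σ (α : K) := by
    have h1 := Algebra.norm_eq_prod_automorphisms ℚ (α : K)
    rw [← h1]
    have h2 := Algebra.coe_norm_int α
    rw [← h2]
    simp
  have hcard : Fintype.card (K ≃ₐ[ℚ] K) = 2 := by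
    rw [Fintype.card_congr (IsCyclotomicExtension.Rat.galEquivZMod 3 K).toEquiv,
      ZMod.card_units_eq_totient, Nat.totient_prime hp.out]
  have hprod : ∏ σ : K ≃ₐ[ℚ] K, σ (α : K) = (α : K) ^ 2 * (∏ σ : K ≃ₐ[ℚ] K, β σ) ^ 3 := by
    have h1 : ∀ σ : K ≃ₐ[ℚ] K, σ (α : K) = (α : K) * β σ ^ 3 := by
      intro σ
      have h2 := hβ σ
      rw [hc, pow_one] at h2
      exact h2
    rw [Finset.prod_congr rfl (fun σ _ => h1 σ), Finset.prod_mul_distrib, Finset.prod_const,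
      Finset.card_univ, hcard, Finset.prod_pow]
  -- norm is a cube
  have hcube : ∃ n : ℤ, Algebra.norm ℤ α = n ^ 3 := by
    have h1 : (Algebra.norm ℤ α).natAbs = (Ideal.absNorm I) ^ 3 := by
      rw [← Ideal.absNorm_span_singleton, hαI, map_pow]
    rcases Int.natAbs_eq (Algebra.norm ℤ α) with h | h
    · exact ⟨Ideal.absNorm I, by rw [h, h1]; push_cast; rfl⟩
    · exact ⟨-Ideal.absNorm I, by rw [h, h1]; push_cast; ring⟩
  obtain ⟨n, hn⟩ := hcube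
  rw [hn, hprod] at hnorm
  push_cast at hnorm
  have hn0 : (n : K) ≠ 0 := by
    intro h
    rw [Int.cast_eq_zero] at h
    rw [h] at hn
    have h1 : Algebra.norm ℤ α ≠ 0 := Algebra.norm_ne_zero_iff.mpr hα0
    apply h1
    rw [hn]; ring
  set B := ∏ σ : K ≃ₐ[ℚ] K, β σ with hB
  have hB0 : B ≠ 0 := by
    intro h
    rw [h] at hnorm
    have h2 : (n : K) ^ 3 = 0 := by rw [hnorm]; ring
    exact hn0 (pow_eq_zero_iff (by norm_num) |>.mp h2)
  apply hyK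
  have hzK : IsPrimitiveRoot (z : K) 3 := hz.map_of_injective RingOfIntegers.coe_injective
  refine mem_range_of_pow 3 (z : K) hzK (y : L) ((α : K) * B / n) ?_ ?_
  · exact div_ne_zero (mul_ne_zero hαK hB0) hn0
  · have h1 := congrArg (fun t : 𝓞 L => (t : L)) hy
    change ((y ^ 3 : 𝓞 L) : L) = algebraMap K L (α : K) at h1
    rw [ocoe_pow] at h1
    rw [h1]
    congr 1
    rw [div_pow, hnorm]
    field_simp

/-- The number-theoretic core for `p = 3`. -/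
theorem core3 [hp : Fact (Nat.Prime 3)] [IsCyclotomicExtension {3} ℚ K] [IsGalois K L]
    (y : L) (α : K) (hy : y ^ 3 = algebraMap K L α)
    (hyK : y ∉ (algebraMap K L).range)
    (Λ : Ideal (𝓞 L)) [hΛ : Λ.IsPrime] (hpΛ : ((3 : ℕ) : 𝓞 L) ∈ Λ)
    (hdec : ∀ σ : L ≃ₐ[K] L, σ • Λ = Λ → σ = 1)
    (hin : ∀ Q : Ideal (𝓞 L), Q.IsPrime → Q ≠ ⊥ → ((3 : ℕ) : 𝓞 L) ∉ Q →
      ∀ σ : L ≃ₐ[K] L, (∀ x : 𝓞 L, σ • x - x ∈ Q) → σ = 1)
    (heig : ∀ σ : K ≃ₐ[ℚ] K, ∃ β : K, σ α = α ^ ((om 3 K σ ^ 2).val) * β ^ 3) : False := by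
  have hzK := IsCyclotomicExtension.zeta_spec 3 ℚ K
  set z : 𝓞 K := hzK.toInteger with hzdef
  have hz : IsPrimitiveRoot z 3 := hzK.toInteger_isPrimitiveRoot
  obtain ⟨b, d, hd, hbd⟩ := IsFractionRing.div_surjective (A := 𝓞 K) α
  have hd0 : d ≠ 0 := nonZeroDivisors.ne_zero hd
  have hdK : (d : K) ≠ 0 := by
    rwa [Ne, map_eq_zero_iff _ RingOfIntegers.coe_injective]
  have hy0 : y ≠ 0 := by
    rintro rfl
    exact hyK ⟨0, map_zero _⟩
  have hα0 : α ≠ 0 := by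
    rintro rfl
    rw [map_zero] at hy
    exact hy0 (pow_eq_zero_iff hp.out.ne_zero |>.mp hy)
  set α' : 𝓞 K := b * d ^ (3 - 1) with hα'
  have hα'K : (α' : K) = α * (d : K) ^ 3 := by
    rw [hα', ocoe_mul, ocoe_pow, ← hbd]
    have : (d : K) ^ 3 = (d : K) ^ (3 - 1) * d := by
      rw [← pow_succ]
    rw [this]
    field_simp
  have hy'p : (y * algebraMap K L (d : K)) ^ 3 = algebraMap K L (α' : K) := by
    rw [mul_pow, hy, hα'K, map_mul, map_pow]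
  have hint : IsIntegral ℤ (y * algebraMap K L (d : K)) := by
    apply IsIntegral.of_pow hp.out.pos
    rw [hy'p]
    exact (RingOfIntegers.isIntegral_coe α').algebraMap
  refine core3_int z hz ⟨_, hint⟩ α' ?_ (RingOfIntegers.ext hy'p) ?_ Λ hpΛ hdec hin ?_
  · intro h
    rw [h, ocoe_zero] at hα'K
    exact (mul_ne_zero hα0 (pow_ne_zero _ hdK)) hα'K.symm
  · rintro ⟨t, ht⟩
    apply hyK
    change algebraMap K L t = y * algebraMap K L (d : K) at ht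
    refine ⟨t / (d : K), ?_⟩
    rw [map_div₀, ht, mul_div_cancel_right₀]
    rwa [Ne, map_eq_zero_iff _ (algebraMap K L).injective]
  · intro σ
    obtain ⟨β, hβ⟩ := heig σ
    set c := (om 3 K σ ^ 2).val with hc
    refine ⟨β * σ (d : K) / (d : K) ^ c, ?_⟩
    change σ (α' : K) = _
    rw [hα'K, map_mul, map_pow, hβ, div_pow, mul_pow, mul_pow, ← pow_mul, ← pow_mul, mul_comm 3 c]
    field_simp

end Fermat.Agent.S14Lib
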