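import Mathlib
import Fermat.Prelude.Def_ExtCitation_AdmissibleExtension_v2
import Fermat.Prelude.Def_ExtCitation_KummerBridge
import Fermat.Agent.S14Lib.Bridge1
import Fermat.Agent.S14Lib.Core3

set_option autoImplicit false
set_option linter.style.haveILetI false

open Fermat.Agent.H05 Fermat.Agent.H09 ExtCitation
open scoped NumberField Pointwise

namespace Fermat.Agent.S14Lib

local notation "Ω" => AlgebraicClosure ℚ
local notation "GQ" => (AlgebraicClosure ℚ ≃ₐ[ℚ] AlgebraicClosure ℚ)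

section cocycle
variable (p : ℕ) [hp : Fact p.Prime]

/-- the mod `p` cyclotomic character with values in `ZMod p` -/
noncomputable def chi (σ : GQ) : ZMod p := (cycloChar p σ : ZMod p)

theorem chi_mul (σ τ : GQ) : chi p (σ * τ) = chi p σ * chi p τ := by
  simp [chi, map_mul]

theorem chi_one : chi p (1 : GQ) = 1 := by simp [chi]

theorem chi_ne_zero (σ : GQ) : chi p σ ≠ 0 := Units.ne_zero _

theorem chi_inv (σ : GQ) : chi p σ⁻¹ = (chi p σ)⁻¹ := by
  have h := chi_mul p σ σ⁻¹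
  rw [mul_inv_cancel, chi_one] at h
  exact eq_inv_of_mul_eq_one_right h.symm

theorem chi_spec (σ : GQ) {ζ : Ω} (hζ : ζ ^ p = 1) : σ ζ = ζ ^ (chi p σ).val := by
  haveI : NeZero p := ⟨hp.out.ne_zero⟩
  have hu : IsUnit ζ := IsUnit.of_pow_eq_one hζ hp.out.ne_zero
  obtain ⟨t, rfl⟩ := hu
  have ht : t ∈ rootsOfUnity p Ω := by
    rw [mem_rootsOfUnity]
    ext
    rw [Units.val_pow_eq_pow_val, hζ, Units.val_one]
  have := modularCyclotomicCharacter.spec Ω (card_rootsOfUnity_eq_self p) (σ : Ω ≃+* Ω) ht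
  exact this

theorem pow_eq_of_zmod {M : Type*} [Monoid M] {ζ : M} (hζ : ζ ^ p = 1) {m n : ℕ}
    (h : (m : ZMod p) = n) : ζ ^ m = ζ ^ n := by
  rw [ZMod.natCast_eq_natCast_iff] at h
  exact pow_eq_pow_of_modEq h hζ

theorem chi_eq_one_iff (σ : GQ) {ζ : Ω} (hζ : IsPrimitiveRoot ζ p) :
    chi p σ = 1 ↔ σ ζ = ζ := by
  rw [chi_spec p σ hζ.pow_eq_one]
  constructor
  · intro h
    have h1 : ζ ^ (chi p σ).val = ζ ^ 1 := by
      apply pow_eq_of_zmod p hζ.pow_eq_one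
      rw [ZMod.natCast_zmod_val, h, Nat.cast_one]
    rw [h1, pow_one]
  · intro h
    have h1 : ζ ^ (chi p σ).val = ζ ^ 1 := by rw [h, pow_one]
    have h2 := hζ.pow_inj (ZMod.val_lt _) hp.out.one_lt h1
    have h3 : ((chi p σ).val : ZMod p) = ((1 : ℕ) : ZMod p) := by rw [h2]
    rwa [ZMod.natCast_zmod_val, Nat.cast_one] at h3

theorem chi_conj (g τ : GQ) : chi p (τ⁻¹ * g * τ) = chi p g := by
  rw [chi_mul, chi_mul, chi_inv]
  have := chi_ne_zero p τ
  field_simp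

variable {b : GQ → ZMod p} (hb : ∀ σ τ, b (σ * τ) = chi p τ * b σ + b τ)

include hb

theorem b_one : b 1 = 0 := by
  have h := hb 1 1
  rw [mul_one, chi_one, one_mul] at h
  exact left_eq_add.mp h

theorem b_conj (g τ : GQ) (hg : chi p g = 1) : b (τ⁻¹ * g * τ) = chi p τ * b g := by
  have h1 := hb τ⁻¹ τ
  rw [inv_mul_cancel, b_one p hb] at h1
  have h2 := hb (τ⁻¹ * g) τ
  have h3 := hb τ⁻¹ g
  rw [h2, h3, hg, one_mul, mul_add]
  linear_combination -h1

theorem b_eq_of (g h : GQ) (hgh : chi p (h⁻¹ * g) = 1) (hgh' : b (h⁻¹ * g) = 0) : b g = b h := by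
  have h1 := hb h (h⁻¹ * g)
  rwa [mul_inv_cancel_left, hgh, hgh', one_mul, add_zero] at h1

theorem b_pow_sum (g h : GQ) (hh : chi p h = 1) : b (g * h) = b g + b h := by
  rw [hb, hh, one_mul]

end cocycle

section kummer
variable (p : ℕ) [hp : Fact p.Prime]

/-- Lift an automorphism of an intermediate field, normal over `ℚ`. -/
theorem exists_lift (F : IntermediateField ℚ Ω) [NumberField F] [IsGalois ℚ F] (τ : F ≃ₐ[ℚ] F) :
    ∃ σ : GQ, ∀ x : F, σ (x : Ω) = ((τ x : F) : Ω) :=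
  ⟨τ.liftNormal Ω, fun x => AlgEquiv.liftNormal_commutes τ Ω x⟩

theorem exists_restrict (F : IntermediateField ℚ Ω) [NumberField F] [IsGalois ℚ F] (σ : GQ) :
    ∃ τ : F ≃ₐ[ℚ] F, ∀ x : F, ((τ x : F) : Ω) = σ (x : Ω) :=
  ⟨AlgEquiv.restrictNormal σ F, fun x => AlgEquiv.restrictNormal_commutes σ F x⟩

/-- Hilbert 90 for a character with values in `μ_p ⊂ K`. -/
theorem hilbert90_char (K L : Type*) [Field K] [Field L] [Algebra K L] [FiniteDimensional K L]
    (ζ : K) (hζ : ζ ^ p = 1) (β : (L ≃ₐ[K] L) → ZMod p)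
    (hβ : ∀ g h, β (g * h) = β g + β h) :
    ∃ y : L, y ≠ 0 ∧ ∀ g : L ≃ₐ[K] L, g y = algebraMap K L ζ ^ (β g).val * y := by
  have hζL : (algebraMap K L ζ) ^ p = 1 := by rw [← map_pow, hζ, map_one]
  have hu : IsUnit (algebraMap K L ζ) := IsUnit.of_pow_eq_one hζL hp.out.ne_zero
  let f : (L ≃ₐ[K] L) → Lˣ := fun γ => hu.unit ^ (β γ).val
  have hf : groupCohomology.IsMulCocycle₁ f := by
    intro γ δ
    ext1
    have e1 : ((γ • f δ : Lˣ) : L) = γ ((f δ : Lˣ) : L) := rfl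
    rw [Units.val_mul, e1]
    simp only [f, Units.val_pow_eq_pow_val, IsUnit.unit_spec, map_pow, AlgEquiv.commutes]
    rw [← pow_add]
    apply pow_eq_of_zmod p hζL
    push_cast
    rw [ZMod.natCast_zmod_val, ZMod.natCast_zmod_val, ZMod.natCast_zmod_val, hβ, add_comm]
  obtain ⟨y, hy⟩ := groupCohomology.isMulCoboundary₁_of_isMulCocycle₁_of_aut_to_units f hf
  refine ⟨y, y.ne_zero, fun g => ?_⟩
  have h3 : g • y = f g * y := by rw [← hy g, div_mul_cancel]
  have h4 := congrArg (fun t : Lˣ => (t : L)) h3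
  simp only [f, Units.val_mul, Units.val_pow_eq_pow_val, IsUnit.unit_spec] at h4
  exact h4

/-- Kummer generator of the extension cut out by `b`. -/
theorem exists_kummer {b : GQ → ZMod p} (hb : ∀ σ τ, b (σ * τ) = chi p τ * b σ + b τ)
    (F K : IntermediateField ℚ Ω) [NumberField F] [IsGalois ℚ F] (hKF : K ≤ F)
    (ζ : Ω) (hζ : IsPrimitiveRoot ζ p) (hζK : ζ ∈ K)
    (hK : ∀ g : GQ, chi p g = 1 → ∀ x ∈ K, g x = x)
    (hF : ∀ g : GQ, (∀ x ∈ F, g x = x) → chi p g = 1 ∧ b g = 0) :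
    ∃ y : Ω, y ∈ F ∧ y ≠ 0 ∧ ∀ g : GQ, chi p g = 1 → g y = ζ ^ (b g).val * y := by
  classical
  letI : Algebra K F := (IntermediateField.inclusion hKF).toRingHom.toAlgebra
  haveI : IsScalarTower ℚ K F := IsScalarTower.of_algebraMap_eq' (Subsingleton.elim _ _)
  haveI : FiniteDimensional K F := FiniteDimensional.right ℚ K F
  have hlift : ∀ γ : F ≃ₐ[K] F, ∃ σ : GQ, ∀ x : F, σ (x : Ω) = ((γ x : F) : Ω) := fun γ =>
    exists_lift F (γ.restrictScalars ℚ)
  choose l hl using hlift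
  have hlchi : ∀ γ, chi p (l γ) = 1 := by
    intro γ
    rw [chi_eq_one_iff p _ hζ]
    have h1 := hl γ (algebraMap K F ⟨ζ, hζK⟩)
    rw [γ.commutes] at h1
    exact h1
  -- agreement
  have hagree : ∀ g h : GQ, (∀ x ∈ F, g x = h x) → b g = b h := by
    intro g h hgh
    have h1 : ∀ x ∈ F, (h⁻¹ * g) x = x := by
      intro x hx
      change h⁻¹ (g x) = x
      rw [hgh x hx]
      change (h⁻¹ * h) x = x
      rw [inv_mul_cancel]; rfl
    obtain ⟨h2, h3⟩ := hF _ h1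
    exact b_eq_of p hb g h h2 h3
  have hbl : ∀ γ δ : F ≃ₐ[K] F, b (l (γ * δ)) = b (l γ) + b (l δ) := by
    intro γ δ
    rw [← b_pow_sum p hb _ _ (hlchi δ)]
    apply hagree
    intro x hx
    have h1 := hl (γ * δ) ⟨x, hx⟩
    have h2 := hl δ ⟨x, hx⟩
    have h3 := hl γ (δ ⟨x, hx⟩)
    change l (γ * δ) x = l γ (l δ x)
    have h2' : l δ x = ((δ ⟨x, hx⟩ : F) : Ω) := h2
    rw [h2', h3]
    exact h1
  obtain ⟨y, hy0, hy⟩ := hilbert90_char p K F ⟨ζ, hζK⟩
    (Subtype.ext (by simpa using hζ.pow_eq_one)) (fun γ => b (l γ)) hbl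
  refine ⟨(y : Ω), y.2, ?_, ?_⟩
  · intro h
    exact hy0 (Subtype.ext h)
  · intro g hg
    obtain ⟨τ, hτ⟩ := exists_restrict F g
    have hτK : ∀ r : K, τ (algebraMap K F r) = algebraMap K F r := by
      intro r
      apply Subtype.ext
      rw [hτ]
      exact hK g hg r r.2
    let γ : F ≃ₐ[K] F := AlgEquiv.ofRingEquiv (f := τ.toRingEquiv) hτK
    have hγ : ∀ x : F, γ x = τ x := fun x => rfl
    have h2 := hy γ
    have h5 : b (l γ) = b g := by
      apply hagree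
      intro x hx
      have := hl γ ⟨x, hx⟩
      rw [hγ, hτ] at this
      exact this
    rw [hγ, h5] at h2
    have h6 := congrArg (fun t : F => (t : Ω)) h2
    rw [hτ] at h6
    rw [h6]
    rfl

end kummer

end Fermat.Agent.S14Lib
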