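import Mathlib
import Fermat.Agent.S14Lib.Core3

set_option autoImplicit false

open NumberField Polynomial
open scoped Pointwise nonZeroDivisors

namespace Fermat.Agent.S14Lib

/-- The number-theoretic core: there is no Kummer extension of `ℚ(ζ_p)` in the `ω²`-part which is
unramified outside `p` and locally trivial at `p`. -/
theorem core_all (hC : AnalyticInput) (p : ℕ) [hp : Fact p.Prime] (h3 : 3 ≤ p)
    (K L : Type) [Field K] [NumberField K] [IsCyclotomicExtension {p} ℚ K]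
    [Field L] [NumberField L] [Algebra K L] [IsGalois K L]
    (y : L) (α : K) (hy : y ^ p = algebraMap K L α)
    (hyK : y ∉ (algebraMap K L).range)
    (Λ : Ideal (𝓞 L)) (hΛ : Λ.IsPrime) (hpΛ : (p : 𝓞 L) ∈ Λ)
    (hdec : ∀ σ : L ≃ₐ[K] L,
      (∀ x y : 𝓞 L, (y : L) = σ (x : L) → (x ∈ Λ ↔ y ∈ Λ)) → σ = 1)
    (hin : ∀ Q : Ideal (𝓞 L), Q.IsPrime → Q ≠ ⊥ → (p : 𝓞 L) ∉ Q →
      ∀ σ : L ≃ₐ[K] L, (∀ x y : 𝓞 L, (y : L) = σ (x : L) → y - x ∈ Q) → σ = 1)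
    (heig : ∀ σ : K ≃ₐ[ℚ] K, ∃ β : K, σ α = α ^ ((om p K σ ^ 2).val) * β ^ p) : False := by
  have hdec' : ∀ σ : L ≃ₐ[K] L, σ • Λ = Λ → σ = 1 := by
    intro σ hσ
    apply hdec σ
    intro x y hxy
    have h1 : y = σ • x := RingOfIntegers.ext hxy
    rw [h1]
    conv_rhs => rw [← hσ]
    exact (Ideal.smul_mem_pointwise_smul_iff).symm
  have hin' : ∀ Q : Ideal (𝓞 L), Q.IsPrime → Q ≠ ⊥ → (p : 𝓞 L) ∉ Q →
      ∀ σ : L ≃ₐ[K] L, (∀ x : 𝓞 L, σ • x - x ∈ Q) → σ = 1 := by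
    intro Q hQ hQ0 hpQ σ hσ
    apply hin Q hQ hQ0 hpQ σ
    intro x y hxy
    have h1 : y = σ • x := RingOfIntegers.ext hxy
    rw [h1]
    exact hσ x
  rcases eq_or_ne p 3 with h | h
  · subst h
    exact core3 y α hy hyK Λ hpΛ hdec' hin' heig
  · have h4 : p ≠ 4 := by
      rintro rfl
      exact absurd hp.out (by decide)
    exact core5 p hC (by omega) y α hy hyK Λ hpΛ hdec' hin' heig

end Fermat.Agent.S14Lib
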