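import Mathlib
import Fermat.Agent.S14Lib.Bridge2
import Fermat.Agent.S14Lib.CoreAll

set_option autoImplicit false
set_option linter.style.haveILetI false

open Fermat.Agent.H05 Fermat.Agent.H09 ExtCitation
open scoped NumberField Pointwise

namespace Fermat.Agent.S14Lib

local notation "Ω" => AlgebraicClosure ℚ
local notation "GQ" => (AlgebraicClosure ℚ ≃ₐ[ℚ] AlgebraicClosure ℚ)

section fixed

/-- Galois facts about the fixed field of an open normal subgroup. -/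
theorem fixedField_facts (N : Subgroup GQ) [N.Normal] (hN : IsOpen (N : Set GQ)) :
    NumberField (IntermediateField.fixedField N) ∧ IsGalois ℚ (IntermediateField.fixedField N) ∧
    ∀ g : GQ, g ∈ N ↔ ∀ x ∈ IntermediateField.fixedField N, g x = x := by
  have hcl : IsClosed (N : Set GQ) := N.isClosed_of_isOpen hN
  let Hc : ClosedSubgroup GQ := ⟨N, hcl⟩
  set F : IntermediateField ℚ Ω := IntermediateField.fixedField N with hF
  have hfix : F.fixingSubgroup = N := InfiniteGalois.fixingSubgroup_fixedField Hc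
  have hfin : FiniteDimensional ℚ F := by
    rw [← InfiniteGalois.isOpen_iff_finite, hfix]
    exact hN
  have hgal0 : @IsGalois ℚ _ F _ (IntermediateField.algebra' F) := by
    rw [← InfiniteGalois.normal_iff_isGalois, hfix]
    infer_instance
  have hgal : IsGalois ℚ F := by
    convert hgal0
    exact Subsingleton.elim _ _
  have hnf : NumberField F := { to_charZero := inferInstance, to_finiteDimensional := hfin }
  refine ⟨hnf, hgal, fun g => ?_⟩
  rw [← hfix, IntermediateField.mem_fixingSubgroup_iff]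

end fixed

section main
variable (p : ℕ) [hp : Fact p.Prime]

/-- Properties of `ℚ(ζ_p) ⊂ ℚ̄`. -/
theorem adjoin_facts {ζ : Ω} (hζ : IsPrimitiveRoot ζ p) :
    NumberField (IntermediateField.adjoin ℚ {ζ}) ∧
    IsCyclotomicExtension {p} ℚ (IntermediateField.adjoin ℚ {ζ}) ∧
    (∀ g : GQ, g ζ = ζ → ∀ x ∈ IntermediateField.adjoin ℚ {ζ}, g x = x) ∧
    (∀ x : Ω, (∀ g : GQ, g ζ = ζ → g x = x) → x ∈ IntermediateField.adjoin ℚ {ζ}) := by
  have hne : NeZero p := ⟨hp.out.ne_zero⟩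
  have h1 : IsCyclotomicExtension {p} ℚ (IntermediateField.adjoin ℚ {ζ}) :=
    hζ.intermediateField_adjoin_isCyclotomicExtension ℚ
  have h2 : NumberField (IntermediateField.adjoin ℚ {ζ}) :=
    IsCyclotomicExtension.numberField {p} ℚ _
  have h3 : ∀ g : GQ, g ζ = ζ → ∀ x ∈ IntermediateField.adjoin ℚ {ζ}, g x = x := by
    intro g hg x hx
    induction hx using IntermediateField.adjoin_induction with
    | mem x hx => rw [Set.mem_singleton_iff] at hx; rw [hx]; exact hg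
    | algebraMap x => exact g.commutes x
    | add x y _ _ hx hy => rw [map_add, hx, hy]
    | inv x _ hx => rw [map_inv₀, hx]
    | mul x y _ _ hx hy => rw [map_mul, hx, hy]
  refine ⟨h2, h1, h3, ?_⟩
  intro x hx
  rw [← InfiniteGalois.fixedField_fixingSubgroup (IntermediateField.adjoin ℚ {ζ}),
    IntermediateField.mem_fixedField_iff]
  intro g hg
  apply hx
  rw [IntermediateField.mem_fixingSubgroup_iff] at hg
  exact hg ζ (IntermediateField.mem_adjoin_simple_self ℚ ζ)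

theorem kummer_eigen {b : GQ → ZMod p} (hb : ∀ σ τ, b (σ * τ) = chi p τ * b σ + b τ)
    {ζ : Ω} (hζ : IsPrimitiveRoot ζ p) {y : Ω} (hy0 : y ≠ 0)
    (hy : ∀ g : GQ, chi p g = 1 → g y = ζ ^ (b g).val * y) (τ : GQ) (c : ℕ)
    (hc : (c : ZMod p) = chi p τ ^ 2) (g : GQ) (hg : g ζ = ζ) :
    g (τ y / y ^ c) = τ y / y ^ c := by
  have hχ : chi p g = 1 := (chi_eq_one_iff p g hζ).mpr hg
  have hζ0 : ζ ≠ 0 := hζ.ne_zero hp.out.ne_zero
  have h1 : g (τ y) = τ ((τ⁻¹ * g * τ) y) := by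
    change (g * τ) y = (τ * (τ⁻¹ * g * τ)) y
    congr 1
    group
  have h2 := hy (τ⁻¹ * g * τ) (by rw [chi_conj, hχ])
  rw [b_conj p hb g τ hχ] at h2
  rw [map_div₀, h1, h2, map_mul, map_pow, chi_spec p τ hζ.pow_eq_one, map_pow, hy g hχ, ← pow_mul,
    mul_pow, ← pow_mul]
  have h3 : ζ ^ ((chi p τ).val * (chi p τ * b g).val) = ζ ^ ((b g).val * c) := by
    apply pow_eq_of_zmod p hζ.pow_eq_one
    push_cast
    rw [ZMod.natCast_zmod_val, ZMod.natCast_zmod_val, ZMod.natCast_zmod_val, hc]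
    ring
  rw [h3, mul_div_mul_left _ _ (pow_ne_zero _ hζ0)]

theorem kummer_pow {b : GQ → ZMod p}
    {ζ : Ω} (hζ : IsPrimitiveRoot ζ p) {y : Ω}
    (hy : ∀ g : GQ, chi p g = 1 → g y = ζ ^ (b g).val * y) (g : GQ) (hg : g ζ = ζ) :
    g (y ^ p) = y ^ p := by
  have hχ : chi p g = 1 := (chi_eq_one_iff p g hζ).mpr hg
  rw [map_pow, hy g hχ, mul_pow, ← pow_mul, mul_comm, mul_comm _ p, pow_mul ζ, hζ.pow_eq_one,
    one_pow, mul_one]

/-- A cocycle class which is unramified outside `p` and locally trivial at `p` is trivial on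
`Gal(ℚ̄/ℚ(ζ_p))`. -/
theorem no_cocycle (hC : AnalyticInput) (h3 : 3 ≤ p) {b : GQ → ZMod p}
    (hb : ∀ σ τ, b (σ * τ) = chi p τ * b σ + b τ)
    (N : Subgroup GQ) (hN : ∀ σ, σ ∈ N ↔ chi p σ = 1 ∧ b σ = 0) (hopen : IsOpen (N : Set GQ))
    (hinert : ∀ ℓ : ℕ, ℓ.Prime → ℓ ≠ p → ∀ A : ValuationSubring Ω, A.LiesOverPrime ℓ →
      ∀ σ ∈ A.inertiaSubgroupIn ℚ, σ ∈ N)
    (hdec : ∀ A : ValuationSubring Ω, A.LiesOverPrime p →
      ∀ σ ∈ A.decompositionSubgroup ℚ, chi p σ = 1 → σ ∈ N)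
    (σ₀ : GQ) (hσ₀ : chi p σ₀ = 1) : b σ₀ = 0 := by
  classical
  by_contra hb0
  have hne : NeZero p := ⟨hp.out.ne_zero⟩
  have hNn : N.Normal := by
    constructor
    intro n hn g
    rw [hN] at hn ⊢
    have h1 : g * n * g⁻¹ = (g⁻¹)⁻¹ * n * g⁻¹ := by rw [inv_inv]
    rw [h1]
    refine ⟨?_, ?_⟩
    · rw [chi_conj, hn.1]
    · rw [b_conj p hb _ _ hn.1, hn.2, mul_zero]
  obtain ⟨hFnf, hFgal, hFN⟩ := fixedField_facts N hopen
  set F : IntermediateField ℚ Ω := IntermediateField.fixedField N with hFdef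
  obtain ⟨ζ, hζ⟩ := HasEnoughRootsOfUnity.exists_primitiveRoot Ω p
  obtain ⟨hKnf, hKcyc, hKfix, hKmem⟩ := adjoin_facts p hζ
  set K : IntermediateField ℚ Ω := IntermediateField.adjoin ℚ {ζ} with hKdef
  have hζK : ζ ∈ K := IntermediateField.mem_adjoin_simple_self ℚ ζ
  have hKF : K ≤ F := by
    rw [hKdef, IntermediateField.adjoin_simple_le_iff, hFdef, IntermediateField.mem_fixedField_iff]
    intro n hn
    exact (chi_eq_one_iff p n hζ).mp ((hN n).mp hn).1
  have hKfix' : ∀ g : GQ, chi p g = 1 → ∀ x ∈ K, g x = x := fun g hg =>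
    hKfix g ((chi_eq_one_iff p g hζ).mp hg)
  obtain ⟨y, hyF, hy0, hy⟩ := exists_kummer p hb F K hKF ζ hζ hζK hKfix'
    (fun g hg => (hN g).mp ((hFN g).mpr hg))
  have hyp : y ^ p ∈ K := hKmem _ (kummer_pow p hζ hy)
  letI : Algebra K F := (IntermediateField.inclusion hKF).toRingHom.toAlgebra
  haveI : IsScalarTower ℚ K F := IsScalarTower.of_algebraMap_eq' (Subsingleton.elim _ _)
  haveI : IsGalois K F := IsGalois.tower_top_of_isGalois ℚ K F
  have halg : ∀ x : K, ((algebraMap K F x : F) : Ω) = (x : Ω) := fun x => rfl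
  obtain ⟨A, hA⟩ := exists_liesOverPrime Ω hp.out
  -- lifting automorphisms of `F/K`
  have hlift : ∀ γ : F ≃ₐ[K] F, ∃ σ : GQ, chi p σ = 1 ∧ (∀ x : F, σ (x : Ω) = ((γ x : F) : Ω)) ∧
      (σ ∈ N → γ = 1) := by
    intro γ
    obtain ⟨σ, hσ⟩ := exists_lift F (γ.restrictScalars ℚ)
    refine ⟨σ, ?_, hσ, ?_⟩
    · rw [chi_eq_one_iff p _ hζ]
      have h1 := hσ (algebraMap K F ⟨ζ, hζK⟩)
      have h2 : (γ.restrictScalars ℚ) (algebraMap K F ⟨ζ, hζK⟩) = algebraMap K F ⟨ζ, hζK⟩ :=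
        γ.commutes _
      rw [h2] at h1
      exact h1
    · intro hσN
      apply AlgEquiv.ext
      intro x
      apply Subtype.ext
      have h1 := (hFN σ).mp hσN x x.2
      exact (hσ x).symm.trans h1
  refine core_all hC p h3 K F ⟨y, hyF⟩ ⟨y ^ p, hyp⟩ (Subtype.ext rfl) ?_
    ((center A).comap (iotaO F)) inferInstance ?_ ?_ ?_ ?_
  · -- y ∉ K
    rintro ⟨t, ht⟩
    have h1 : (t : Ω) = y := congrArg (fun x : F => (x : Ω)) ht
    have h2 := hKfix' σ₀ hσ₀ t t.2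
    rw [h1, hy σ₀ hσ₀] at h2
    have h4 : ζ ^ (b σ₀).val = 1 := by
      have h5 : ζ ^ (b σ₀).val * y = 1 * y := by rw [h2, one_mul]
      exact mul_right_cancel₀ hy0 h5
    have h5 : p ∣ (b σ₀).val := hζ.dvd_of_pow_eq_one _ h4
    apply hb0
    rw [← ZMod.natCast_zmod_val (b σ₀)]
    exact (ZMod.natCast_eq_zero_iff _ _).mpr h5
  · -- p ∈ Λ
    rw [Ideal.mem_comap, map_natCast]
    exact natCast_mem_center hA
  · -- decomposition
    intro γ hγ
    obtain ⟨σ, hσχ, hσ, hσN⟩ := hlift γ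
    obtain ⟨h, hhN, hh⟩ := lift_decomp N hopen hp.out hA σ (by
      intro x y hxy
      exact hγ x y (Subtype.ext (hxy.trans (hσ _))))
    apply hσN
    have h1 : chi p (h * σ) = 1 := by
      rw [chi_mul, ((hN h).mp hhN).1, hσχ, one_mul]
    have h2 := hdec A hA _ hh h1
    have h3 := mul_mem (inv_mem hhN) h2
    rwa [inv_mul_cancel_left] at h3
  · -- inertia
    intro Q hQ hQ0 hpQ γ hγ
    obtain ⟨σ, hσχ, hσ, hσN⟩ := hlift γ
    haveI : NeZero Q := ⟨hQ0⟩
    have hℓ := Nat.absNorm_under_prime Q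
    set ℓ : ℕ := Ideal.absNorm (Ideal.under ℤ Q) with hℓdef
    have hℓQ : (ℓ : 𝓞 F) ∈ Q := by
      have h1 : ((ℓ : ℕ) : ℤ) ∈ Ideal.under ℤ Q := Ideal.absNorm_mem _
      have h2 : algebraMap ℤ (𝓞 F) ((ℓ : ℕ) : ℤ) ∈ Q := h1
      simpa using h2
    have hℓp : ℓ ≠ p := by
      intro h
      rw [h] at hℓQ
      exact hpQ hℓQ
    obtain ⟨A', hA', hA'Q⟩ := exists_place F Q hℓ hℓQ
    obtain ⟨h, hhN, hh⟩ := lift_inertia N hopen hℓ hA' σ (by
      intro x y hxy
      have h1 := hγ x y (Subtype.ext (hxy.trans (hσ _)))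
      rw [← hA'Q, Ideal.mem_comap] at h1
      exact h1)
    apply hσN
    have h2 := hinert ℓ hℓ hℓp A' hA' _ hh
    have h3 := mul_mem (inv_mem hhN) h2
    rwa [inv_mul_cancel_left] at h3
  · -- eigenproperty
    intro σ
    haveI : IsGalois ℚ K := IsCyclotomicExtension.isGalois {p} ℚ K
    obtain ⟨τ, hτ⟩ := exists_lift K σ
    have hom : om p K σ = chi p τ := by
      let z : 𝓞 K := (IsPrimitiveRoot.toInteger (ζ := (⟨ζ, hζK⟩ : K)) (k := p)
        (IsPrimitiveRoot.coe_submonoidClass_iff.mp hζ))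
      have hz : z ^ p = 1 := NumberField.RingOfIntegers.ext (Subtype.ext hζ.pow_eq_one)
      have h1 := smul_zeta p K σ hz
      have h2 := congrArg (fun t : 𝓞 K => (((t : K)) : Ω)) h1
      have h3 : τ ζ = ζ ^ (om p K σ).val := by
        rw [show ζ = (((⟨ζ, hζK⟩ : K)) : Ω) from rfl, hτ]
        exact h2
      rw [chi_spec p τ hζ.pow_eq_one] at h3
      have h4 := hζ.pow_inj (ZMod.val_lt _) (ZMod.val_lt _) h3
      exact (ZMod.val_injective p h4).symm
    have hc : (((om p K σ ^ 2).val : ℕ) : ZMod p) = chi p τ ^ 2 := by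
      rw [ZMod.natCast_zmod_val, hom]
    refine ⟨⟨τ y / y ^ (om p K σ ^ 2).val, hKmem _ (kummer_eigen p hb hζ hy0 hy τ _ hc)⟩, ?_⟩
    apply Subtype.ext
    rw [← hτ]
    change τ (y ^ p) = (y ^ p) ^ (om p K σ ^ 2).val * (τ y / y ^ (om p K σ ^ 2).val) ^ p
    rw [map_pow, div_pow, ← pow_mul, ← pow_mul, mul_comm p]
    have := pow_ne_zero ((om p K σ ^ 2).val * p) hy0
    field_simp

end main

end Fermat.Agent.S14Lib
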