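import Mathlib
import Fermat.Agent.S14Lib.Bridge3

set_option autoImplicit false
set_option linter.style.haveILetI false

open Fermat.Agent.H05 Fermat.Agent.H09 ExtCitation
open scoped NumberField Pointwise

namespace Fermat.Agent.S14Lib

local notation "Ω" => AlgebraicClosure ℚ
local notation "GQ" => (AlgebraicClosure ℚ ≃ₐ[ℚ] AlgebraicClosure ℚ)

variable (p : ℕ) [hp : Fact p.Prime]

/-- If `b` vanishes on the kernel of `χ` then it is a coboundary. -/
theorem coboundary {b : GQ → ZMod p} (hb : ∀ σ τ, b (σ * τ) = chi p τ * b σ + b τ)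
    (h0 : ∀ σ, chi p σ = 1 → b σ = 0) : ∃ μ : ZMod p, ∀ σ, b σ = μ * (chi p σ - 1) := by
  by_cases hex : ∃ τ, chi p τ ≠ 1
  · obtain ⟨τ, hτ⟩ := hex
    have hτ' : chi p τ - 1 ≠ 0 := sub_ne_zero.mpr hτ
    refine ⟨b τ / (chi p τ - 1), fun σ => ?_⟩
    have h1 : b (σ * τ) = b (τ * σ) := by
      have hχ : chi p ((τ * σ)⁻¹ * (σ * τ)) = 1 := by
        rw [chi_mul, chi_inv, chi_mul, chi_mul, mul_comm (chi p τ)]
        exact inv_mul_cancel₀ (mul_ne_zero (chi_ne_zero p σ) (chi_ne_zero p τ))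
      exact b_eq_of p hb _ _ hχ (h0 _ hχ)
    rw [hb, hb] at h1
    field_simp
    linear_combination h1
  · push Not at hex
    exact ⟨0, fun σ => by rw [h0 σ (hex σ), zero_mul]⟩

theorem final_reduction (hC : AnalyticInput) (h3 : 3 ≤ p) (V : Type) [AddCommGroup V]
    [Module (ZMod p) V] [DistribMulAction GQ V] [SMulCommClass GQ (ZMod p) V]
    (C : Submodule (ZMod p) V) (hadm : IsAdmissibleExtensionCts p V C) : SplitsGlobally C := by
  classical
  have hcardC : Nat.card C = p := hadm.card_sub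
  have hcardV : Nat.card V = p ^ 2 := hadm.card_total
  have hfinV : Finite V := Nat.finite_of_card_ne_zero (by
    rw [hcardV]; exact pow_ne_zero _ hp.out.ne_zero)
  have hrC : Module.finrank (ZMod p) C = 1 := by
    have h1 := Module.natCard_eq_pow_finrank (K := ZMod p) (V := C)
    rw [hcardC, Nat.card_zmod] at h1
    exact (Nat.pow_right_injective hp.out.two_le (by simpa using h1.symm))
  have hrV : Module.finrank (ZMod p) V = 2 := by
    have h1 := Module.natCard_eq_pow_finrank (K := ZMod p) (V := V)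
    rw [hcardV, Nat.card_zmod] at h1
    exact (Nat.pow_right_injective hp.out.two_le h1.symm)
  obtain ⟨c₁, hc₁, hc₁'⟩ := finrank_eq_one_iff'.mp hrC
  set c₀ : V := (c₁ : V) with hc₀
  have hc₀C : c₀ ∈ C := c₁.2
  have hc₀0 : c₀ ≠ 0 := fun h => hc₁ (Subtype.ext h)
  have hCgen : ∀ x ∈ C, ∃ t : ZMod p, t • c₀ = x := by
    intro x hx
    obtain ⟨t, ht⟩ := hc₁' ⟨x, hx⟩
    exact ⟨t, congrArg Subtype.val ht⟩
  have hinj : ∀ s t : ZMod p, s • c₀ = t • c₀ → s = t := fun s t h =>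
    smul_left_injective (ZMod p) hc₀0 h
  -- v₀
  obtain ⟨v₀, hv₀⟩ : ∃ v₀ : V, v₀ ∉ C := by
    by_contra hcon
    push Not at hcon
    have h1 : C = ⊤ := Submodule.eq_top_iff'.mpr hcon
    rw [h1, finrank_top, hrV] at hrC
    omega
  have hgen : ∀ x : V, ∃ s t : ZMod p, x = s • v₀ + t • c₀ := by
    have h1 : C < C ⊔ Submodule.span (ZMod p) {v₀} := by
      rw [left_lt_sup]
      intro h
      exact hv₀ (h (Submodule.mem_span_singleton_self v₀))
    have h2 := Submodule.finrank_lt_finrank_of_lt h1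
    have h3 : C ⊔ Submodule.span (ZMod p) {v₀} = ⊤ := by
      apply Submodule.eq_top_of_finrank_eq
      have h4 := Submodule.finrank_le (C ⊔ Submodule.span (ZMod p) {v₀})
      omega
    intro x
    have hx : x ∈ C ⊔ Submodule.span (ZMod p) {v₀} := by rw [h3]; trivial
    obtain ⟨u, hu, w, hw, rfl⟩ := Submodule.mem_sup.mp hx
    obtain ⟨s, rfl⟩ := Submodule.mem_span_singleton.mp hw
    obtain ⟨t, rfl⟩ := hCgen u hu
    exact ⟨s, t, add_comm _ _⟩
  have hv₀s : ∀ s : ZMod p, s • v₀ ∈ C → s = 0 := by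
    intro s hs
    by_contra hs0
    apply hv₀
    have := C.smul_mem s⁻¹ hs
    rwa [smul_smul, inv_mul_cancel₀ hs0, one_smul] at this
  -- the cocycle
  have hchi : ∀ σ : GQ, (cycloExp p σ : ZMod p) = chi p σ := fun σ => (coe_cycloChar p σ).symm
  have hbex : ∀ σ : GQ, ∃ t : ZMod p, σ • v₀ = chi p σ • v₀ + t • c₀ := by
    intro σ
    have h1 := hadm.cyclo_quot σ v₀
    rw [hchi] at h1
    obtain ⟨t, ht⟩ := hCgen _ h1
    exact ⟨t, by rw [ht]; abel⟩
  choose b hbv using hbex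
  have hcfix : ∀ σ : GQ, σ • c₀ = c₀ := fun σ => hadm.fixed_sub σ c₀ hc₀C
  have hb : ∀ σ τ, b (σ * τ) = chi p τ * b σ + b τ := by
    intro σ τ
    have h1 := hbv (σ * τ)
    rw [mul_smul, hbv τ, smul_add, smul_comm σ, smul_comm σ, hcfix, hbv σ, chi_mul, smul_add,
      smul_smul, smul_smul, mul_comm (chi p τ) (chi p σ), add_assoc, ← add_smul] at h1
    have h2 := add_left_cancel h1
    exact (hinj _ _ h2).symm
  -- the kernel
  let N : Subgroup GQ :=
    { carrier := {σ : GQ | ∀ v : V, σ • v = v}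
      mul_mem' := fun {a b} ha hb v => by rw [mul_smul, hb v, ha v]
      one_mem' := fun v => one_smul _ v
      inv_mem' := fun {a} ha v => by rw [inv_smul_eq_iff]; exact (ha v).symm }
  have hNopen : IsOpen (N : Set GQ) := hadm.open_kernel
  have hN : ∀ σ, σ ∈ N ↔ chi p σ = 1 ∧ b σ = 0 := by
    intro σ
    constructor
    · intro h
      have h1 : σ • v₀ = v₀ := h v₀
      have h2 := hbv σ
      rw [h1] at h2
      have h3 : (1 - chi p σ) • v₀ = b σ • c₀ := by
        rw [sub_smul, one_smul, sub_eq_iff_eq_add, add_comm]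
        exact h2
      have h4 : (1 - chi p σ) = 0 := hv₀s _ (by rw [h3]; exact C.smul_mem _ hc₀C)
      refine ⟨(sub_eq_zero.mp h4).symm, ?_⟩
      rw [h4, zero_smul] at h3
      exact hinj _ _ (by rw [zero_smul]; exact h3.symm)
    · rintro ⟨h1, h2⟩ v
      obtain ⟨s, t, rfl⟩ := hgen v
      rw [smul_add, smul_comm σ, smul_comm σ, hcfix, hbv σ, h1, h2, zero_smul, add_zero, one_smul]
  have hinert : ∀ ℓ : ℕ, ℓ.Prime → ℓ ≠ p → ∀ A : ValuationSubring Ω, A.LiesOverPrime ℓ →
      ∀ σ ∈ A.inertiaSubgroupIn ℚ, σ ∈ N := fun ℓ hℓ hℓp A hA σ hσ v =>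
    hadm.unramified_outside ℓ hℓ hℓp A hA σ hσ v
  have hdec : ∀ A : ValuationSubring Ω, A.LiesOverPrime p →
      ∀ σ ∈ A.decompositionSubgroup ℚ, chi p σ = 1 → σ ∈ N := by
    intro A hA σ hσ hχ
    rw [hN]
    refine ⟨hχ, ?_⟩
    obtain ⟨C', hC'stab, hcompl⟩ := hadm.locally_split A hA
    obtain ⟨c, hc, c', hc', hcc'⟩ := Submodule.mem_sup.mp
      (show v₀ ∈ C ⊔ C' by rw [hcompl.sup_eq_top]; trivial)
    have h1 : σ • c' = c' + b σ • c₀ := by
      have h2 : c' = v₀ - c := by rw [← hcc']; abel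
      rw [h2, smul_sub, hbv σ, hχ, one_smul, hadm.fixed_sub σ c hc]
      abel
    have h2 : b σ • c₀ ∈ C' := by
      have h3 := C'.sub_mem (hC'stab σ hσ c' hc') hc'
      rw [h1] at h3
      simpa using h3
    have h3 : b σ • c₀ ∈ C ⊓ C' := ⟨C.smul_mem _ hc₀C, h2⟩
    rw [hcompl.inf_eq_bot, Submodule.mem_bot] at h3
    exact hinj _ _ (by rw [zero_smul]; exact h3)
  have hvan := no_cocycle p hC h3 hb N hN hNopen hinert hdec
  obtain ⟨μ, hμ⟩ := coboundary p hb hvan
  have hkey : ∀ σ : GQ, σ • (v₀ + μ • c₀) = chi p σ • (v₀ + μ • c₀) := by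
    intro σ
    rw [smul_add, smul_comm σ, hcfix, hbv σ, hμ σ, smul_add, smul_smul, add_assoc, ← add_smul]
    congr 2
    ring
  refine ⟨Submodule.span (ZMod p) {v₀ + μ • c₀}, ?_, ?_⟩
  · intro σ x hx
    obtain ⟨s, rfl⟩ := Submodule.mem_span_singleton.mp hx
    rw [smul_comm σ, hkey, smul_smul]
    exact Submodule.smul_mem _ _ (Submodule.mem_span_singleton_self _)
  · constructor
    · rw [Submodule.disjoint_def]
      intro x hx hx'
      obtain ⟨s, rfl⟩ := Submodule.mem_span_singleton.mp hx'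
      have h1 : s • v₀ ∈ C := by
        have h2 := C.sub_mem hx (C.smul_mem (s * μ) hc₀C)
        rw [smul_add, smul_smul, add_sub_cancel_right] at h2
        exact h2
      rw [hv₀s s h1, zero_smul]
    · rw [codisjoint_iff, Submodule.eq_top_iff']
      intro x
      obtain ⟨s, t, rfl⟩ := hgen x
      rw [Submodule.mem_sup]
      refine ⟨(t - s * μ) • c₀, C.smul_mem _ hc₀C, s • (v₀ + μ • c₀),
        Submodule.smul_mem _ _ (Submodule.mem_span_singleton_self _), ?_⟩
      rw [smul_add, smul_smul, sub_smul]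
      abel

end Fermat.Agent.S14Lib
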